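import Fermat.Agent.ML.TWFree.Inst.QSq
import Fermat.Agent.ML.TWFree.Inst.Lvl
import Fermat.Agent.ML.TWFree.KCube
import Fermat.Agent.ML.Tower.Def

/-!
# ML / LIFT / Inst / New : the bridge  `Tower.IsNewAt`  ⟷  `TWFree.newPart` of a cube

* `isNewAt_castJ` : `IsNewAt` does not see the name of the level;
* `isNewAt_iff_PiE` : `IsNewAt N' l x ↔ ∀ i, PiE h i x = 0` for ONE equation `h : N' = N * l * l`;
* `isNewAt_lev_iff` : at a vertex of the cube, `IsNewAt (lev L qv Q) (qv a) x ↔ ∀ i, PiQ L qv (Q.erase a) Q a i x = 0`;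
* `mem_newPart_iff` : `x ∈ TWFree.newPart Θ (PiQ L qv) R Q ↔ x ∈ Θ Q ∧ ∀ a ∈ R, a ∈ Q → IsNewAt ..`;
* `topJ_mem_iff`, `isNewAt_topJ` : the same at the top of the tower `lvl L (extP qv) t`.
-/

set_option autoImplicit false
set_option linter.unusedSectionVars false

noncomputable section

open AlgebraicCurve ModularCurve

namespace Fermat.Agent.ML.Lift

open Fermat.Agent.RIB Fermat.Agent.GAL Fermat.Agent.GAL.PC Fermat.Agent.ML Fermat.Agent.ML.TWFree

local notation "GQ" => (AlgebraicClosure ℚ ≃ₐ[ℚ] AlgebraicClosure ℚ)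

section Cast

variable {N N' : ℕ} [NeZero N] [NeZero N']

theorem isNewAt_castJ (e : N = N') {l : ℕ} {x : JZero N} :
    Tower.IsNewAt N' l (castJ e x) ↔ Tower.IsNewAt N l x := by
  subst e
  rfl

/-- one equation is enough. -/
theorem isNewAt_iff_PiE {l : ℕ} [NeZero l] (h : N' = N * l * l) {x : JZero N'} :
    Tower.IsNewAt N' l x ↔ ∀ i, PiE h i x = 0 := by
  subst h
  exact Tower.isNewAt_mul

end Cast

section Cube

variable {L : ℕ} [NeZero L] {t : ℕ} {qv : Fin t → Nat.Primes}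

theorem lev_erase_mul (L : ℕ) (qv : Fin t → Nat.Primes) {Q : Finset (Fin t)} {a : Fin t}
    (ha : a ∈ Q) : lev L qv Q =
      lev L qv (Q.erase a) * ((qv a : Nat.Primes) : ℕ) * ((qv a : Nat.Primes) : ℕ) := by
  conv_lhs => rw [← Finset.insert_erase ha]
  exact lev_insert L qv (Finset.notMem_erase a Q)

theorem isNewAt_lev_iff {Q : Finset (Fin t)} {a : Fin t} (ha : a ∈ Q) {x : JZero (lev L qv Q)} :
    Tower.IsNewAt (lev L qv Q) ((qv a : Nat.Primes) : ℕ) x ↔
      ∀ i, PiQ L qv (Q.erase a) Q a i x = 0 := by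
  haveI : NeZero ((qv a : Nat.Primes) : ℕ) := ⟨(qv a).2.ne_zero⟩
  rw [isNewAt_iff_PiE (lev_erase_mul L qv ha), PiQ_of_eq (lev_erase_mul L qv ha)]

theorem mem_newPart_iff {Θ : ∀ Q : Finset (Fin t), AddSubgroup (JZero (lev L qv Q))}
    {R Q : Finset (Fin t)} {x : JZero (lev L qv Q)} :
    x ∈ newPart Θ (PiQ L qv) R Q ↔
      x ∈ Θ Q ∧ ∀ a ∈ R, a ∈ Q → Tower.IsNewAt (lev L qv Q) ((qv a : Nat.Primes) : ℕ) x := by
  rw [mem_newPart]
  refine and_congr_right fun _ => ?_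
  constructor
  · intro h a haR haQ
    exact (isNewAt_lev_iff haQ).2 (h a haR haQ)
  · intro h a haR haQ
    exact (isNewAt_lev_iff haQ).1 (h a haR haQ)

/-- the totally new part at the top vertex. -/
theorem mem_newPart_univ_iff {Θ : ∀ Q : Finset (Fin t), AddSubgroup (JZero (lev L qv Q))}
    {x : JZero (lev L qv Finset.univ)} :
    x ∈ newPart Θ (PiQ L qv) Finset.univ Finset.univ ↔
      x ∈ Θ Finset.univ ∧
        ∀ a, Tower.IsNewAt (lev L qv Finset.univ) ((qv a : Nat.Primes) : ℕ) x := by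
  rw [mem_newPart_iff]
  exact and_congr_right fun _ =>
    ⟨fun h a => h a (Finset.mem_univ a) (Finset.mem_univ a), fun h a _ _ => h a⟩

theorem isNewAt_topJ {l : ℕ} {x : JZero (lev L qv Finset.univ)} :
    Tower.IsNewAt (lvl L (extP qv) t) l (topJ L qv x) ↔
      Tower.IsNewAt (lev L qv Finset.univ) l x := isNewAt_castJ _

theorem isNewAt_topJ_symm {l : ℕ} {x : JZero (lvl L (extP qv) t)} :
    Tower.IsNewAt (lev L qv Finset.univ) l ((topJ L qv).symm x) ↔
      Tower.IsNewAt (lvl L (extP qv) t) l x := by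
  rw [← isNewAt_topJ, AddEquiv.apply_symm_apply]

variable {p : ℕ} {S : Set ℕ} {θ : ℕ → ℤ}

/-- the totally new part of the `θ`-cube, read at the top of the tower. -/
theorem topJ_symm_mem_newPart_iff {x : JZero (lvl L (extP qv) t)} :
    (topJ L qv).symm x ∈ newPart (fun Q => thetaPart (lev L qv Q) p S θ) (PiQ L qv)
        Finset.univ Finset.univ ↔
      x ∈ thetaPart (lvl L (extP qv) t) p S θ ∧
        ∀ a, Tower.IsNewAt (lvl L (extP qv) t) ((qv a : Nat.Primes) : ℕ) x := by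
  rw [mem_newPart_univ_iff, topJ_symm_mem_thetaPart]
  exact and_congr_right fun _ => forall_congr' fun a => isNewAt_topJ_symm

end Cube

section KCube

variable {L L' q : ℕ} [NeZero L] [NeZero L'] [NeZero q] {t : ℕ} {qv : Fin t → Nat.Primes}
  {p : ℕ} {S : Set ℕ} {θ : ℕ → ℤ}

theorem lvl_mul_q (hL : L' = L * q) (qv : Fin t → Nat.Primes) :
    lvl L' (extP qv) t = lvl L (extP qv) t * q := by
  subst hL
  rw [lvl_eq_prod, lvl_eq_prod]; ring

/-- `dnQ` at the top vertex is `dnE` at the top of the tower. -/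
theorem topJ_dnQ (hL : L' = L * q) (c : Fin 2) (y : JZero (lev L' qv Finset.univ)) :
    topJ L qv (dnQ qv hL Finset.univ c y) = dnE (lvl_mul_q hL qv) c (topJ L' qv y) := by
  have key : ∀ (N₁ N₂ N₁' N₂' : ℕ) [NeZero N₁] [NeZero N₂] [NeZero N₁'] [NeZero N₂']
      (e : N₁ = N₂) (e' : N₁' = N₂') (h₁ : N₁' = N₁ * q) (h₂ : N₂' = N₂ * q) (y : JZero N₁'),
      castJ e (dnE h₁ c y) = dnE h₂ c (castJ e' y) := by
    intro N₁ N₂ N₁' N₂' _ _ _ _ e e' h₁ h₂ y
    subst e e'
    rfl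
  exact key _ _ _ _ _ _ _ _ y

/-- `upQ` at the top vertex is `upE` at the top of the tower. -/
theorem topJ_upQ (hL : L' = L * q) (c : Fin 2) (x : JZero (lev L qv Finset.univ)) :
    topJ L' qv (upQ qv hL Finset.univ c x) = upE (lvl_mul_q hL qv) c (topJ L qv x) := by
  have key : ∀ (N₁ N₂ N₁' N₂' : ℕ) [NeZero N₁] [NeZero N₂] [NeZero N₁'] [NeZero N₂']
      (e : N₁ = N₂) (e' : N₁' = N₂') (h₁ : N₁' = N₁ * q) (h₂ : N₂' = N₂ * q) (x : JZero N₁),
      castJ e' (upE h₁ c x) = upE h₂ c (castJ e x) := by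
    intro N₁ N₂ N₁' N₂' _ _ _ _ e e' h₁ h₂ x
    subst e e'
    rfl
  exact key _ _ _ _ _ _ _ _ x

/-- the totally new part of the `K`-cube (`q`-new parts), read at the top of the tower. -/
theorem topJ_symm_mem_newPartK_iff (hL : L' = L * q) {x : JZero (lvl L' (extP qv) t)} :
    (topJ L' qv).symm x ∈
        newPart (fun Q => kerSub (thetaPart (lev L' qv Q) p S θ) (dnQ qv hL Q)) (PiQ L' qv)
          Finset.univ Finset.univ ↔
      x ∈ thetaPart (lvl L' (extP qv) t) p S θ ∧ (∀ c, dnE (lvl_mul_q hL qv) c x = 0) ∧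
        ∀ a, Tower.IsNewAt (lvl L' (extP qv) t) ((qv a : Nat.Primes) : ℕ) x := by
  rw [mem_newPart_univ_iff, mem_kerSub, topJ_symm_mem_thetaPart, and_assoc]
  refine and_congr_right fun _ => and_congr (forall_congr' fun c => ?_)
    (forall_congr' fun a => isNewAt_topJ_symm)
  have h1 := topJ_dnQ (qv := qv) hL c ((topJ L' qv).symm x)
  rw [AddEquiv.apply_symm_apply] at h1
  rw [← h1]
  exact (map_eq_zero_iff (topJ L qv) (topJ L qv).injective).symm

end KCube

end Fermat.Agent.ML.Lift
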