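import Fermat.Agent.ML.TWFree.Inst.QSq
import Fermat.Agent.ML.Raise.Emb
import Fermat.Agent.ML.Tower.Def

/-!
# ML / LIFT / Inst / Geo : the geometric inputs of the raising step at `q`, with FREE levels

`h : Nq = N * q`, `upE h c`, `dnE h c` (`ML/TWFree/Inst/QSq.lean`), `embE h ε = upE h 0 - ε • upE h 1`.

* (G1) `upE_injOn`, `upE_pair_injOn`, `embE_injOn` : Ihara on the `θ`-part;
* (G2) `dnE_embE_of_hecke`, `dnE_embE_of_frob` : **(EMB)** `e_q v ∈ ker Π_q`;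
* (G3) `isNewAt_upE`, `isNewAt_dnE`, `isNewAt_embE` : newness at `l ≠ q` is transported;
* (G4) `embE_smul`, `embE_mem_thetaPart`, `embE_hecke`, torsion.
-/

set_option autoImplicit false
set_option linter.unusedSectionVars false

noncomputable section

open AlgebraicCurve ModularCurve

namespace Fermat.Agent.ML.Lift

open Fermat.Agent.RIB Fermat.Agent.GAL Fermat.Agent.GAL.PC Fermat.Agent.ML Fermat.Agent.ML.TWFree

local notation "Qbar" => AlgebraicClosure ℚ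
local notation "GQ" => (AlgebraicClosure ℚ ≃ₐ[ℚ] AlgebraicClosure ℚ)

variable {N Nq q : ℕ} [NeZero N] [NeZero Nq] [NeZero q]

/-- `e_q v = α^* v - ε β^* v` with a free upper level. -/
def embE (h : Nq = N * q) (ε : ℤ) : JZero N →+ JZero Nq := upE h 0 - ε • upE h 1

theorem embE_apply (h : Nq = N * q) (ε : ℤ) (v : JZero N) :
    embE h ε v = upE h 0 v - ε • upE h 1 v := rfl

theorem embE_eq_castJ (h : Nq = N * q) (ε : ℤ) (v : JZero N) :
    embE h ε v = castJ h.symm (Raise.emb N q ε v) := by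
  rw [embE_apply, upE_zero, upE_one, Raise.emb_apply, map_sub, map_zsmul]

/-! ### (G4) -/

theorem embE_smul (h : Nq = N * q) (ε : ℤ) (σ : GQ) (v : JZero N) :
    embE h ε (σ • v) = σ • embE h ε v := by
  rw [embE_apply, embE_apply, upE_smul, upE_smul, smul_sub, smul_comm σ ε]

variable {p : ℕ} {S : Set ℕ} {θ : ℕ → ℤ}

theorem embE_mem_thetaPart (h : Nq = N * q) (hS : ∀ r : ℕ, r.Prime → r ∉ S → ¬ r ∣ Nq * p)
    (ε : ℤ) {v : JZero N} (hv : v ∈ thetaPart N p S θ) : embE h ε v ∈ thetaPart Nq p S θ :=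
  (thetaPart Nq p S θ).sub_mem (upE_mem_thetaPart h hS 0 hv)
    ((thetaPart Nq p S θ).zsmul_mem (upE_mem_thetaPart h hS 1 hv) ε)

theorem embE_hecke (h : Nq = N * q) (ε : ℤ) (r : Nat.Primes) (hr : ¬ (r : ℕ) ∣ Nq * p)
    (v : JZero N) (hv : v ∈ ptors (JZero N) p) :
    embE h ε (heckeOperatorBar N r v) = heckeOperatorBar Nq r (embE h ε v) := by
  rw [embE_apply, embE_apply, upE_hecke h 0 r hr v hv, upE_hecke h 1 r hr v hv, map_sub,
    map_zsmul]

/-! ### (G1) -/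

/-- **(G1)** Ihara : `(x, y) ↦ α^* x + β^* y` is injective on the `θ`-part. -/
theorem upE_pair_injOn (hp : p.Prime) (hq : q.Prime) (hqN : ¬ q ∣ N) (hAP : NonEisAP p S θ)
    (hqS : q ∈ S) (h : Nq = N * q) {x y : JZero N} (hx : x ∈ thetaPart N p S θ)
    (hy : y ∈ thetaPart N p S θ) (h0 : upE h 0 x + upE h 1 y = 0) : x = 0 ∧ y = 0 := by
  subst h
  exact ihara_theta hp (iharaTors hq hqN) hAP hqS hx hy h0

/-- **(G1)** `α^*`, `β^*` are injective on the `θ`-part. -/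
theorem upE_injOn (hp : p.Prime) (hq : q.Prime) (hqN : ¬ q ∣ N) (hAP : NonEisAP p S θ)
    (hqS : q ∈ S) (h : Nq = N * q) (c : Fin 2) {v : JZero N} (hv : v ∈ thetaPart N p S θ)
    (h0 : upE h c v = 0) : v = 0 := by
  fin_cases c
  · refine (upE_pair_injOn hp hq hqN hAP hqS h hv (thetaPart N p S θ).zero_mem ?_).1
    rw [map_zero, add_zero]
    exact h0
  · refine (upE_pair_injOn hp hq hqN hAP hqS h (thetaPart N p S θ).zero_mem hv ?_).2
    rw [map_zero, zero_add]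
    exact h0

/-- **(G1)** `e_q` is injective on the `θ`-part. -/
theorem embE_injOn (hp : p.Prime) (hq : q.Prime) (hqN : ¬ q ∣ N) (hAP : NonEisAP p S θ)
    (hqS : q ∈ S) (h : Nq = N * q) (ε : ℤ) {v : JZero N} (hv : v ∈ thetaPart N p S θ)
    (h0 : upE h 0 v - ε • upE h 1 v = 0) : v = 0 := by
  refine (upE_pair_injOn hp hq hqN hAP hqS h hv
    ((thetaPart N p S θ).neg_mem ((thetaPart N p S θ).zsmul_mem hv ε)) ?_).1
  rw [map_neg, map_zsmul, ← sub_eq_add_neg]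
  exact h0

/-! ### (G2) -/

/-- **(G2)**, Hecke form. -/
theorem dnE_embE_of_hecke (hq : q.Prime) (hqN : ¬ q ∣ N) (hp : p.Prime) (hqp : q ≠ p) {ε : ℤ}
    (hε : ε * ε = 1) (h : Nq = N * q) {v : JZero N} (hv : ∃ k : ℕ, p ^ k • v = 0)
    (hc : heckeOperatorBar N ⟨q, hq⟩ v = (ε * ((q : ℤ) + 1)) • v) (k : Fin 2) :
    dnE h k (upE h 0 v - ε • upE h 1 v) = 0 := by
  subst h
  have h1 := Raise.emb_mem_ker hq hqN hp hqp hε hv hc
  fin_cases k
  · exact h1.1
  · exact h1.2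

/-- **(G2)** **(EMB)**, Galois form : `σ v + q σ⁻¹ v = ε (q+1) v` for a Frobenius `σ` at `q` ⟹ `e_q v ∈ ker Π_q`. -/
theorem dnE_embE_of_frob (hq : q.Prime) (hqN : ¬ q ∣ N) (hp : p.Prime) (hqp : q ≠ p) {ε : ℤ}
    (hε : ε * ε = 1) (h : Nq = N * q) {A : ValuationSubring Qbar} (hA : A.LiesOverPrime q) {σ : GQ}
    (hσ : A.IsFrobeniusAt σ q) {v : JZero N} (hv : ∃ k : ℕ, p ^ k • v = 0)
    (hc : σ • v + q • σ⁻¹ • v = (ε * ((q : ℤ) + 1)) • v) (k : Fin 2) :
    dnE h k (upE h 0 v - ε • upE h 1 v) = 0 := by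
  subst h
  have h1 := Raise.emb_mem_ker_of_frob hq hqN hp hqp hε hA hσ hv hc
  fin_cases k
  · exact h1.1
  · exact h1.2

/-! ### (G3) -/

/-- **(G3)** `α_q^*`, `β_q^*` preserve newness at `l ≠ q`. -/
theorem isNewAt_upE {l : ℕ} (hq : q.Prime) (hl : l.Prime) (hne : l ≠ q) (h : Nq = N * q)
    (c : Fin 2) {v : JZero N} (hv : Tower.IsNewAt N l v) : Tower.IsNewAt Nq l (upE h c v) := by
  intro M' _ _ h' i
  -- `l * l ∣ N`
  have hcop : Nat.Coprime (l * l) q :=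
    Nat.Coprime.mul_left ((Nat.coprime_primes hl hq).2 hne) ((Nat.coprime_primes hl hq).2 hne)
  have hdvd : l * l ∣ N := by
    refine hcop.dvd_of_dvd_mul_right ?_
    rw [← h, h', mul_assoc]
    exact Dvd.intro_left _ rfl
  obtain ⟨M, hM⟩ := hdvd
  have hN : N = M * l * l := by rw [hM]; ring
  have hM0 : NeZero M := ⟨by
    rintro rfl
    exact NeZero.ne N (by rw [hN]; simp)⟩
  have hM' : M' = M * q := by
    refine Nat.eq_of_mul_eq_mul_right hl.pos (Nat.eq_of_mul_eq_mul_right hl.pos ?_)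
    rw [← h', h, hN]; ring
  have h1 := PiE_upE hq hl (Ne.symm hne) hM' hN h' h i c v
  have h2 : PiE hN i v = 0 := hv M hN i
  rw [h2, map_zero] at h1
  exact h1

/-- **(G3')** `α_{q *}`, `β_{q *}` preserve newness at `l`. -/
theorem isNewAt_dnE {l : ℕ} (h : Nq = N * q) (c : Fin 2) {y : JZero Nq}
    (hy : Tower.IsNewAt Nq l y) : Tower.IsNewAt N l (dnE h c y) := by
  intro M _ _ hN i
  have hT : Nq = M * q * l * l := by rw [h, hN]; ring
  have h1 := PiE_dnE (rfl : M * q = M * q) hN hT h i c y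
  have h2 : PiE hT i y = 0 := hy (M * q) hT i
  rw [h2, map_zero] at h1
  exact h1

theorem isNewAt_zsmul {l : ℕ} {v : JZero N} (hv : Tower.IsNewAt N l v) (n : ℤ) :
    Tower.IsNewAt N l (n • v) := fun M _ _ h i => by
  rw [map_zsmul, map_zsmul, hv M h i, smul_zero]

theorem isNewAt_sub {l : ℕ} {v w : JZero N} (hv : Tower.IsNewAt N l v)
    (hw : Tower.IsNewAt N l w) : Tower.IsNewAt N l (v - w) := by
  rw [sub_eq_add_neg]
  exact hv.add hw.neg

/-- **(G3)** for `e_q`. -/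
theorem isNewAt_embE {l : ℕ} (hq : q.Prime) (hl : l.Prime) (hne : l ≠ q) (h : Nq = N * q)
    (ε : ℤ) {v : JZero N} (hv : Tower.IsNewAt N l v) :
    Tower.IsNewAt Nq l (upE h 0 v - ε • upE h 1 v) :=
  isNewAt_sub (isNewAt_upE hq hl hne h 0 hv) (isNewAt_zsmul (isNewAt_upE hq hl hne h 1 hv) ε)

end Fermat.Agent.ML.Lift
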