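import Fermat.Agent.ML.Main.Fin.Gen
import Fermat.Agent.ML.Rho.FlatSub
import Fermat.Agent.ML.Main.LocCalc

/-!
# ML / Lift / Inst / GenSub : (GEN) for a stage module inside a step   [A2-GEN]

`N'` ANY level, `X' ≤ J₀(N')`, `H : Rho.IsRhoK N' (p^(K+1)) X' (rEB B) πE ρ Φ` (the ring of the step, at the UPPER level),
`Y ≤ X'` a Galois-stable `R`-submodule (`= uA G`, `G` the cell at the lower level).

* `genHyp_sub` : all the fields of `GenHypMZ` for `J = Ann_R(Y) ⊔ I`, except `strict` (hypothesis), from the local conditions of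
  `ML/Main/Cell.lean` on a set `YS ⊇ Y` of points of `J₀(N')`;
* `min_of_cell` : the hypothesis `hmin` from `IsCell` at the lower level.
-/

set_option autoImplicit false
set_option linter.unusedSectionVars false

noncomputable section

open AlgebraicCurve ModularCurve

namespace Fermat.Agent.ML.StepGen

open Fermat.Agent.GAL Fermat.Agent.RIB Fermat.Agent.RIB.Rho Fermat.Agent.ML.ESide Fermat.Agent.ML.Rho
  Fermat.Agent.ML.Lift Fermat.Agent.S56 Fermat.Agent.S56.Flat Fermat.Agent.ML.FinGen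

local notation "Qbar" => AlgebraicClosure ℚ
local notation "GQ" => (AlgebraicClosure ℚ ≃ₐ[ℚ] AlgebraicClosure ℚ)
local notation "M₂" => Matrix (Fin 2) (Fin 2)

/-! ### an inverse of an injective map on its image -/

/-- a section of `f : G → Y`. -/
theorem exists_section {A B : Type*} [AddCommGroup A] [AddCommGroup B] (G : AddSubgroup A)
    (f : A →+ B) (hinj : ∀ v ∈ G, f v = 0 → v = 0) (Y : AddSubgroup B)
    (hY : ∀ y ∈ Y, ∃ v ∈ G, f v = y) :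
    ∃ ι : ↥Y →+ A, ∀ y : ↥Y, ι y ∈ G ∧ f (ι y) = y := by
  classical
  choose s hs using fun y : ↥Y => hY y.1 y.2
  have huniq : ∀ v ∈ G, ∀ w ∈ G, f v = f w → v = w := fun v hv w hw h =>
    sub_eq_zero.1 (hinj _ (G.sub_mem hv hw) (by rw [map_sub, h, sub_self]))
  refine ⟨AddMonoidHom.mk' s fun y y' => ?_, fun y => hs y⟩
  refine huniq _ (hs _).1 _ (G.add_mem (hs y).1 (hs y').1) ?_
  rw [(hs _).2, map_add, (hs y).2, (hs y').2]
  rfl

/-! ### the stage module inside `V = X' × Λ²` -/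

section Sub

variable {L m : ℕ} [NeZero L] [NeZero m] {R : Type} [CommRing R] [Algebra (ZMod m) R]
  {X : AddSubgroup (JZero L)} [Module R ↥X] {rE : GQ →* M₂ (ZMod m)}
  {πE : R →ₐ[ZMod m] ZMod m} {ρ : GQ →* M₂ R} {Φ : M₂ R →ₐ[R] Module.End R ↥X}

/-- `Y × 0 ≤ V`. -/
def subVJ (rE : GQ →* M₂ (ZMod m)) (πE : R →ₐ[ZMod m] ZMod m) (ρ : GQ →* M₂ R)
    (Φ : M₂ R →ₐ[R] Module.End R ↥X) (Y : Submodule R ↥X) : Submodule R (VJ X rE πE ρ Φ) where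
  carrier := {v | (v.1 : ↥X) ∈ Y ∧ v.2 = 0}
  zero_mem' := ⟨Y.zero_mem, rfl⟩
  add_mem' := by
    rintro v w ⟨h1, h2⟩ ⟨h3, h4⟩
    exact ⟨Y.add_mem h1 h3, by rw [Prod.snd_add, h2, h4, add_zero]⟩
  smul_mem' := by
    rintro a v ⟨h1, h2⟩
    exact ⟨Y.smul_mem a h1, by rw [Prod.smul_snd, h2, smul_zero]⟩

theorem mem_subVJ {Y : Submodule R ↥X} {v : VJ X rE πE ρ Φ} :
    v ∈ subVJ rE πE ρ Φ Y ↔ (v.1 : ↥X) ∈ Y ∧ v.2 = 0 := Iff.rfl

/-- `y ↦ (y, 0)`. -/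
def inlVJ (rE : GQ →* M₂ (ZMod m)) (πE : R →ₐ[ZMod m] ZMod m) (ρ : GQ →* M₂ R)
    (Φ : M₂ R →ₐ[R] Module.End R ↥X) (y : ↥X) : VJ X rE πE ρ Φ := (y, 0)

theorem inlVJ_mem {Y : Submodule R ↥X} {y : ↥X} (hy : y ∈ Y) :
    inlVJ rE πE ρ Φ y ∈ subVJ rE πE ρ Φ Y := ⟨hy, rfl⟩

theorem annihilator_subVJ (Y : Submodule R ↥X) :
    (subVJ rE πE ρ Φ Y).annihilator = Y.annihilator := by
  ext a
  rw [Submodule.mem_annihilator, Submodule.mem_annihilator]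
  constructor
  · intro h y hy
    exact congrArg Prod.fst (h (inlVJ rE πE ρ Φ y) (inlVJ_mem hy))
  · rintro h v ⟨h1, h2⟩
    refine Prod.ext (h _ h1) ?_
    rw [Prod.smul_snd, h2, smul_zero]
    rfl

theorem subVJ_ne_bot {Y : Submodule R ↥X} (hY : Y ≠ ⊥) : subVJ rE πE ρ Φ Y ≠ ⊥ := by
  intro h
  refine hY ((Submodule.eq_bot_iff _).2 fun y hy => ?_)
  have h1 : inlVJ rE πE ρ Φ y ∈ subVJ rE πE ρ Φ Y := inlVJ_mem hy
  rw [h, Submodule.mem_bot] at h1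
  exact congrArg Prod.fst h1

variable (H : Fermat.Agent.ML.Rho.IsRhoK L m X rE πE ρ Φ)

include H in
theorem smul_mem_subVJ {Y : Submodule R ↥X}
    (hYG : ∀ (g : GQ), ∀ y ∈ Y, ∀ y' : ↥X, (y' : JZero L) = g • (y : JZero L) → y' ∈ Y)
    (g : GQ) (v : VJ X rE πE ρ Φ) (hv : v ∈ subVJ rE πE ρ Φ Y) :
    g • v ∈ subVJ rE πE ρ Φ Y := by
  obtain ⟨h1, h2⟩ := hv
  refine ⟨hYG g _ h1 _ (H.act g _), ?_⟩
  rw [Prod.smul_snd, h2, smul_zero]

end Sub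

/-! ### (GEN) for the stage module -/

section Main

variable {W : WeierstrassCurve ℤ} {p : ℕ} [Fact p.Prime] {T : Finset ℕ}
  {b : Module.Basis (Fin 2) (ZMod p) (TorsW W p)} {L₀ : ℕ} [NeZero L₀] {eps : ℕ → ℤ}
  {eP : GQ → ℤ} (X : LCtx W p T b L₀ eps eP) {t K : ℕ} {qv : Fin t → Nat.Primes}
  {N' : ℕ} [NeZero N'] {X' : AddSubgroup (JZero N')}
  {B : Module.Basis (Fin 2) (ZMod (p ^ (K + 1))) (TorsW W (p ^ (K + 1)))}
  (C : TopCtx W p b K B N' X')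
  {R : Type} [CommRing R] [Algebra (ZMod (p ^ (K + 1))) R] [Module R ↥X']
  {πE : R →ₐ[ZMod (p ^ (K + 1))] ZMod (p ^ (K + 1))} {ρ : GQ →* M₂ R}
  {Φ : M₂ R →ₐ[R] Module.End R ↥X'}
  (H : Fermat.Agent.ML.Rho.IsRhoK N' (p ^ (K + 1)) X' (rEB B) πE ρ Φ)

include C in
theorem finite_top : Finite ↥X' :=
  Set.Finite.to_subtype ((finite_torsion_JZero _ (p ^ (K + 1))
    (pow_ne_zero _ (Fact.out : p.Prime).ne_zero)).subset fun x hx => C.hXm x hx)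

/-- the flat alternative at `p` : `Y` is the isomorphic image of a subgroup of `J₀(L)[p^n]`, `p ∤ L`. -/
def FlatData (p : ℕ) {N' : ℕ} [NeZero N'] (YS : Set (JZero N')) : Prop :=
  ∃ (L : ℕ) (_ : NeZero L) (G : AddSubgroup (JZero L)) (u : JZero L →+ JZero N') (n : ℕ),
    ¬ p ∣ L ∧ (∀ (g : GQ) v, u (g • v) = g • u v) ∧ (∀ g : GQ, ∀ v ∈ G, g • v ∈ G) ∧
    (∀ v ∈ G, u v = 0 → v = 0) ∧ (∀ v ∈ G, p ^ n • v = 0) ∧ ∀ y ∈ YS, ∃ v ∈ G, u v = y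

include X C H in
/-- **(GEN) for a stage module** `Y` inside a step : all the fields of `GenHypMZ`, `J = Ann_R(Y) ⊔ I`, except `strict`. -/
theorem genHyp_sub [IsLocalRing R]
    (hlev : ∀ q : Nat.Primes, q ∉ toP T ∪ Finset.univ.image qv → ¬ (q : ℕ) ∣ N' * p)
    (Y : Submodule R ↥X')
    (hYG : ∀ (g : GQ), ∀ y ∈ Y, ∀ y' : ↥X', (y' : JZero N') = g • (y : JZero N') → y' ∈ Y)
    (hY0 : Y ≠ ⊥) (YS : Set (JZero N')) (hYS : ∀ y ∈ Y, ((y : ↥X') : JZero N') ∈ YS)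
    (Rs : Finset Nat.Primes) (I : Ideal R) (hI : ∀ a ∈ I, pi0 πE a = 0)
    (hstrict : ∀ v ∈ Rs, ∃ M : M₂ R, IsUnit (M.map (pi0 πE)) ∧
      ∀ σ ∈ CFT.decomp v, ConjConst ℤ (Y.annihilator ⊔ I) M (ρ σ))
    (hmin : ∀ v ∈ toP T, v ∉ Rs → v ≠ ExtCitation.pPrime p →
      LocUr (v : ℕ) YS ∨ (Ram (rbarB b) (v : ℕ) ∧ LocUnip (v : ℕ) YS))
    (hatp : FlatData p YS ∨
      ((∀ s ∈ (Ap p).inertiaSubgroupIn ℚ, eP s = 1) ∧ LocPSt p eP (K + 1) YS)) :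
    GenHypMZ p (rbarB b) (toP T) (Finset.univ.image qv) Rs (pi0 πE) ρ (Y.annihilator ⊔ I) := by
  have := finite_top C
  have hadj : Algebra.adjoin R (Set.range ρ) = ⊤ := X.C.adjoin_range_rho' (C.lift H)
  set Yt : Submodule R (VJ X' (rEB B) πE ρ Φ) := subVJ (rEB B) πE ρ Φ Y with hYt
  have hYtG : ∀ g : GQ, ∀ x ∈ Yt, g • x ∈ Yt := fun g x hx => smul_mem_subVJ H hYG g x hx
  have hann : Yt.annihilator = Y.annihilator := annihilator_subVJ Y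
  have hmem : ∀ x ∈ Yt, XJ.incl X' ρ Φ x.1 ∈ YS := fun x hx => hYS _ hx.1
  -- equality in `Yt`-translates is checked in `J₀(N')`
  have hur : ∀ q : Nat.Primes, q ∉ toP T ∪ Finset.univ.image qv →
      ∀ A : ValuationSubring Qbar, A.LiesOverPrime (q : ℕ) →
      ∀ σ ∈ A.inertiaSubgroupIn ℚ, ∀ v : VJ X' (rEB B) πE ρ Φ, σ • v = v := by
    intro q hq A hA σ hσ v
    have hgood : W.IsGoodPrimeFor q := fun hd => by
      rw [Finset.mem_union, not_or, mem_toP'] at hq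
      exact hq.1 (X.hbadT q q.2 hd)
    have h3 := C.unram H q.2 (hlev q hq) hgood hA hσ
    rw [← H.rhoAct.act, h3, map_one, Module.End.one_apply]
  have hdet1 : ∀ v ∈ toP T, v ≠ ExtCitation.pPrime p → ∀ σ ∈ inert v, (ρ σ).det = 1 :=
    fun v _ hvp σ hσ =>
      C.det_inertia H v.2 (fun e => hvp (Subtype.ext e)) (liesOverPrime_primeLocalPlace v) hσ
  have hmin' : ∀ v ∈ toP T, v ∉ Rs → v ≠ ExtCitation.pPrime p →
      (∀ σ ∈ inert v, ∀ x ∈ Yt, σ • x = x) ∨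
      ((∃ σ ∈ inert v, rbarB b σ ≠ 1) ∧
        ∀ σ ∈ inert v, ∀ x ∈ Yt, σ • (σ • x - x) = σ • x - x) := by
    intro v hv hvR hvp
    rcases hmin v hv hvR hvp with hu | ⟨hram, hu⟩
    · refine Or.inl fun σ hσ x hx => H.ext_VJ ?_ ?_
      · show XJ.incl X' ρ Φ (σ • x.1) = _
        rw [H.coe_gal]
        exact hu _ (liesOverPrime_primeLocalPlace v) σ hσ _ (hmem x hx)
      · show σ • x.2 = x.2
        rw [hx.2, smul_zero]
    · refine Or.inr ⟨exists_inert_of_ram hram, fun σ hσ x hx => H.ext_VJ ?_ ?_⟩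
      · show XJ.incl X' ρ Φ (σ • (σ • x.1 - x.1)) = XJ.incl X' ρ Φ (σ • x.1 - x.1)
        rw [H.coe_gal, map_sub, H.coe_gal]
        exact hu _ (liesOverPrime_primeLocalPlace v) σ hσ σ hσ _ (hmem x hx)
      · show σ • (σ • x.2 - x.2) = σ • x.2 - x.2
        rw [hx.2, smul_zero, sub_zero, smul_zero]
  have hstrict' : ∀ v ∈ Rs, ∃ M : M₂ R, IsUnit (M.map (pi0 πE)) ∧
      ∀ σ ∈ CFT.decomp v, ConjConst ℤ (Yt.annihilator ⊔ I) M (ρ σ) := by
    rw [hann]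
    exact hstrict
  rw [← hann]
  rcases hatp with ⟨L, _, G, u, n, hpL, hu, hG, hinj, hn, hsurj⟩ | ⟨he1, hord⟩
  · -- flat
    set YA : AddSubgroup (JZero N') := (Y.toAddSubgroup).map X'.subtype with hYA
    obtain ⟨s, hs⟩ := exists_section G u hinj YA (by
      rintro _ ⟨y, hy, rfl⟩
      exact hsurj _ (hYS y hy))
    let toYA : ↥Yt →+ ↥YA :=
      { toFun := fun v => ⟨XJ.incl X' ρ Φ v.1.1, ⟨v.1.1, v.2.1, rfl⟩⟩
        map_zero' := Subtype.ext (map_zero (XJ.incl X' ρ Φ))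
        map_add' := fun v w => Subtype.ext (map_add (XJ.incl X' ρ Φ) v.1.1 w.1.1) }
    set ι : ↥Yt →+ JZero L := s.comp toYA with hι
    have hιu : ∀ v : ↥Yt, u (ι v) = XJ.incl X' ρ Φ v.1.1 := fun v => (hs (toYA v)).2
    have hιG' : ∀ v : ↥Yt, ι v ∈ G := fun v => (hs (toYA v)).1
    have huniq : ∀ v ∈ G, ∀ w ∈ G, u v = u w → v = w := fun v hv w hw h =>
      sub_eq_zero.1 (hinj _ (G.sub_mem hv hw) (by rw [map_sub, h, sub_self]))
    have hιinj : Function.Injective ι := by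
      rw [injective_iff_map_eq_zero]
      intro v hv
      have h1 := hιu v
      rw [hv, map_zero] at h1
      refine Subtype.ext (Prod.ext (XJ.incl_injective X' ρ Φ ?_) v.2.2)
      rw [← h1]
      exact (map_zero _).symm
    have hιeq : ∀ (g : GQ) (x : ↥Yt), ι ⟨g • (x : VJ X' (rEB B) πE ρ Φ), hYtG g x x.2⟩ = g • ι x := by
      intro g x
      refine huniq _ (hιG' _) _ (hG g _ (hιG' x)) ?_
      rw [hιu, hu, hιu]
      exact H.coe_gal g x.1.1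
    let _ := subGalAction Yt hYtG
    have hX : HasFlat (Ap p).valuation (galAct (Ip p) ↥Yt) :=
      hasFlat_galAct_of_jac L hpL n ι hιinj (fun g x => hιeq g x) fun x => hn _ (hιG' x)
    exact GenHypMZ.of_act_sub (V := VJ X' (rEB B) πE ρ Φ) X.C H.rhoAct hadj (C.lift H)
      (C.det_int H) (C.tr_int H) (fun a ha => TopCtx.isUnit_of_pi0 H ha) (C.level H) (toP T)
      (Finset.univ.image qv) Rs hur Yt hYtG (subVJ_ne_bot hY0) I hI hstrict'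
      (AddMonoidHom.id ↥Yt) Function.injective_id (fun _ _ => rfl) hX hdet1 hmin'
  · -- strictly ordinary
    refine GenHypMZ.of_act (V := VJ X' (rEB B) πE ρ Φ) X.C H.rhoAct hadj (C.lift H)
      (C.det_int H) (C.tr_int H) (fun a ha => TopCtx.isUnit_of_pi0 H ha) (C.level H) (toP T)
      (Finset.univ.image qv) Rs hur Yt hYtG (subVJ_ne_bot hY0) I hI hstrict'
      (Or.inr ⟨fun σ => ((eP σ : ℤ) : R), fun σ hσ x _ => ?_, fun σ hσ τ hτ x hx => ?_⟩)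
      hdet1 hmin'
    · show ((eP σ : ℤ) : R) • x = x
      rw [he1 σ hσ, Int.cast_one, one_smul]
    · show σ • (τ • x - ((eP τ : ℤ) : R) • x)
        = ((ρ σ).det * ((eP σ : ℤ) : R)) • (τ • x - ((eP τ : ℤ) : R) • x)
      have h := hord σ hσ τ hτ _ (hmem x hx)
        (chiM (p ^ (K + 1)) σ).val (fun μ hμ => cycloChar_spec _ σ hμ)
      rw [Int.cast_smul_eq_zsmul R, H.det]
      conv_rhs => rw [← ZMod.natCast_zmod_val (chiM (p ^ (K + 1)) σ), map_natCast,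
        ← Int.cast_natCast (R := R), ← Int.cast_mul, Int.cast_smul_eq_zsmul R]
      refine H.ext_VJ ?_ ?_
      · show XJ.incl X' ρ Φ (σ • (τ • x.1 - eP τ • x.1)) =
          XJ.incl X' ρ Φ ((((chiM (p ^ (K + 1)) σ).val : ℤ) * eP σ) • (τ • x.1 - eP τ • x.1))
        rw [H.coe_gal, map_zsmul, map_sub, map_zsmul, H.coe_gal]
        exact h
      · show σ • (τ • x.2 - eP τ • x.2) =
          (((chiM (p ^ (K + 1)) σ).val : ℤ) * eP σ) • (τ • x.2 - eP τ • x.2)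
        rw [hx.2, smul_zero, smul_zero, sub_zero, smul_zero, smul_zero]

/-! ### from a cell at the lower level -/

variable {Lc : ℕ} [NeZero Lc] {a : ℕ} {P : Finset ℕ}
  {G : AddSubgroup (JZero (lvl Lc (extP qv) t))}
  (hG : IsCell p T W.apOfModel (rbarB b) eps eP Lc qv a P G)
  (u : JZero (lvl Lc (extP qv) t) →+ JZero N') (hu : ∀ (g : GQ) v, u (g • v) = g • u v)

include hG hu in
/-- the hypothesis `hmin` of `genHyp_sub` from a cell at the lower level. -/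
theorem min_of_cell (Rs : Finset Nat.Primes)
    (hRs : ∀ v ∈ toP T, v ∉ Rs → v ≠ ExtCitation.pPrime p → (v : ℕ) ∈ P →
      Ram (rbarB b) (v : ℕ)) :
    ∀ v ∈ toP T, v ∉ Rs → v ≠ ExtCitation.pPrime p →
      LocUr (v : ℕ) (u '' (G : Set (JZero (lvl Lc (extP qv) t)))) ∨
      (Ram (rbarB b) (v : ℕ) ∧ LocUnip (v : ℕ) (u '' (G : Set (JZero (lvl Lc (extP qv) t))))) := by
  intro v hv hvR hvp
  have hvp' : (v : ℕ) ≠ p := fun e => hvp (Subtype.ext e)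
  by_cases hram : Ram (rbarB b) (v : ℕ)
  · exact Or.inr ⟨hram, (hG.unip v v.2 hvp' hram).image u hu⟩
  · exact Or.inl ((hG.ur v v.2 (mem_toP'.1 hv) (fun hP => hram (hRs v hv hvR hvp hP)) hvp'
      hram).image u hu)

include X hG hu in
/-- the hypothesis `hatp` of `genHyp_sub` from a cell at the lower level. -/
theorem atp_of_cell (hinj : ∀ v ∈ G, u v = 0 → v = 0) (haK : a ≤ K + 1)
    (h : ¬ p ∣ lvl Lc (extP qv) t ∨ (p ∣ Lc ∧ (p : ℤ) ∣ W.Δ)) :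
    FlatData p (u '' (G : Set (JZero (lvl Lc (extP qv) t)))) ∨
      ((∀ s ∈ (Ap p).inertiaSubgroupIn ℚ, eP s = 1) ∧
        LocPSt p eP (K + 1) (u '' (G : Set (JZero (lvl Lc (extP qv) t))))) := by
  rcases h with h | ⟨h1, h2⟩
  · refine Or.inl ⟨_, inferInstance, G, u, a, h, hu, hG.gal, hinj, fun v hv => (hG.box v hv).1, ?_⟩
    rintro _ ⟨v, hv, rfl⟩
    exact ⟨v, hv, rfl⟩
  · exact Or.inr ⟨(X.sgnP h2).2.1, (locPSt_mono haK (hG.atp h1)).image u hu⟩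

include X C H hG hu in
/-- **(GEN) inside a step**, for `Y = u G`, `G` a cell at the lower level. -/
theorem genHyp_cell [IsLocalRing R]
    (hlev : ∀ q : Nat.Primes, q ∉ toP T ∪ Finset.univ.image qv → ¬ (q : ℕ) ∣ N' * p)
    (hinj : ∀ v ∈ G, u v = 0 → v = 0) (haK : a ≤ K + 1)
    (hp : ¬ p ∣ lvl Lc (extP qv) t ∨ (p ∣ Lc ∧ (p : ℤ) ∣ W.Δ))
    (Y : Submodule R ↥X')
    (hYG : ∀ (g : GQ), ∀ y ∈ Y, ∀ y' : ↥X', (y' : JZero N') = g • (y : JZero N') → y' ∈ Y)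
    (hY0 : Y ≠ ⊥) (hYS : ∀ y ∈ Y, ∃ v ∈ G, u v = ((y : ↥X') : JZero N'))
    (Rs : Finset Nat.Primes)
    (hRs : ∀ v ∈ toP T, v ∉ Rs → v ≠ ExtCitation.pPrime p → (v : ℕ) ∈ P →
      Ram (rbarB b) (v : ℕ))
    (I : Ideal R) (hI : ∀ a ∈ I, pi0 πE a = 0)
    (hstrict : ∀ v ∈ Rs, ∃ M : M₂ R, IsUnit (M.map (pi0 πE)) ∧
      ∀ σ ∈ CFT.decomp v, ConjConst ℤ (Y.annihilator ⊔ I) M (ρ σ)) :
    GenHypMZ p (rbarB b) (toP T) (Finset.univ.image qv) Rs (pi0 πE) ρ (Y.annihilator ⊔ I) :=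
  genHyp_sub X C H hlev Y hYG hY0 (u '' (G : Set (JZero (lvl Lc (extP qv) t))))
    (fun y hy => by
      obtain ⟨v, hv, e⟩ := hYS y hy
      exact ⟨v, hv, e⟩) Rs I hI hstrict (min_of_cell hG u hu Rs hRs)
    (atp_of_cell X hG u hu hinj haK hp)

end Main

end Fermat.Agent.ML.StepGen
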