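import Fermat.Agent.ML.Gen.Stage

/-!
# ML / Lift / Inst / MidAbs : the MIDDLE BLOCK of a raising step, abstract form

`R` a commutative ring, `π0 : R →+* ZMod p`, `ρ : G_ℚ → M₂(R)`, `Gt` a submodule of an `R`-module (the stage module `uA G`).

* `LocPkg p π0 ρ Gt v u dl be N f` : the package of ONE prime `v ∈ Rs` of weight `1` : a variable `u` (auxiliary value `p * dl`), a multiplier
  `be` which acts as the integer `N` on `Gt[u - p dl]`, `¬ p^(f+1) ∣ N`, and `ρ|D_v` is strict modulo `Ann Gt + I` as soon as `u ∈ I`.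
* `mid_abs` : from the packages of the primes of `Rs`, a multiplier `be0` without variable, and (GEN) : the index set `κ` (`#κ = t`), the
  variables `uu`, `dd`, the inclusion `ker π0 ≤ Ann Gt + (uu) + (p)`, the multiplier `be0 ∏ be_v` and its value `N0 ∏ N_v`.
-/

set_option autoImplicit false

noncomputable section

open ExtCitation Polynomial

namespace Fermat.Agent.ML.Lift

open Fermat.Agent.RIB Fermat.Agent.S56 Fermat.Agent.S56.Gen Fermat.Agent.ML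
open CFT (levS levAll decomp Z1 B1 Qb IsSmooth)

/-- `v_p(A) ≤ a`, `v_p(B) ≤ b` `⟹ v_p(AB) ≤ a + b`. -/
theorem not_pow_dvd_mul' {p : ℕ} (hp : p.Prime) {A B : ℤ} {a b : ℕ}
    (hA : ¬ (p : ℤ) ^ (a + 1) ∣ A) (hB : ¬ (p : ℤ) ^ (b + 1) ∣ B) :
    ¬ (p : ℤ) ^ (a + b + 1) ∣ A * B := by
  have hp' : Prime (p : ℤ) := Nat.prime_iff_prime_int.1 hp
  rw [← emultiplicity_lt_iff_not_dvd] at hA hB ⊢
  rw [emultiplicity_mul hp']
  have h1 : emultiplicity (p : ℤ) A ≤ a := by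
    have : emultiplicity (p : ℤ) A < (a : ℕ∞) + 1 := by exact_mod_cast hA
    exact Order.le_of_lt_add_one this
  have h2 : emultiplicity (p : ℤ) B ≤ b := by
    have : emultiplicity (p : ℤ) B < (b : ℕ∞) + 1 := by exact_mod_cast hB
    exact Order.le_of_lt_add_one this
  calc emultiplicity (p : ℤ) A + emultiplicity (p : ℤ) B ≤ (a : ℕ∞) + b := add_le_add h1 h2
    _ < ((a + b + 1 : ℕ) : ℕ∞) := by exact_mod_cast Nat.lt_succ_self _

/-- the same for a product. -/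
theorem not_pow_dvd_prod {p : ℕ} (hp : p.Prime) {ι : Type*} (s : Finset ι) (N : ι → ℤ) (f : ι → ℕ)
    (h : ∀ i ∈ s, ¬ (p : ℤ) ^ (f i + 1) ∣ N i) :
    ¬ (p : ℤ) ^ (∑ i ∈ s, f i + 1) ∣ ∏ i ∈ s, N i := by
  classical
  induction s using Finset.induction_on with
  | empty =>
    simp only [Finset.sum_empty, zero_add, pow_one, Finset.prod_empty]
    intro h1
    have := Int.eq_one_of_dvd_one (by positivity) h1
    have h2 : p = 1 := by exact_mod_cast this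
    exact hp.one_lt.ne' h2
  | insert i s hi ih =>
    rw [Finset.sum_insert hi, Finset.prod_insert hi]
    exact not_pow_dvd_mul' hp (h i (Finset.mem_insert_self i s))
      (ih fun j hj => h j (Finset.mem_insert_of_mem hj))

variable {p : ℕ} [Fact p.Prime] {R : Type} [CommRing R] {X : Type*} [AddCommGroup X] [Module R X]

/-- the package of one prime `v` of weight `1`. -/
structure LocPkg (p : ℕ) (π0 : R →+* ZMod p) (ρ : GQ →* M2 R) (Gt : Submodule R X)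
    (v : Nat.Primes) (u dl be : R) (N : ℤ) (f : ℕ) : Prop where
  pi0_u : π0 u = 0
  strict : ∀ I : Ideal R, u ∈ I → ∃ M : M2 R, IsUnit (M.map π0) ∧
    ∀ σ ∈ decomp v, ConjConst ℤ (Gt.annihilator ⊔ I) M (ρ σ)
  val : ∀ x ∈ Gt, (u - (p : R) * dl) • x = 0 → be • x = N • x
  hN : ¬ (p : ℤ) ^ (f + 1) ∣ N

/-- a product of multipliers acts as the product of the integers. -/
theorem prod_smul_eq {ι : Type*} (s : Finset ι) (be : ι → R) (N : ι → ℤ) (x : X)
    (h : ∀ i ∈ s, be i • x = N i • x) : (∏ i ∈ s, be i) • x = (∏ i ∈ s, N i) • x := by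
  classical
  induction s using Finset.induction_on with
  | empty => simp
  | insert i s hi ih =>
    rw [Finset.prod_insert hi, Finset.prod_insert hi, mul_smul,
      ih fun j hj => h j (Finset.mem_insert_of_mem hj), smul_comm, h i (Finset.mem_insert_self i s),
      mul_comm, mul_smul]

/-- **the middle block, abstract form.** -/
theorem mid_abs {T : Finset ℕ} {θ : ℕ → ℤ} {rbar0 : GQ →* M2 (ZMod p)} (C : MCtx p T θ rbar0)
    {t : ℕ} {qv : Fin t → Nat.Primes}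
    (W : TWGenL p (two_ne_zero_kM C.hp2) (mapK (kM p) rbar0) (toP T) t qv)
    {Rs : Finset Nat.Primes} (hRs : Rs ⊆ toP T) (hpR : pPrime p ∉ Rs)
    (hw : ∀ v ∈ Rs, Nat.card ↥(B1loc (adRep (mapK (kM p) rbar0)) v) * Nat.card (kM p) ^ 1 ≤
      Nat.card (kM p) ^ 3)
    {π0 : R →+* ZMod p} {ρ : GQ →* M2 R} (Gt : Submodule R X)
    (u dl be : Nat.Primes → R) (N : Nat.Primes → ℤ) (f : Nat.Primes → ℕ)
    (pkg : ∀ v ∈ Rs, LocPkg p π0 ρ Gt v (u v) (dl v) (be v) (N v) (f v))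
    (be0 : R) (N0 : ℤ) (f0 : ℕ) (hval0 : ∀ x ∈ Gt, be0 • x = N0 • x)
    (hN0 : ¬ (p : ℤ) ^ (f0 + 1) ∣ N0)
    (hgh : ∀ I : Ideal R, (∀ a ∈ I, π0 a = 0) →
      (∀ v ∈ Rs, ∃ M : M2 R, IsUnit (M.map π0) ∧
        ∀ σ ∈ decomp v, ConjConst ℤ (Gt.annihilator ⊔ I) M (ρ σ)) →
      GenHypMZ p rbar0 (toP T) (Finset.univ.image qv) Rs π0 ρ (Gt.annihilator ⊔ I))
    (hnil : IsNilpotent (RingHom.ker π0)) :
    ∃ (κ : Type) (_ : Fintype κ) (uu dd : κ → R), Fintype.card κ = t ∧ (∀ k, π0 (uu k) = 0) ∧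
      RingHom.ker π0 ≤ Gt.annihilator ⊔ Ideal.span (Set.range uu) ⊔ Ideal.span {(p : R)} ∧
      (∀ v ∈ Rs, ∃ k, uu k = u v ∧ dd k = dl v) ∧
      ¬ (p : ℤ) ^ (f0 + ∑ v ∈ Rs, f v + 1) ∣ N0 * ∏ v ∈ Rs, N v ∧
      ∀ x ∈ Gt, (∀ k, (uu k - (p : R) * dd k) • x = 0) →
        (be0 * ∏ v ∈ Rs, be v) • x = (N0 * ∏ v ∈ Rs, N v) • x := by
  classical
  set I : Ideal R := Ideal.span (Set.range fun v : Rs => u v) with hI
  have hI0 : ∀ a ∈ I, π0 a = 0 := by
    have : I ≤ RingHom.ker π0 := by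
      rw [hI, Ideal.span_le]
      rintro _ ⟨v, rfl⟩
      exact (RingHom.mem_ker).2 (pkg v v.2).pi0_u
    exact fun a ha => (RingHom.mem_ker).1 (this ha)
  have hst : ∀ v ∈ Rs, ∃ M : M2 R, IsUnit (M.map π0) ∧
      ∀ σ ∈ decomp v, ConjConst ℤ (Gt.annihilator ⊔ I) M (ρ σ) := fun v hv =>
    (pkg v hv).strict I (Ideal.subset_span ⟨⟨v, hv⟩, rfl⟩)
  obtain ⟨hle, x, hx, -, hgen⟩ := C.gen_stage W hRs hpR (fun _ => 1) hw (hgh I hI0 hst)
  have hgen := hgen hnil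
  refine ⟨↥Rs ⊕ Fin (t - ∑ v ∈ Rs, 1), inferInstance, Sum.elim (fun v => u v) x,
    Sum.elim (fun v => dl v) (fun _ => 0), ?_, ?_, ?_, ?_, ?_, ?_⟩
  · rw [Fintype.card_sum, Fintype.card_coe, Fintype.card_fin]
    have : ∑ v ∈ Rs, 1 = Rs.card := by simp
    rw [this] at hle ⊢
    omega
  · rintro (v | i)
    · exact (pkg v v.2).pi0_u
    · exact hx i
  · refine hgen.trans (sup_le_sup_right ?_ _)
    refine sup_le (sup_le le_sup_left (le_sup_of_le_right ?_)) (le_sup_of_le_right ?_)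
    · rw [hI]
      refine Ideal.span_mono ?_
      rintro _ ⟨v, rfl⟩
      exact ⟨Sum.inl v, rfl⟩
    · refine Ideal.span_mono ?_
      rintro _ ⟨i, rfl⟩
      exact ⟨Sum.inr i, rfl⟩
  · intro v hv
    exact ⟨Sum.inl ⟨v, hv⟩, rfl, rfl⟩
  · exact not_pow_dvd_mul' Fact.out hN0 (not_pow_dvd_prod Fact.out Rs N f fun v hv => (pkg v hv).hN)
  · intro x hx hk
    rw [mul_comm be0, mul_smul, hval0 x hx, smul_comm,
      prod_smul_eq Rs be N x fun v hv => (pkg v hv).val x hx (hk (Sum.inl ⟨v, hv⟩)), mul_smul]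

end Fermat.Agent.ML.Lift
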