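import Fermat.Agent.ML.Lift.Inst.New
import Fermat.Agent.ML.Lift.Inst.Geo
import Fermat.Agent.ML.Lift.Trace
import Fermat.Agent.ML.TWFree.Top
import Fermat.Agent.ML.TWFree.Inst.KCube

/-!
# ML / LIFT / Inst / Num : the modules `U`, `U'`, `V` of the raising step and their numerics, at the level of the CELLS

FREE levels.  `S`, `θ`, `qv` fixed.

* `cellV p S θ N k` `= thetaPart N [p^k]`                                            (the module of the ring);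
* `cellU p S θ N qv a` `= {v ∈ thetaPart N | p^a v = 0, v new at all the qv i}`       (`U` of `raise_step_abs`);
* `cellK p S θ qv a h` `= {x ∈ cellU .. Nq | dnE h c x = 0}`, `h : Nq = N * q`         (`U'` of `raise_step_abs`);
* stability, `upE h c`, `embE h ε : cellU N → cellU Nq`, injectivity, **(EMB)** `embE_mem_cellK`;
* `card_boxG_cellU`, `card_boxG_cellK` : the boxes `boxG p b τ (cell..)` at the level `lvl L (extP qv) t` are the boxes of the cubes;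
* `cogen_cellU`, `box_cellU` (from `twfree_of`), `cogen_cellK`, `box_cellK` (from the numerics of the `K`-cube).
-/

set_option autoImplicit false
set_option linter.unusedSectionVars false

noncomputable section

open AlgebraicCurve ModularCurve

namespace Fermat.Agent.ML.Lift

open Fermat.Agent.RIB Fermat.Agent.GAL Fermat.Agent.GAL.PC Fermat.Agent.ML Fermat.Agent.ML.TWFree

local notation "Qbar" => AlgebraicClosure ℚ
local notation "GQ" => (AlgebraicClosure ℚ ≃ₐ[ℚ] AlgebraicClosure ℚ)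
local notation "M₂" => Matrix (Fin 2) (Fin 2)

/-! ### the three modules -/

section Defs

variable (p : ℕ) (S : Set ℕ) (θ : ℕ → ℤ) (N : ℕ) [NeZero N]

/-- `V = thetaPart N [p^k]`. -/
def cellV (k : ℕ) : AddSubgroup (JZero N) where
  carrier := {x | x ∈ thetaPart N p S θ ∧ p ^ k • x = 0}
  zero_mem' := ⟨(thetaPart N p S θ).zero_mem, smul_zero _⟩
  add_mem' := fun hx hy => ⟨(thetaPart N p S θ).add_mem hx.1 hy.1, by
    rw [nsmul_add, hx.2, hy.2, add_zero]⟩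
  neg_mem' := fun hx => ⟨(thetaPart N p S θ).neg_mem hx.1, by rw [neg_nsmul, hx.2, neg_zero]⟩

/-- `U` : the `p^a`-torsion of the `θ`-part which is new at all the Taylor-Wiles primes. -/
def cellU {t : ℕ} (qv : Fin t → Nat.Primes) (a : ℕ) : AddSubgroup (JZero N) where
  carrier := {v | v ∈ cellV p S θ N a ∧ ∀ i, Tower.IsNewAt N ((qv i : Nat.Primes) : ℕ) v}
  zero_mem' := ⟨(cellV p S θ N a).zero_mem, fun _ => Tower.IsNewAt.zero N _⟩
  add_mem' := fun hx hy => ⟨(cellV p S θ N a).add_mem hx.1 hy.1, fun i => (hx.2 i).add (hy.2 i)⟩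
  neg_mem' := fun hx => ⟨(cellV p S θ N a).neg_mem hx.1, fun i => (hx.2 i).neg⟩

variable {p S θ N}

theorem mem_cellV {k : ℕ} {x : JZero N} :
    x ∈ cellV p S θ N k ↔ x ∈ thetaPart N p S θ ∧ p ^ k • x = 0 := Iff.rfl

theorem mem_cellU {t : ℕ} {qv : Fin t → Nat.Primes} {a : ℕ} {v : JZero N} :
    v ∈ cellU p S θ N qv a ↔ v ∈ thetaPart N p S θ ∧ p ^ a • v = 0 ∧
      ∀ i, Tower.IsNewAt N ((qv i : Nat.Primes) : ℕ) v := and_assoc

theorem cell_gal_nsmul (σ : GQ) (n : ℕ) (x : JZero N) : σ • (n • x) = n • (σ • x) :=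
  map_nsmul (DistribSMul.toAddMonoidHom (JZero N) σ) n x

theorem smul_mem_cellV {k : ℕ} (σ : GQ) {x : JZero N} (hx : x ∈ cellV p S θ N k) :
    σ • x ∈ cellV p S θ N k :=
  ⟨smul_mem_thetaPart σ hx.1, by rw [← cell_gal_nsmul, hx.2]; exact gal_zero N σ⟩

theorem smul_mem_cellU {t : ℕ} {qv : Fin t → Nat.Primes} {a : ℕ} (σ : GQ) {v : JZero N}
    (hv : v ∈ cellU p S θ N qv a) : σ • v ∈ cellU p S θ N qv a :=
  ⟨smul_mem_cellV σ hv.1, fun i => (hv.2 i).smul σ⟩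

theorem cellV_mono {k k' : ℕ} (h : k ≤ k') : cellV p S θ N k ≤ cellV p S θ N k' := fun x hx =>
  ⟨hx.1, by
    obtain ⟨c, rfl⟩ := Nat.exists_eq_add_of_le h
    rw [pow_add, mul_comm, mul_smul, hx.2, smul_zero]⟩

theorem cellU_le_cellV {t : ℕ} (qv : Fin t → Nat.Primes) {a k : ℕ} (h : a ≤ k) :
    cellU p S θ N qv a ≤ cellV p S θ N k := fun _ hx => cellV_mono h hx.1

theorem finite_cellV (hp : p.Prime) (k : ℕ) : Finite ↥(cellV p S θ N k) :=
  Set.Finite.to_subtype ((finite_torsion_JZero N (p ^ k) (pow_ne_zero _ hp.ne_zero)).subset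
    fun _ hx => hx.2)

end Defs

section DefK

variable (p : ℕ) (S : Set ℕ) (θ : ℕ → ℤ) {N Nq q : ℕ} [NeZero N] [NeZero Nq] [NeZero q]
  {t : ℕ} (qv : Fin t → Nat.Primes) (a : ℕ)

/-- `U'` : the part of `cellU` at the level `Nq = N q` which is killed by the two push-forwards at `q`. -/
def cellK (h : Nq = N * q) : AddSubgroup (JZero Nq) where
  carrier := {x | x ∈ cellU p S θ Nq qv a ∧ ∀ c, dnE h c x = 0}
  zero_mem' := ⟨(cellU p S θ Nq qv a).zero_mem, fun _ => map_zero _⟩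
  add_mem' := fun hx hy => ⟨(cellU p S θ Nq qv a).add_mem hx.1 hy.1, fun c => by
    rw [map_add, hx.2 c, hy.2 c, add_zero]⟩
  neg_mem' := fun hx => ⟨(cellU p S θ Nq qv a).neg_mem hx.1, fun c => by
    rw [map_neg, hx.2 c, neg_zero]⟩

variable {p S θ qv a}

theorem mem_cellK {h : Nq = N * q} {x : JZero Nq} :
    x ∈ cellK p S θ qv a h ↔ x ∈ cellU p S θ Nq qv a ∧ ∀ c, dnE h c x = 0 := Iff.rfl

theorem cellK_le_cellU (h : Nq = N * q) : cellK p S θ qv a h ≤ cellU p S θ Nq qv a :=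
  fun _ hx => hx.1

theorem smul_mem_cellK (h : Nq = N * q) (σ : GQ) {x : JZero Nq} (hx : x ∈ cellK p S θ qv a h) :
    σ • x ∈ cellK p S θ qv a h :=
  ⟨smul_mem_cellU σ hx.1, fun c => by rw [dnE_smul, hx.2 c]; exact gal_zero N σ⟩

/-! ### the maps -/

theorem upE_mem_cellU (hq : q.Prime) (hne : ∀ i, ((qv i : Nat.Primes) : ℕ) ≠ q) (h : Nq = N * q)
    (hS : ∀ r : ℕ, r.Prime → r ∉ S → ¬ r ∣ Nq * p) (c : Fin 2) {v : JZero N}
    (hv : v ∈ cellU p S θ N qv a) : upE h c v ∈ cellU p S θ Nq qv a :=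
  ⟨⟨upE_mem_thetaPart h hS c hv.1.1, by rw [← map_nsmul, hv.1.2, map_zero]⟩,
    fun i => isNewAt_upE hq (qv i).2 (hne i) h c (hv.2 i)⟩

theorem embE_mem_cellU (hq : q.Prime) (hne : ∀ i, ((qv i : Nat.Primes) : ℕ) ≠ q) (h : Nq = N * q)
    (hS : ∀ r : ℕ, r.Prime → r ∉ S → ¬ r ∣ Nq * p) (ε : ℤ) {v : JZero N}
    (hv : v ∈ cellU p S θ N qv a) : embE h ε v ∈ cellU p S θ Nq qv a :=
  (cellU p S θ Nq qv a).sub_mem (upE_mem_cellU hq hne h hS 0 hv)
    ((cellU p S θ Nq qv a).zsmul_mem (upE_mem_cellU hq hne h hS 1 hv) ε)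

theorem dnE_mem_cellU (h : Nq = N * q) (hS : ∀ r : ℕ, r.Prime → r ∉ S → ¬ r ∣ Nq * p) (c : Fin 2)
    {y : JZero Nq} (hy : y ∈ cellU p S θ Nq qv a) : dnE h c y ∈ cellU p S θ N qv a :=
  ⟨⟨dnE_mem_thetaPart h hS c hy.1.1, by rw [← map_nsmul, hy.1.2, map_zero]⟩,
    fun i => isNewAt_dnE h c (hy.2 i)⟩

/-- **(EMB)**, Galois form. -/
theorem embE_mem_cellK (hq : q.Prime) (hqN : ¬ q ∣ N) (hp : p.Prime) (hqp : q ≠ p)
    (hne : ∀ i, ((qv i : Nat.Primes) : ℕ) ≠ q) (h : Nq = N * q)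
    (hS : ∀ r : ℕ, r.Prime → r ∉ S → ¬ r ∣ Nq * p) {ε : ℤ} (hε : ε * ε = 1)
    {A : ValuationSubring Qbar} (hA : A.LiesOverPrime q) {σ : GQ} (hσ : A.IsFrobeniusAt σ q)
    {v : JZero N} (hv : v ∈ cellU p S θ N qv a)
    (hc : σ • v + q • σ⁻¹ • v = (ε * ((q : ℤ) + 1)) • v) : embE h ε v ∈ cellK p S θ qv a h :=
  ⟨embE_mem_cellU hq hne h hS ε hv,
    fun c => dnE_embE_of_frob hq hqN hp hqp hε h hA hσ ⟨a, hv.1.2⟩ hc c⟩

/-- **(EMB)**, Hecke form (`q = p` NOT allowed here: `pushB_pullA`). -/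
theorem embE_mem_cellK_of_hecke (hq : q.Prime) (hqN : ¬ q ∣ N) (hp : p.Prime) (hqp : q ≠ p)
    (hne : ∀ i, ((qv i : Nat.Primes) : ℕ) ≠ q) (h : Nq = N * q)
    (hS : ∀ r : ℕ, r.Prime → r ∉ S → ¬ r ∣ Nq * p) {ε : ℤ} (hε : ε * ε = 1)
    {v : JZero N} (hv : v ∈ cellU p S θ N qv a)
    (hc : heckeOperatorBar N ⟨q, hq⟩ v = (ε * ((q : ℤ) + 1)) • v) :
    embE h ε v ∈ cellK p S θ qv a h :=
  ⟨embE_mem_cellU hq hne h hS ε hv,
    fun c => dnE_embE_of_hecke hq hqN hp hqp hε h ⟨a, hv.1.2⟩ hc c⟩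

theorem upE_eq_zero_cellU (hp : p.Prime) (hq : q.Prime) (hqN : ¬ q ∣ N) (hAP : NonEisAP p S θ)
    (hqS : q ∈ S) (h : Nq = N * q) (c : Fin 2) {v : JZero N} (hv : v ∈ cellU p S θ N qv a)
    (h0 : upE h c v = 0) : v = 0 := upE_injOn hp hq hqN hAP hqS h c hv.1.1 h0

theorem embE_eq_zero_cellU (hp : p.Prime) (hq : q.Prime) (hqN : ¬ q ∣ N) (hAP : NonEisAP p S θ)
    (hqS : q ∈ S) (h : Nq = N * q) (ε : ℤ) {v : JZero N} (hv : v ∈ cellU p S θ N qv a)
    (h0 : embE h ε v = 0) : v = 0 := embE_injOn hp hq hqN hAP hqS h ε hv.1.1 h0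

end DefK

/-! ### transport of the boxes -/

section Transport

variable {J₁ J₂ : Type*} [AddCommGroup J₁] [AddCommGroup J₂] [DistribMulAction GQ J₁]
  [DistribMulAction GQ J₂]

/-- the box of `Y = e (X[p^a])`. -/
theorem card_boxG_of_equiv (e : J₁ ≃+ J₂) (he : ∀ (σ : GQ) x, e (σ • x) = σ • e x)
    (X : AddSubgroup J₁) (Y : AddSubgroup J₂) {p a b : ℕ} (hb : b ≤ a)
    (hXY : ∀ x, e x ∈ Y ↔ x ∈ X ∧ p ^ a • x = 0) {t : ℕ} (τ : Fin t → GQ) :
    Nat.card ↥(boxG p b τ Y) =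
      Nat.card {x : J₁ // x ∈ X ∧ p ^ b • x = 0 ∧ ∀ i, (TWLoc.zop (τ i))^[b] x = 0} := by
  symm
  refine Nat.card_congr (e.toEquiv.subtypeEquiv fun x => ?_)
  show _ ↔ e x ∈ boxG p b τ Y
  rw [mem_boxG, hXY, ← map_nsmul, map_eq_zero_iff e e.injective]
  have h1 : ∀ i, (zOp (τ i))^[b] (e x) = 0 ↔ (TWLoc.zop (τ i))^[b] x = 0 := by
    intro i
    have h2 : e ((zOp (τ i))^[b] x) = (zOp (τ i))^[b] (e x) :=
      map_zOp_iterate e.toAddMonoidHom he (τ i) b x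
    rw [← h2]
    exact map_eq_zero_iff e e.injective
  simp only [h1]
  constructor
  · rintro ⟨h1, h2, h3⟩
    refine ⟨⟨h1, ?_⟩, h2, h3⟩
    obtain ⟨c, rfl⟩ := Nat.exists_eq_add_of_le hb
    rw [pow_add, mul_comm, mul_smul, h2, smul_zero]
  · rintro ⟨⟨h1, -⟩, h2, h3⟩
    exact ⟨h1, h2, h3⟩

end Transport

section Levels

variable {p : ℕ} {S : Set ℕ} {θ : ℕ → ℤ} {L : ℕ} [NeZero L] {t : ℕ} {qv : Fin t → Nat.Primes}

theorem topJ_mem_cellU_iff {a : ℕ} (x : JZero (lev L qv Finset.univ)) :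
    topJ L qv x ∈ cellU p S θ (lvl L (extP qv) t) qv a ↔
      x ∈ Xnew p S θ L qv Finset.univ ∧ p ^ a • x = 0 := by
  have h1 := topJ_symm_mem_newPart_iff (p := p) (S := S) (θ := θ) (x := topJ L qv x)
  rw [AddEquiv.symm_apply_apply] at h1
  rw [Xnew, h1, mem_cellU, ← map_nsmul, map_eq_zero_iff (topJ L qv) (topJ L qv).injective]
  tauto

/-- the boxes of `cellU` at the top of the tower are the boxes of `Xnew`. -/
theorem card_boxG_cellU {a b : ℕ} (hb : b ≤ a) (τ : Fin t → GQ) :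
    Nat.card ↥(boxG p b τ (cellU p S θ (lvl L (extP qv) t) qv a)) =
      Nat.card {x : JZero (lev L qv Finset.univ) // x ∈ Xnew p S θ L qv Finset.univ ∧
        p ^ b • x = 0 ∧ ∀ i, (TWLoc.zop (τ i))^[b] x = 0} :=
  card_boxG_of_equiv (topJ L qv) topJ_smul _ _ hb topJ_mem_cellU_iff τ

variable {L' q : ℕ} [NeZero L'] [NeZero q]

theorem topJ_mem_cellK_iff (hL : L' = L * q) {a : ℕ} (x : JZero (lev L' qv Finset.univ)) :
    topJ L' qv x ∈ cellK p S θ qv a (lvl_mul_q hL qv) ↔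
      x ∈ newPart (fun Q => kerSub (thetaPart (lev L' qv Q) p S θ) (dnQ qv hL Q)) (PiQ L' qv)
        Finset.univ Finset.univ ∧ p ^ a • x = 0 := by
  have h1 := topJ_symm_mem_newPartK_iff (p := p) (S := S) (θ := θ) hL (x := topJ L' qv x)
  rw [AddEquiv.symm_apply_apply] at h1
  rw [h1, mem_cellK, mem_cellU, ← map_nsmul, map_eq_zero_iff (topJ L' qv) (topJ L' qv).injective]
  tauto

/-- the boxes of `cellK` at the top of the tower are the boxes of the `K`-cube. -/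
theorem card_boxG_cellK (hL : L' = L * q) {a b : ℕ} (hb : b ≤ a) (τ : Fin t → GQ) :
    Nat.card ↥(boxG p b τ (cellK p S θ qv a (lvl_mul_q hL qv))) =
      Nat.card {x : JZero (lev L' qv Finset.univ) //
        x ∈ newPart (fun Q => kerSub (thetaPart (lev L' qv Q) p S θ) (dnQ qv hL Q)) (PiQ L' qv)
          Finset.univ Finset.univ ∧
        p ^ b • x = 0 ∧ ∀ i, (TWLoc.zop (τ i))^[b] x = 0} :=
  card_boxG_of_equiv (topJ L' qv) topJ_smul _ _ hb (topJ_mem_cellK_iff hL) τ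

end Levels

/-! ### numerics -/

section Num

variable {p : ℕ} [Fact p.Prime] {T : Finset ℕ} {θ : ℕ → ℤ} {rbar0 : GQ →* M₂ (ZMod p)}
  {L t n : ℕ} [NeZero L] {qv : Fin t → Nat.Primes} {τ : Fin t → GQ}

/-- **COGEN** for `U` (hypothesis `hcogen` of `raise_step_abs`). -/
theorem cogen_cellU (EC : MCtx p T θ rbar0) (TC : MTW p T θ L t n qv)
    {A : Fin t → ValuationSubring Qbar} (hA : ∀ i, (A i).LiesOverPrime ((qv i : Nat.Primes) : ℕ))
    (hτ : ∀ i, τ i ∈ (A i).inertiaSubgroupIn ℚ)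
    (hC : IsCube p (↑(cutS T qv) : Set ℕ) θ L qv τ) {a : ℕ} (ha : 1 ≤ a) :
    Nat.card ↥(boxG p 1 τ (cellU p (↑(cutS T qv) : Set ℕ) θ (lvl L (extP qv) t) qv a)) ≤
      p ^ (2 ^ t * Module.finrank (ZMod p) ↥(WS L p (↑(cutS T qv) : Set ℕ) θ)) := by
  rw [card_boxG_cellU ha τ]
  refine le_trans (le_of_eq (Nat.card_congr (Equiv.subtypeEquivRight fun x => ?_)))
    (twfree_of EC TC hA hτ hC).1
  simp only [pow_one, Function.iterate_one]

/-- **BOX** for `U`. -/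
theorem box_cellU (EC : MCtx p T θ rbar0) (TC : MTW p T θ L t n qv)
    {A : Fin t → ValuationSubring Qbar} (hA : ∀ i, (A i).LiesOverPrime ((qv i : Nat.Primes) : ℕ))
    (hτ : ∀ i, τ i ∈ (A i).inertiaSubgroupIn ℚ)
    (hC : IsCube p (↑(cutS T qv) : Set ℕ) θ L qv τ) {a : ℕ} (ha : 1 ≤ a) (h2a : 2 * a ≤ n + 1) :
    p ^ (2 ^ t * Module.finrank (ZMod p) ↥(WS L p (↑(cutS T qv) : Set ℕ) θ) * a ^ (t + 1)) ≤
      Nat.card ↥(boxG p a τ (cellU p (↑(cutS T qv) : Set ℕ) θ (lvl L (extP qv) t) qv a)) := by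
  rw [card_boxG_cellU le_rfl τ]
  exact (twfree_of EC TC hA hτ hC).2 a ha h2a

end Num

end Fermat.Agent.ML.Lift
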