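import Fermat.Agent.ML.Main.StepSplit
import Fermat.Agent.ML.Main.LocCalc
import Fermat.Agent.ML.TWFree.Inst.InBox
import Fermat.Agent.RIB.Main.Mid
import Fermat.Agent.SS.Mod.S34Wire
import Fermat.Agent.SS.Mod.CuspOrdC
import Fermat.Agent.SS.Top35.SMO

/-!
# ML / Lift / Inst / Out : **(A3) `step_out`** : the constructor of `IsCell` for all the producers of cells

* `out_locUr` : `q ∤ N p` ⟹ `LocUr q G` for every set `G` of `p`-power torsion classes of `J₀(N)`;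
* `out_locUnip` : `q ‖ N`, `q ≠ p` ⟹ `LocUnip q G` (PAIRS `(τ', τ)` of inertia elements : UNIP + cyclicity of the tame inertia);
* `LCtx.not_dvd_lvl_of_ur`, `LCtx.exact_of_ram` : arithmetic of the level `lvl (cellLevel L₀ P) (extP qv) t`;
* `LCtx.isCell_out` : `G ≤ thetaPart`, Galois stable, in the box, `Q`-new, + the fields AT THE RAISED PRIMES, AT `2` AND AT `p` (hypotheses of the
  caller) ⟹ `IsCell`;   the fields `ur`, `unip` at the odd primes are proved here;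
* `LCtx.isCell_out_box` : the same from the CONCLUSION of `raise_step_abs(_F)` (`G' ≤ boxG p a τ U'`, `τ i` generators of the inertia).
-/

set_option autoImplicit false

noncomputable section

open AlgebraicCurve ModularCurve

namespace Fermat.Agent.ML.Lift

open Fermat.Agent.RIB Fermat.Agent.ML.ESide Fermat.Agent.ML.TWFree

local notation "Qbar" => AlgebraicClosure ℚ
local notation "GQ" => (AlgebraicClosure ℚ ≃ₐ[ℚ] AlgebraicClosure ℚ)
local notation "M₂" => Matrix (Fin 2) (Fin 2)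

/-! ### the two geometric facts -/

/-- good reduction : unramified outside `N p`. -/
theorem out_locUr {N p q : ℕ} [NeZero N] (hq : q.Prime) (hqN : ¬ q ∣ N * p) {G : Set (JZero N)}
    (hG : ∀ x ∈ G, ∃ k : ℕ, p ^ k • x = 0) : LocUr q G :=
  fun A hA τ hτ x hx => (SS.es_all N p).1 q hq hqN A hA τ hτ x (hG x hx)

section Abs

variable {J : Type*} [AddCommGroup J] [DistribMulAction GQ J]

/-- `(σ - 1)² = 0` at `y` and at all `σ^n y` ⟹ `σ^n y = y + n (σ y - y)`. -/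
theorem out_pow_smul {σ : GQ} {y : J} (h : σ • (σ • y - y) = σ • y - y) (n : ℕ) :
    σ ^ n • y = y + n • (σ • y - y) := by
  induction n with
  | zero => simp
  | succ n ih =>
    rw [pow_succ', mul_smul, ih, smul_add, smul_nsmul_comm' σ n, h, succ_nsmul]
    abel

theorem out_pow_fixed {σ : GQ} {w : J} (h : σ • w = w) (n : ℕ) : σ ^ n • w = w := by
  induction n with
  | zero => simp
  | succ n ih => rw [pow_succ, mul_smul, h, ih]

end Abs

/-- multiplicative reduction : inertia at `q ‖ N`, `q ≠ p`, is unipotent, for PAIRS of inertia elements. -/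
theorem out_locUnip {N p q : ℕ} [NeZero N] (hq : q.Prime) (hp : p.Prime) (hqp : q ≠ p)
    (hqN : q ∣ N) (hq2 : ¬ q ^ 2 ∣ N) {G : Set (JZero N)}
    (hG : ∀ x ∈ G, ∃ k : ℕ, p ^ k • x = 0) : LocUnip q G := by
  intro A hA τ hτ τ' hτ' x hx
  obtain ⟨k, hk⟩ := hG x hx
  have hun := SS.unip_of_cuspOrd (fun M q _ _ _ => SS.cuspOrd M q) hq hp hqp hqN hq2
  let X : AddSubgroup (JZero N) := (nsmulAddMonoidHom (α := JZero N) (p ^ k)).ker
  have hmem : ∀ y : JZero N, y ∈ X ↔ p ^ k • y = 0 := fun y => Iff.rfl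
  have hX : ∀ g : GQ, ∀ y ∈ X, g • y ∈ X := fun g y hy => by
    rw [hmem] at hy ⊢
    rw [smul_comm (p ^ k) g y, hy, smul_zero]
  have hu : ∀ σ ∈ A.inertiaSubgroupIn ℚ, ∀ y ∈ X, σ • (σ • y - y) = σ • y - y := by
    intro σ hσ y hy
    have h1 := hun A hA σ hσ y ⟨k, (hmem y).1 hy⟩
    rw [smul_sub, sub_eq_sub_iff_add_eq_add]
    have h2 : σ • σ • y + y = 2 • σ • y := by
      rw [← sub_eq_zero, ← h1]; abel
    rw [h2, two_nsmul]
  have hord : ∀ σ ∈ A.inertiaSubgroupIn ℚ, ∀ y ∈ X, σ ^ (p ^ k) • y = y := by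
    intro σ hσ y hy
    rw [out_pow_smul (hu σ hσ y hy)]
    have h1 : σ • y - y ∈ X := X.sub_mem (hX σ y hy) hy
    rw [(hmem _).1 h1, add_zero]
  obtain ⟨τ₀, hτ₀, hgen⟩ := exists_tau0_gen hq hA X (fun τ _ => hX τ) (p ^ k)
    (pow_ne_zero _ hp.ne_zero) (fun y hy => (hmem y).1 hy) (p ^ k)
    (Nat.Coprime.pow_left _ ((Nat.coprime_primes hp hq).2 (Ne.symm hqp))) hord
  obtain ⟨n, hn⟩ := hgen τ hτ
  obtain ⟨n', hn'⟩ := hgen τ' hτ'
  have hxX : x ∈ X := (hmem x).2 hk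
  have hw : τ₀ • x - x ∈ X := X.sub_mem (hX τ₀ x hxX) hxX
  have h1 : τ • x - x = n • (τ₀ • x - x) := by
    rw [hn x hxX, out_pow_smul (hu τ₀ hτ₀ x hxX)]; abel
  have h3 : τ' • (τ₀ • x - x) = τ₀ • x - x := by
    rw [hn' _ hw]
    exact out_pow_fixed (J := JZero N) (hu τ₀ hτ₀ x hxX) n'
  rw [h1, ← smul_comm n τ', h3]

/-! ### arithmetic of the levels of the cells -/

/-- a prime divisor of `cellLevel L₀ P`. -/
theorem out_dvd_cellLevel {L₀ : ℕ} {P : Finset ℕ} (hP : ∀ q ∈ P, q.Prime) {r : ℕ} (hr : r.Prime)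
    (h : r ∣ cellLevel L₀ P) : r ∣ L₀ ∨ r ∈ P := by
  rcases (Nat.Prime.dvd_mul hr).1 h with h | h
  · exact Or.inl h
  · exact Or.inr (Finset.mem_of_mem_erase
      ((prime_dvd_prod_iff (fun q hq => hP q (Finset.mem_of_mem_erase hq)) hr).1 h))

/-- `r` is prime to the Taylor-Wiles part of the level. -/
theorem out_coprime_tw {T : Finset ℕ} {t : ℕ} {qv : Fin t → Nat.Primes}
    (hnotT : ∀ i, ((qv i : Nat.Primes) : ℕ) ∉ T) {r : ℕ} (hr : r.Prime) (hrT : r ∈ T) (n i : ℕ) :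
    Nat.Coprime (r ^ n) (∏ j ∈ Finset.range i, (extP qv j * extP qv j)) := by
  refine Nat.Coprime.pow_left n (Nat.Coprime.prod_right fun j _ => ?_)
  have key : Nat.Coprime r (extP qv j) := by
    unfold extP
    split_ifs with hj
    · exact (Nat.coprime_primes hr (qv ⟨j, hj⟩).2).2 fun h => hnotT ⟨j, hj⟩ (h ▸ hrT)
    · exact Nat.coprime_one_right r
  exact Nat.Coprime.mul_right key key

section LCtx

variable {W : WeierstrassCurve ℤ} {p : ℕ} [Fact p.Prime] {T : Finset ℕ}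
  {b : Module.Basis (Fin 2) (ZMod p) (TorsW W p)} {L₀ : ℕ} [NeZero L₀] {eps : ℕ → ℤ} {eP : GQ → ℤ}

/-- an odd prime of `T`, not raised, at which `rbar0` is unramified does not divide the level of the cell. -/
theorem _root_.Fermat.Agent.ML.LCtx.not_dvd_lvl_of_ur (X : LCtx W p T b L₀ eps eP) {t : ℕ}
    {qv : Fin t → Nat.Primes} (hnotT : ∀ i, ((qv i : Nat.Primes) : ℕ) ∉ T) {P : Finset ℕ}
    (hP : P ⊆ Pfin W (rbarB b) L₀) {q : ℕ} (hq : q.Prime) (hqT : q ∈ T) (hqP : q ∉ P)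
    (hqp : q ≠ p) (hq2 : q ≠ 2) (hur : ¬ Ram (rbarB b) q) :
    ¬ q ∣ lvl (cellLevel L₀ P) (extP qv) t * p := by
  intro hd
  rcases (Nat.Prime.dvd_mul hq).1 hd with h | h
  · rcases dvd_lvl_cases t hq h with h | ⟨j, hj⟩
    · rcases out_dvd_cellLevel (fun q' hq' => X.prime_of_mem_Pfin (hP hq')) hq h with h | h
      · exact hur (X.BP.ram q hq h hq2 hqp)
      · exact hqP h
    · exact hnotT j (hj ▸ hqT)
  · exact hqp ((Nat.prime_dvd_prime_iff_eq hq (Fact.out : p.Prime)).1 h)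

/-- an odd prime `≠ p` at which `rbar0` is ramified divides the level of the cell at most once. -/
theorem _root_.Fermat.Agent.ML.LCtx.not_sq_dvd_lvl_of_ram (X : LCtx W p T b L₀ eps eP) {t : ℕ}
    {qv : Fin t → Nat.Primes} (hnotT : ∀ i, ((qv i : Nat.Primes) : ℕ) ∉ T) {P : Finset ℕ}
    (hP : P ⊆ Pfin W (rbarB b) L₀) {q : ℕ} (hq : q.Prime) (hqp : q ≠ p) (hq2 : q ≠ 2)
    (hram : Ram (rbarB b) q) : ¬ q ^ 2 ∣ lvl (cellLevel L₀ P) (extP qv) t := by
  intro hd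
  have hqT : q ∈ T := by
    by_contra h
    exact X.C.not_ram_of_not_mem hq h hram
  have hqP : q ∉ P := fun h => X.not_ram_of_mem_Pfin (hP h) hqp hram
  rw [lvl_eq_prod] at hd
  have h1 : q ^ 2 ∣ cellLevel L₀ P := (out_coprime_tw hnotT hq hqT 2 t).dvd_of_dvd_mul_right hd
  have hc : Nat.Coprime (q ^ 2) (∏ q' ∈ P.erase 2, q') := by
    refine Nat.Coprime.pow_left 2 (Nat.Coprime.prod_right fun q' hq' => ?_)
    have hq'P : q' ∈ P := Finset.mem_of_mem_erase hq'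
    exact (Nat.coprime_primes hq (X.prime_of_mem_Pfin (hP hq'P))).2 fun h => hqP (h ▸ hq'P)
  have h2 : q ^ 2 ∣ L₀ := hc.dvd_of_dvd_mul_right h1
  obtain ⟨M, hM, -, hsq⟩ := X.BP.shape
  exact not_sq_dvd_of_shape hsq q hq hq2 (hM ▸ h2)

/-- **(A3) `step_out`** : the constructor of `IsCell`.   The fields `ur`, `unip` at the odd primes are automatic. -/
theorem _root_.Fermat.Agent.ML.LCtx.isCell_out (X : LCtx W p T b L₀ eps eP) {t : ℕ}
    {qv : Fin t → Nat.Primes} (hnotT : ∀ i, ((qv i : Nat.Primes) : ℕ) ∉ T) {P : Finset ℕ}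
    (hP : P ⊆ Pfin W (rbarB b) L₀) {Lc : ℕ} [NeZero Lc] (hLc : Lc = cellLevel L₀ P) {a : ℕ}
    {G : AddSubgroup (JZero (lvl Lc (extP qv) t))}
    (le : G ≤ thetaPart (lvl Lc (extP qv) t) p (↑(cutS T qv) : Set ℕ) W.apOfModel)
    (gal : ∀ g : GQ, ∀ x ∈ G, g • x ∈ G) (box : ∀ x ∈ G, InBox p qv a x)
    (new : ∀ x ∈ G, ∀ i : Fin t,
      Tower.IsNewAt (lvl Lc (extP qv) t) ((qv i : Nat.Primes) : ℕ) x)
    (hst : ∀ q ∈ P, q ≠ p → LocSt q (eps q) (G : Set (JZero (lvl Lc (extP qv) t))) ∧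
      LocUnip q (G : Set (JZero (lvl Lc (extP qv) t))))
    (h2u : 2 ∉ P → ¬ Ram (rbarB b) 2 → LocUr 2 (G : Set (JZero (lvl Lc (extP qv) t))))
    (h2r : Ram (rbarB b) 2 → LocUnip 2 (G : Set (JZero (lvl Lc (extP qv) t))))
    (hatp : p ∣ Lc → LocPSt p eP a (G : Set (JZero (lvl Lc (extP qv) t)))) :
    IsCell p T W.apOfModel (rbarB b) eps eP Lc qv a P G := by
  have htors : ∀ x ∈ (G : Set (JZero (lvl Lc (extP qv) t))), ∃ k : ℕ, p ^ k • x = 0 :=
    fun x hx => ⟨a, (box x hx).1⟩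
  refine ⟨le, gal, box, new, hst, ?_, ?_, hatp⟩
  · intro q hq hqT hqP hqp hur
    by_cases hq2 : q = 2
    · subst hq2
      exact h2u hqP hur
    · refine out_locUr hq ?_ htors
      rw [hLc]
      exact X.not_dvd_lvl_of_ur hnotT hP hq hqT hqP hqp hq2 hur
  · intro q hq hqp hram
    by_cases hq2 : q = 2
    · subst hq2
      exact h2r hram
    · by_cases hd : q ∣ lvl Lc (extP qv) t
      · refine out_locUnip hq (Fact.out : p.Prime) hqp hd ?_ htors
        rw [hLc]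
        exact X.not_sq_dvd_lvl_of_ram hnotT hP hq hqp hq2 hram
      · refine (out_locUr hq ?_ htors).locUnip
        intro h
        rcases (Nat.Prime.dvd_mul hq).1 h with h | h
        · exact hd h
        · exact hqp ((Nat.prime_dvd_prime_iff_eq hq (Fact.out : p.Prime)).1 h)

/-- **(A3)** from the CONCLUSION of `raise_step_abs(_F)` : `G' ≤ boxG p a τ U'`, `U'` in the `Q`-new part of the `θ`-part, the `τ i` generate the
image of the inertia groups. -/
theorem _root_.Fermat.Agent.ML.LCtx.isCell_out_box (X : LCtx W p T b L₀ eps eP) {t : ℕ}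
    {qv : Fin t → Nat.Primes} (hnotT : ∀ i, ((qv i : Nat.Primes) : ℕ) ∉ T) {P : Finset ℕ}
    (hP : P ⊆ Pfin W (rbarB b) L₀) {Lc : ℕ} [NeZero Lc] (hLc : Lc = cellLevel L₀ P) {a : ℕ}
    {A : Fin t → ValuationSubring Qbar} {τ : Fin t → GQ} {e : Fin t → ℕ}
    (hA : ∀ i, (A i).LiesOverPrime ((qv i : Nat.Primes) : ℕ))
    (hcyc : ∀ i, CycOn p (↑(cutS T qv) : Set ℕ) W.apOfModel ((A i).inertiaSubgroupIn ℚ) (τ i)
      (p ^ e i) (lvl Lc (extP qv) t))
    (hae : ∀ i, a ≤ e i)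
    {U' G : AddSubgroup (JZero (lvl Lc (extP qv) t))}
    (hU' : U' ≤ thetaPart (lvl Lc (extP qv) t) p (↑(cutS T qv) : Set ℕ) W.apOfModel)
    (hnew : ∀ x ∈ U', ∀ i : Fin t,
      Tower.IsNewAt (lvl Lc (extP qv) t) ((qv i : Nat.Primes) : ℕ) x)
    (hG : G ≤ boxG p a τ U') (gal : ∀ g : GQ, ∀ x ∈ G, g • x ∈ G)
    (hst : ∀ q ∈ P, q ≠ p → LocSt q (eps q) (G : Set (JZero (lvl Lc (extP qv) t))) ∧
      LocUnip q (G : Set (JZero (lvl Lc (extP qv) t))))
    (h2u : 2 ∉ P → ¬ Ram (rbarB b) 2 → LocUr 2 (G : Set (JZero (lvl Lc (extP qv) t))))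
    (h2r : Ram (rbarB b) 2 → LocUnip 2 (G : Set (JZero (lvl Lc (extP qv) t))))
    (hatp : p ∣ Lc → LocPSt p eP a (G : Set (JZero (lvl Lc (extP qv) t)))) :
    IsCell p T W.apOfModel (rbarB b) eps eP Lc qv a P G := by
  have hle : G ≤ thetaPart (lvl Lc (extP qv) t) p (↑(cutS T qv) : Set ℕ) W.apOfModel :=
    fun x hx => hU' (hG hx).1
  refine X.isCell_out hnotT hP hLc hle gal ?_ (fun x hx => hnew x (hG hx).1) hst h2u h2r hatp
  exact inBox_of_cyc hA hcyc hae G hle gal (fun x hx => (hG hx).2.1) fun i x hx => by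
    rw [zOp_iterate_eq_lift]
    exact (hG hx).2.2 i

end LCtx

end Fermat.Agent.ML.Lift
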