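import Fermat.Agent.ML.Lift.Inst.GenFlat
import Fermat.Agent.ML.Lift.Soft.Asm

/-!
# ML / Lift / Inst / GenFrame : (GEN) in the FRAME of the middle blocks (`SoftMidStmt`, `MidFStmt`, `midP`)

Frame : `X : LCtx ..`, `P ⊆ Pfin`, `q ∈ Pfin \ P`, `q ≠ 2` (`q = p` allowed), `p ∉ P`, a frame `Frm`, `Lc = cellLevel L₀ P`, `Lc' = Lc * q`,
`G` a cell `≠ ⊥` at `N = lvl Lc (extP qv) t`, `V ≤ J₀(N')` ANY subgroup with `TopCtx` and `IsRhoK` (`thTors`, `cellV`, `tV` : all the same),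
`Gt : Submodule R ↥V` with `x ∈ Gt ↔ ∃ v ∈ G, upE h 0 v = x`.

* `Frame.hlev`, `Frame.hinj`, `Frame.hp`, `Frame.hYG`, `Frame.ne_bot` : the hypotheses of `genHyp_cell`;
* `genHyp_frame` : `strict` on `Rs` modulo `Ann Gt ⊔ I` ⟹ `GenHypMZ .. (Ann Gt ⊔ I)`   (= `hgh` of `Lift.mid_abs`);
* `hflat_frame` : `hflat` of `MCtx.gen_stage_p` if `p ∤ N`;
* `exists_Gt`, `annG_eq` : the submodule `Gt`, and `annG V R (G.map (upE h 0)) = Gt.annihilator`;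
* `isNilpotent_ker` : `ker π0` is nilpotent.
-/

set_option autoImplicit false
set_option linter.unusedSectionVars false

noncomputable section

open AlgebraicCurve ModularCurve

namespace Fermat.Agent.ML.StepGen

open Fermat.Agent.GAL Fermat.Agent.RIB Fermat.Agent.RIB.Rho Fermat.Agent.ML.ESide Fermat.Agent.ML.Rho
  Fermat.Agent.ML.Lift Fermat.Agent.S56 Fermat.Agent.S56.Flat Fermat.Agent.ML.FinGen
  Fermat.Agent.ML.TWFree

local notation "Qbar" => AlgebraicClosure ℚ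
local notation "GQ" => (AlgebraicClosure ℚ ≃ₐ[ℚ] AlgebraicClosure ℚ)
local notation "M₂" => Matrix (Fin 2) (Fin 2)

variable {W : WeierstrassCurve ℤ} {p : ℕ} [Fact p.Prime] {T : Finset ℕ}
  {b : Module.Basis (Fin 2) (ZMod p) (TorsW W p)} {L₀ : ℕ} [NeZero L₀] {eps : ℕ → ℤ}
  {eP : GQ → ℤ} (X : LCtx W p T b L₀ eps eP) {P : Finset ℕ} {q : ℕ}
  (hP : P ⊆ Pfin W (rbarB b) L₀) (hq : q ∈ Pfin W (rbarB b) L₀) (hqP : q ∉ P) (hq2 : q ≠ 2)
  {t F C₀ a m n K : ℕ} {qv : Fin t → Nat.Primes}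
  (hF : Frm p X.C.hp2 T W.apOfModel (rbarB b) t F C₀ a m n K qv)
  {Lc Lc' : ℕ} [NeZero Lc] [NeZero Lc'] [NeZero q] (hLc : Lc = cellLevel L₀ P) (hL : Lc' = Lc * q)

namespace Frame

include X hP hF hLc in
/-- the Taylor-Wiles data at the lower level. -/
theorem mtw : MTW p T W.apOfModel Lc t n qv :=
  hF.tw Lc (fun _ hr hd => mem_T_of_dvd_cellLevel X hP hr (hLc ▸ hd)) (hLc ▸ four_dvd_cellLevel X P)

include X hP hq hqP hq2 hF hLc hL in
/-- the Taylor-Wiles data at the upper level. -/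
theorem mtw' : MTW p T W.apOfModel Lc' t n qv := by
  have e : Lc' = cellLevel L₀ (insert q P) := by rw [hL, hLc, cellLevel_insert L₀ hqP hq2]
  exact hF.tw Lc' (fun r hr hd => mem_T_of_dvd_cellLevel X (Finset.insert_subset hq hP) hr (e ▸ hd))
    (e ▸ four_dvd_cellLevel X _)

include X hP hq hqP hq2 hF hLc hL in
/-- the primes of the upper level. -/
theorem hS (r : ℕ) (hr : r.Prime) (hd : r ∣ lvl Lc' (extP qv) t * p) : r ∈ cutS T qv :=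
  mem_cutS_lvl (mtw' X hP hq hqP hq2 hF hLc hL) hr hd

include X hP hq hqP hq2 hF hLc hL in
/-- `hlev` of `genHyp_sub`. -/
theorem hlev (r : Nat.Primes) (hr : r ∉ toP T ∪ Finset.univ.image qv) :
    ¬ (r : ℕ) ∣ lvl Lc' (extP qv) t * p := by
  intro hd
  have h1 := hS X hP hq hqP hq2 hF hLc hL r r.2 hd
  rw [Finset.mem_union, not_or, mem_toP'] at hr
  rw [cutS, Finset.mem_union, Finset.mem_image] at h1
  rcases h1 with h1 | ⟨i, -, hi⟩
  · exact hr.1 h1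
  · exact hr.2 (Finset.mem_image.2 ⟨i, Finset.mem_univ i, Subtype.ext hi⟩)

include X hP hq hqP hq2 hF hLc in
/-- `q` does not divide the lower level. -/
theorem hqN : ¬ q ∣ lvl Lc (extP qv) t :=
  not_dvd_lvl (mtw X hP hF hLc) (X.prime_of_mem_Pfin hq)
    (X.hbadT q (X.prime_of_mem_Pfin hq) (X.dvd_of_mem_Pfin hq))
    (hLc ▸ not_dvd_cellLevel X hP hq hqP hq2)

include X hP hq hqP hq2 hF hLc in
/-- `α^*` is injective on the `θ`-part of the lower level. -/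
theorem hinj (v : JZero (lvl Lc (extP qv) t))
    (hv : v ∈ thetaPart (lvl Lc (extP qv) t) p (↑(cutS T qv) : Set ℕ) W.apOfModel)
    (h0 : upE (lvl_mul_q hL qv) 0 v = 0) : v = 0 :=
  upE_injOn Fact.out (X.prime_of_mem_Pfin hq) (hqN X hP hq hqP hq2 hF hLc)
    (X.C.nonEis (cutS T qv))
    (subset_cutS T qv (X.hbadT q (X.prime_of_mem_Pfin hq) (X.dvd_of_mem_Pfin hq)))
    (lvl_mul_q hL qv) 0 hv h0

include X hP hF hLc in
/-- at `p` : the lower level is prime to `p`, or we are in the case (Ma). -/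
theorem hp (hpP : p ∉ P) : ¬ p ∣ lvl Lc (extP qv) t ∨ (p ∣ Lc ∧ (p : ℤ) ∣ W.Δ) := by
  by_cases h : p ∣ Lc
  · refine Or.inr ⟨h, ?_⟩
    by_contra hgood
    refine X.BP.goodp hgood ?_
    rw [hLc, cellLevel] at h
    rcases (Nat.Prime.dvd_mul Fact.out).1 h with h | h
    · exact h
    · obtain ⟨q', hq', hrq⟩ := (Prime.dvd_finsetProd_iff (Fact.out : p.Prime).prime _).1 h
      have h1 := Finset.mem_of_mem_erase hq'
      rw [← (Nat.prime_dvd_prime_iff_eq Fact.out (X.prime_of_mem_Pfin (hP h1))).1 hrq] at h1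
      exact absurd h1 hpP
  · exact Or.inl (not_dvd_lvl (mtw X hP hF hLc) Fact.out X.C.p_mem h)

end Frame

variable {G : AddSubgroup (JZero (lvl Lc (extP qv) t))}
  (hG : IsCell p T W.apOfModel (rbarB b) eps eP Lc qv a P G)
  {V : AddSubgroup (JZero (lvl Lc' (extP qv) t))}
  {B : Module.Basis (Fin 2) (ZMod (p ^ (K + 1))) (TorsW W (p ^ (K + 1)))}
  (C : TopCtx W p b K B (lvl Lc' (extP qv) t) V)
  {R : Type} [CommRing R] [Algebra (ZMod (p ^ (K + 1))) R] [Module R ↥V]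
  {πE : R →ₐ[ZMod (p ^ (K + 1))] ZMod (p ^ (K + 1))} {ρ : GQ →* M₂ R}
  {Φ : M₂ R →ₐ[R] Module.End R ↥V}
  (H : Fermat.Agent.ML.Rho.IsRhoK (lvl Lc' (extP qv) t) (p ^ (K + 1)) V (rEB B) πE ρ Φ)
  (Gt : Submodule R ↥V)
  (hGt : ∀ x : ↥V, x ∈ Gt ↔ ∃ v ∈ G, upE (lvl_mul_q hL qv) 0 v = (x : JZero (lvl Lc' (extP qv) t)))

namespace Frame

include hG hGt in
/-- `Gt` is Galois stable (`hYG` of `genHyp_sub`). -/
theorem hYG (g : GQ) (y : ↥V) (hy : y ∈ Gt) (y' : ↥V)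
    (e : (y' : JZero (lvl Lc' (extP qv) t)) = g • (y : JZero (lvl Lc' (extP qv) t))) : y' ∈ Gt := by
  obtain ⟨v, hv, hvy⟩ := (hGt y).1 hy
  exact (hGt y').2 ⟨g • v, hG.gal g v hv, by rw [upE_smul, hvy, e]⟩

include X hP hq hqP hq2 hF hLc hG hGt in
/-- `Gt ≠ ⊥`. -/
theorem ne_bot (hG0 : G ≠ ⊥) (hGV : ∀ v ∈ G, upE (lvl_mul_q hL qv) 0 v ∈ V) : Gt ≠ ⊥ := by
  intro hb
  refine hG0 ((AddSubgroup.eq_bot_iff_forall _).2 fun v hv => ?_)
  have h1 : (⟨upE (lvl_mul_q hL qv) 0 v, hGV v hv⟩ : ↥V) ∈ Gt := (hGt _).2 ⟨v, hv, rfl⟩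
  rw [hb, Submodule.mem_bot] at h1
  exact hinj X hP hq hqP hq2 hF hLc hL v (hG.le hv) (congrArg Subtype.val h1)

include X hP hq hqP hq2 hF hLc hG in
/-- `α^* G ≤ V` for `V = thetaPart(N')[p^(K+1)]` (`thTors`, `cellV`, `tV` : `hV := fun _ => Iff.rfl`). -/
theorem hGV (hV : ∀ x, x ∈ V ↔
      x ∈ thetaPart (lvl Lc' (extP qv) t) p (↑(cutS T qv) : Set ℕ) W.apOfModel ∧ p ^ (K + 1) • x = 0)
    (v : JZero (lvl Lc (extP qv) t)) (hv : v ∈ G) : upE (lvl_mul_q hL qv) 0 v ∈ V := by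
  refine (hV _).2 ⟨upE_mem_thetaPart (lvl_mul_q hL qv)
    (fun r hr hrS hd => hrS (hS X hP hq hqP hq2 hF hLc hL r hr hd)) 0 (hG.le hv), ?_⟩
  rw [← map_nsmul, pow_smul_of_le_soft (hF.hK.trans (Nat.le_succ K)) (hG.box v hv).1, map_zero]

end Frame

include X hP hq hqP hq2 hF hLc hG C H hGt in
/-- **(GEN) in the frame of the middle blocks** : `hgh` of `Lift.mid_abs`. -/
theorem genHyp_frame [IsLocalRing R] (hpP : p ∉ P) (hG0 : G ≠ ⊥)
    (hGV : ∀ v ∈ G, upE (lvl_mul_q hL qv) 0 v ∈ V) (Rs : Finset Nat.Primes)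
    (hRs : ∀ v ∈ toP T, v ∉ Rs → v ≠ ExtCitation.pPrime p → (v : ℕ) ∈ P → Ram (rbarB b) (v : ℕ))
    (I : Ideal R) (hI : ∀ a ∈ I, pi0 πE a = 0)
    (hstrict : ∀ v ∈ Rs, ∃ M : M₂ R, IsUnit (M.map (pi0 πE)) ∧
      ∀ σ ∈ CFT.decomp v, ConjConst ℤ (Gt.annihilator ⊔ I) M (ρ σ)) :
    GenHypMZ p (rbarB b) (toP T) (Finset.univ.image qv) Rs (pi0 πE) ρ (Gt.annihilator ⊔ I) :=
  genHyp_cell X C H hG (upE (lvl_mul_q hL qv) 0) (fun g v => upE_smul _ 0 g v)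
    (Frame.hlev X hP hq hqP hq2 hF hLc hL)
    (fun v hv h0 => Frame.hinj X hP hq hqP hq2 hF hLc hL v (hG.le hv) h0)
    (hF.hK.trans (Nat.le_succ K)) (Frame.hp X hP hF hLc hpP) Gt (Frame.hYG hL hG Gt hGt)
    (Frame.ne_bot X hP hq hqP hq2 hF hLc hL hG Gt hGt hG0 hGV) (fun y hy => (hGt y).1 hy) Rs hRs I hI
    hstrict

include X hP hq hqP hq2 hF hLc hG C H hGt in
/-- **`hflat`** of `MCtx.gen_stage_p` in the frame, if `p` does not divide the lower level. -/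
theorem hflat_frame [IsLocalRing R] (hpN : ¬ p ∣ lvl Lc (extP qv) t) {π0 : R →+* ZMod p}
    {J : Ideal R} (hJ : Gt.annihilator ≤ J) (φ : R →+* DualNumber (kM p)) (hφ : IsTan p π0 J φ) :
    HasFlat (Ap p).valuation (matAct (Ip p) (S53.mapRep φ ρ)) :=
  hflat_cell X C H hG (upE (lvl_mul_q hL qv) 0) (fun g v => upE_smul _ 0 g v)
    (fun v hv h0 => Frame.hinj X hP hq hqP hq2 hF hLc hL v (hG.le hv) h0) hpN Gt
    (Frame.hYG hL hG Gt hGt) (fun y hy => (hGt y).1 hy) hJ φ hφ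

include hG H in
/-- the stage module `Gt = α^* G`. -/
theorem exists_Gt (hGV : ∀ v ∈ G, upE (lvl_mul_q hL qv) 0 v ∈ V) :
    ∃ Gt : Submodule R ↥V, ∀ x : ↥V, x ∈ Gt ↔
      ∃ v ∈ G, upE (lvl_mul_q hL qv) 0 v = (x : JZero (lvl Lc' (extP qv) t)) :=
  ⟨(IsRhoK.traceRing H).mapSub G hG.gal (upE (lvl_mul_q hL qv) 0) (fun g v => upE_smul _ 0 g v) hGV,
    fun _ => Iff.rfl⟩

include hGt in
/-- the ideal `annG` of `ML/Lift/Soft/Spec.lean` is the annihilator of `Gt`. -/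
theorem annG_eq : annG V R (G.map (upE (lvl_mul_q hL qv) 0)) = Gt.annihilator := by
  ext s
  rw [mem_annG, Submodule.mem_annihilator]
  constructor
  · intro h x hx
    obtain ⟨v, hv, e⟩ := (hGt x).1 hx
    exact h x ⟨v, hv, e⟩
  · rintro h x ⟨v, hv, e⟩
    exact h x ((hGt x).2 ⟨v, hv, e⟩)

include H in
/-- `ker π0` is a nilpotent ideal. -/
theorem isNilpotent_ker [Finite R] : IsNilpotent (RingHom.ker (pi0 πE)) :=
  (Ideal.FG.isNilpotent_iff_le_nilradical (IsNoetherian.noetherian _)).2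
    (TopCtx.ker_pi0_le_nilradical H)

end Fermat.Agent.ML.StepGen
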