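import Fermat.Agent.ML.Count.Min
import Fermat.Agent.ML.Lift.Trace
import Fermat.Agent.RIB.Rho.Ring

/-!
# ML / LIFT / Inst / BoxGal : **[BOX]** in Galois form

`X` a finite abelian group killed by `p^a`, `τ_i` automorphisms, `Z_i = τ_i + τ_i⁻¹ - 2`, the `Z_i` commute with all the `τ_j`
(CENTRAL), the norms `∑_{j < p^ν_i} τ_i^j` vanish, `2 a ≤ ν_i`, `#X[p, Z] ≤ p^d`, `p^(d a ∏ (p^ν_i - 1)/2) ≤ #X`.
Then `p^(d a^(t+1)) ≤ #X[Z_i^a]`.

This is `ML.box_of_tau` over the commutative ring generated by the `Z_i` in `End X` (`RIB.Rho.exists_ring`): no trace ring is needed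
in the statement.

* `box_gal` : for a type `X`;
* `box_gal_sub` : for a `Γ`-stable subgroup `X` of a `Γ`-module `J`, conclusion on `boxG p a τ X` (`ML/Lift/Trace.lean`).
-/

set_option autoImplicit false

namespace Fermat.Agent.ML.Lift

open Submodule Finset

section Type_

universe u

variable {X : Type u} [AddCommGroup X]

/-- `Z = τ + τ' - 2` -/
def zE (τ τ' : X →+ X) : X →+ X := τ + τ' - 2 • AddMonoidHom.id X

theorem zE_apply (τ τ' : X →+ X) (x : X) : zE τ τ' x = τ x + τ' x - 2 • x := rfl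

/-- **[BOX]**, Galois form. -/
theorem box_gal [Finite X] {t p a d : ℕ} (hp : p.Prime) (hp2 : p ≠ 2) (ν : Fin t → ℕ)
    (hν : ∀ i, 2 * a ≤ ν i) (τ τ' : Fin t → X →+ X)
    (h1 : ∀ i x, τ i (τ' i x) = x) (h2 : ∀ i x, τ' i (τ i x) = x)
    (hc : ∀ i j x, zE (τ i) (τ' i) (τ j x) = τ j (zE (τ i) (τ' i) x))
    (hG : ∀ i x, ∑ j ∈ range (p ^ ν i), (τ i)^[j] x = 0)
    (hpa : ∀ x : X, p ^ a • x = 0)
    (hcogen : Nat.card {x : X // p • x = 0 ∧ ∀ i, zE (τ i) (τ' i) x = 0} ≤ p ^ d)
    (hsize : p ^ (d * (a * ∏ i, (p ^ ν i - 1) / 2)) ≤ Nat.card X) :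
    p ^ (d * a ^ (t + 1)) ≤ Nat.card {x : X // ∀ i, (zE (τ i) (τ' i))^[a] x = 0} := by
  -- `Z_i` commutes with `τ'_j`
  have hc' : ∀ i j x, zE (τ i) (τ' i) (τ' j x) = τ' j (zE (τ i) (τ' i) x) := by
    intro i j x
    have e := hc i j (τ' j x)
    rw [h1] at e
    rw [e, h2]
  have hZZ : ∀ i j x, zE (τ i) (τ' i) (zE (τ j) (τ' j) x) = zE (τ j) (τ' j) (zE (τ i) (τ' i) x) := by
    intro i j x
    rw [zE_apply (τ j), map_sub, map_add, map_nsmul, hc, hc', zE_apply (τ j)]
  obtain ⟨R, _, _, _, _, tt, htt, -, -, -, hlin, -⟩ :=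
    Fermat.Agent.RIB.Rho.exists_ring (Λ := ℤ) (V := X) (fun i => (zE (τ i) (τ' i)).toIntLinearMap)
      (fun i j => LinearMap.ext fun x => hZZ i j x)
  have htt' : ∀ i x, tt i • x = zE (τ i) (τ' i) x := htt
  let τL : Fin t → X →ₗ[R] X := fun i =>
    { toFun := τ i
      map_add' := map_add (τ i)
      map_smul' := fun r x => hlin (τ i).toIntLinearMap
        (fun j => LinearMap.ext fun y => (hc j i y).symm) r x }
  let τL' : Fin t → X →ₗ[R] X := fun i =>
    { toFun := τ' i
      map_add' := map_add (τ' i)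
      map_smul' := fun r x => hlin (τ' i).toIntLinearMap
        (fun j => LinearMap.ext fun y => (hc' j i y).symm) r x }
  have hpow : ∀ i (j : ℕ) x, (τL i ^ j) x = (τ i)^[j] x := by
    intro i j x
    rw [Module.End.pow_apply]
    rfl
  have hsm : ∀ (n : ℕ) (x : X), (n : R) • x = n • x := fun n x => Nat.cast_smul_eq_nsmul R n x
  have hzpow : ∀ i (n : ℕ) (x : X), tt i ^ n • x = (zE (τ i) (τ' i))^[n] x := by
    intro i n
    induction n with
    | zero => intro x; rw [pow_zero, one_smul]; rfl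
    | succ n ih => intro x; rw [pow_succ, mul_smul, ih, htt', Function.iterate_succ_apply]
  have key := box_of_tau (A := R) (X := X) (d := d) hp hp2 ν hν τL τL' h1 h2 tt
    (fun i x => by rw [htt', zE_apply]; rfl)
    (fun i x => by simp only [hpow]; exact hG i x)
    (fun x => by rw [← Nat.cast_pow, hsm]; exact hpa x)
    (by
      refine le_trans (le_of_eq (Nat.card_congr ?_)) hcogen
      refine Equiv.subtypeEquivRight fun x => ?_
      simp only [Submodule.mem_inf, Submodule.mem_iInf, mem_torsionBy_iff, hsm, htt'])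
    hsize
  rw [Fintype.card_fin] at key
  refine le_trans key (le_of_eq (Nat.card_congr ?_))
  refine Equiv.subtypeEquivRight fun x => ?_
  simp only [Submodule.mem_iInf, mem_torsionBy_iff, hzpow]

end Type_

section Sub

variable {Γ : Type*} [Group Γ] {J : Type*} [AddCommGroup J] [DistribMulAction Γ J]

/-- the action of `g` on a stable subgroup. -/
def resG (X : AddSubgroup J) (hX : ∀ g : Γ, ∀ x ∈ X, g • x ∈ X) (g : Γ) : X →+ X :=
  ((gOp g : J →+ J).comp X.subtype).codRestrict X fun x => hX g x x.2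

theorem coe_resG (X : AddSubgroup J) (hX : ∀ g : Γ, ∀ x ∈ X, g • x ∈ X) (g : Γ) (x : X) :
    ((resG X hX g x : X) : J) = g • (x : J) := rfl

theorem coe_resG_iterate (X : AddSubgroup J) (hX : ∀ g : Γ, ∀ x ∈ X, g • x ∈ X) (g : Γ) (n : ℕ)
    (x : X) : (((resG X hX g)^[n] x : X) : J) = g ^ n • (x : J) := by
  induction n generalizing x with
  | zero => rw [pow_zero, one_smul]; rfl
  | succ n ih => rw [Function.iterate_succ_apply, ih, coe_resG, pow_succ, mul_smul]

theorem coe_zE_resG (X : AddSubgroup J) (hX : ∀ g : Γ, ∀ x ∈ X, g • x ∈ X) (g : Γ) (x : X) :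
    ((zE (resG X hX g) (resG X hX g⁻¹) x : X) : J) = zOp g (x : J) := rfl

theorem coe_zE_resG_iterate (X : AddSubgroup J) (hX : ∀ g : Γ, ∀ x ∈ X, g • x ∈ X) (g : Γ)
    (n : ℕ) (x : X) :
    (((zE (resG X hX g) (resG X hX g⁻¹))^[n] x : X) : J) = (zOp g)^[n] (x : J) := by
  induction n generalizing x with
  | zero => rfl
  | succ n ih => rw [Function.iterate_succ_apply, ih, coe_zE_resG, Function.iterate_succ_apply]

/-- **[BOX]**, Galois form, for a stable subgroup. -/
theorem box_gal_sub (X : AddSubgroup J) (hX : ∀ g : Γ, ∀ x ∈ X, g • x ∈ X) [Finite X]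
    {t p a d : ℕ} (hp : p.Prime) (hp2 : p ≠ 2) (ν : Fin t → ℕ) (hν : ∀ i, 2 * a ≤ ν i)
    (τ : Fin t → Γ)
    (hc : ∀ i j, ∀ x ∈ X, zOp (τ i) (τ j • x) = τ j • zOp (τ i) x)
    (hG : ∀ i, ∀ x ∈ X, ∑ j ∈ range (p ^ ν i), τ i ^ j • x = 0)
    (hpa : ∀ x ∈ X, p ^ a • x = 0)
    (hcogen : Nat.card ↥(boxG p 1 τ X) ≤ p ^ d)
    (hsize : p ^ (d * (a * ∏ i, (p ^ ν i - 1) / 2)) ≤ Nat.card X) :
    p ^ (d * a ^ (t + 1)) ≤ Nat.card ↥(boxG p a τ X) := by
  have key := box_gal (X := X) (d := d) hp hp2 ν hν (fun i => resG X hX (τ i))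
    (fun i => resG X hX (τ i)⁻¹)
    (fun i x => Subtype.ext (by rw [coe_resG, coe_resG, smul_inv_smul]))
    (fun i x => Subtype.ext (by rw [coe_resG, coe_resG, inv_smul_smul]))
    (fun i j x => Subtype.ext (by
      rw [coe_zE_resG, coe_resG, coe_resG, coe_zE_resG]; exact hc i j x x.2))
    (fun i x => Subtype.ext (by
      rw [AddSubgroup.val_finsetSum]
      simp only [coe_resG_iterate]
      exact hG i x x.2))
    (fun x => Subtype.ext (hpa x x.2))
    (by
      refine le_trans (le_of_eq (Nat.card_congr ?_)) hcogen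
      exact
        { toFun := fun x => ⟨x.1.1, x.1.2, by
            rw [pow_one]; exact congrArg Subtype.val x.2.1, fun i => by
            have := congrArg Subtype.val (x.2.2 i)
            rwa [coe_zE_resG] at this⟩
          invFun := fun x => ⟨⟨x.1, x.2.1⟩, Subtype.ext (by
            have := x.2.2.1
            rwa [pow_one] at this), fun i => Subtype.ext (by
            rw [coe_zE_resG]; exact x.2.2.2 i)⟩
          left_inv := fun _ => rfl
          right_inv := fun _ => rfl })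
    hsize
  refine le_trans key (le_of_eq (Nat.card_congr ?_))
  exact
    { toFun := fun x => ⟨x.1.1, x.1.2, hpa _ x.1.2, fun i => by
        have := congrArg Subtype.val (x.2 i)
        rwa [coe_zE_resG_iterate] at this⟩
      invFun := fun x => ⟨⟨x.1, x.2.1⟩, fun i => Subtype.ext (by
        rw [coe_zE_resG_iterate]; exact x.2.2.2 i)⟩
      left_inv := fun _ => rfl
      right_inv := fun _ => rfl }

end Sub

end Fermat.Agent.ML.Lift
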