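import Fermat.Agent.ML.Lift.Inst.Num
import Fermat.Agent.ML.Rho.CellRho
import Fermat.Agent.ML.Lift.StepAbs

/-!
# ML / LIFT / Inst / Bundle : `raise_step_abs` on the geometric tower, only the MIDDLE block left   (block (A1), the bundle)

`h : Nq = N * q` (FREE levels), `S` any set of primes, `V = cellV p S θ Nq (K+1)`, `H : Rho.IsRhoK Nq (p^(K+1)) V rE πE ρ Φ`,
lower state space `cellU p S θ N qv a`, upper state space `cellK p S θ qv a h`, `uA = upE h 0`, `uE = embE h ε`.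

`raise_step_cell` : all the hypotheses of the blocks `[H ha hcomm τ hχτ | lower level | upper level]` of `Lift.raise_step_abs` are
discharged, except the three cardinalities (`step_num`);  the middle block is stated on `Gt = uA G` as an `R`-submodule of `V`.
`q = p` is allowed.
-/

set_option autoImplicit false
set_option linter.unusedSectionVars false

noncomputable section

open AlgebraicCurve ModularCurve

namespace Fermat.Agent.ML.Lift

open Fermat.Agent.RIB Fermat.Agent.GAL Fermat.Agent.GAL.PC Fermat.Agent.ML Fermat.Agent.ML.TWFree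
  Fermat.Agent.RIB.Rho

local notation "Qbar" => AlgebraicClosure ℚ
local notation "GQ" => (AlgebraicClosure ℚ ≃ₐ[ℚ] AlgebraicClosure ℚ)
local notation "M₂" => Matrix (Fin 2) (Fin 2)

variable {p : ℕ} [Fact p.Prime] {S : Set ℕ} {θ : ℕ → ℤ} {N Nq q : ℕ} [NeZero N] [NeZero Nq]
  [NeZero q] {t : ℕ} {qv : Fin t → Nat.Primes} {a K : ℕ}
  {rE : GQ →* M₂ (ZMod (p ^ (K + 1)))}
  {R : Type} [CommRing R] [Algebra (ZMod (p ^ (K + 1))) R] [Module R ↥(cellV p S θ Nq (K + 1))]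
  {πE : R →ₐ[ZMod (p ^ (K + 1))] ZMod (p ^ (K + 1))} {ρ : GQ →* M₂ R}
  {Φ : M₂ R →ₐ[R] Module.End R ↥(cellV p S θ Nq (K + 1))}

/-- `uA G` as an `R`-submodule of `V`. -/
def stageSub (H : ML.Rho.IsRhoK Nq (p ^ (K + 1)) (cellV p S θ Nq (K + 1)) rE πE ρ Φ)
    (h : Nq = N * q) (G : AddSubgroup (JZero N)) (hG : ∀ (g : GQ), ∀ v ∈ G, g • v ∈ G)
    (hGV : ∀ v ∈ G, upE h 0 v ∈ cellV p S θ Nq (K + 1)) :
    Submodule R ↥(cellV p S θ Nq (K + 1)) :=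
  H.isTraceRing.mapSub G hG (upE h 0) (fun g v => upE_smul h 0 g v) hGV

theorem mem_stageSub {H : ML.Rho.IsRhoK Nq (p ^ (K + 1)) (cellV p S θ Nq (K + 1)) rE πE ρ Φ}
    {h : Nq = N * q} {G : AddSubgroup (JZero N)} {hG : ∀ (g : GQ), ∀ v ∈ G, g • v ∈ G}
    {hGV : ∀ v ∈ G, upE h 0 v ∈ cellV p S θ Nq (K + 1)} {x : ↥(cellV p S θ Nq (K + 1))} :
    x ∈ stageSub H h G hG hGV ↔ ∃ v ∈ G, upE h 0 v = (x : JZero Nq) := Iff.rfl

/-- **[RAISE-STEP] on the tower** : only the middle block is left. -/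
theorem raise_step_cell (hq : q.Prime) (hqN : ¬ q ∣ N) (hAP : NonEisAP p S θ) (hqS : q ∈ S)
    (hne : ∀ i, ((qv i : Nat.Primes) : ℕ) ≠ q) (hnp : ∀ i, ((qv i : Nat.Primes) : ℕ) ≠ p)
    (h : Nq = N * q) (hS : ∀ r : ℕ, r.Prime → r ∉ S → ¬ r ∣ Nq * p)
    (H : ML.Rho.IsRhoK Nq (p ^ (K + 1)) (cellV p S θ Nq (K + 1)) rE πE ρ Φ)
    (ha : 1 ≤ a) (haK : a ≤ K + 1)
    -- the inertia generators and the three cardinalities
    {A : Fin t → ValuationSubring Qbar} {τ : Fin t → GQ}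
    (hA : ∀ i, (A i).LiesOverPrime ((qv i : Nat.Primes) : ℕ))
    (hτ : ∀ i, τ i ∈ (A i).inertiaSubgroupIn ℚ)
    {d e D : ℕ} (hcogen : Nat.card ↥(boxG p 1 τ (cellU p S θ N qv a)) ≤ p ^ d)
    (he : p ^ d < 2 ^ e)
    (hcogen' : Nat.card ↥(boxG p 1 τ (cellK p S θ qv a h)) ≤ p ^ D)
    (hsize' : p ^ (D * a ^ (t + 1)) ≤ Nat.card ↥(boxG p a τ (cellK p S θ qv a h)))
    -- the cell
    (G : AddSubgroup (JZero N)) (hG : ∀ (g : GQ), ∀ v ∈ G, g • v ∈ G)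
    (hGU : G ≤ boxG p a τ (cellU p S θ N qv a)) (ε : ℤ)
    (Gt : Submodule R ↥(cellV p S θ Nq (K + 1)))
    (hGt : ∀ x : ↥(cellV p S θ Nq (K + 1)), x ∈ Gt ↔ ∃ v ∈ G, upE h 0 v = (x : JZero Nq))
    -- the middle block
    {κ : Type*} [Fintype κ] (u δ : κ → R) (hynil : ∀ k, IsNilpotent (u k - (p : R) * δ k))
    (hgen : ∀ i, (ρ (τ i)).trace - 2 ∈
      Gt.annihilator ⊔ Ideal.span (Set.range u) ⊔ Ideal.span {(p : R)})
    {f m : ℕ} (hbig : p ^ (d * f * (e * ((t + 1) * a + 1)) ^ Fintype.card κ) < Nat.card G)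
    (β' : R) (Nn : ℤ) (hN : ¬ (p : ℤ) ^ (f + 1) ∣ Nn)
    (hβ' : ∀ x ∈ Gt, (∀ k, (u k - (p : R) * δ k) • x = 0) → β' • x = Nn • x)
    (hemb : ∀ v ∈ G, ∀ x : ↥(cellV p S θ Nq (K + 1)), upE h 0 v = (x : JZero Nq) →
      (∀ k, (u k - (p : R) * δ k) • x = 0) → ∀ c, dnE h c (embE h ε v) = 0)
    (hm : (t + 1) * m + (f + 1) ≤ a + 1) :
    ∃ G' : AddSubgroup (JZero Nq), (∀ (g : GQ), ∀ x ∈ G', g • x ∈ G') ∧
      G' ≤ boxG p a τ (cellK p S θ qv a h) ∧ p ^ (m ^ (t + 1)) ≤ Nat.card G' ∧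
      ∀ x ∈ G', ∃ x₁ : ↥(cellV p S θ Nq (K + 1)),
        (x₁ : JZero Nq) ∈ boxG p a τ (cellK p S θ qv a h) ∧
          ((β' • x₁ : ↥(cellV p S θ Nq (K + 1))) : JZero Nq) = x := by
  have hp : p.Prime := Fact.out
  have : Finite ↥(cellV p S θ Nq (K + 1)) := finite_cellV hp (K + 1)
  have hAV : ∀ v ∈ cellU p S θ N qv a, upE h 0 v ∈ cellV p S θ Nq (K + 1) := fun v hv =>
    cellU_le_cellV qv haK (upE_mem_cellU hq hne h hS 0 hv)
  have hEV : ∀ v ∈ cellU p S θ N qv a, embE h ε v ∈ cellV p S θ Nq (K + 1) := fun v hv =>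
    cellU_le_cellV qv haK (embE_mem_cellU hq hne h hS ε hv)
  have hGt' : Gt = H.isTraceRing.mapSub G hG (upE h 0) (fun g v => upE_smul h 0 g v)
      (fun v hv => hAV v (hGU hv).1) := by
    ext x
    exact hGt x
  refine raise_step_abs (M := JZero N) H.isTraceRing ha H.hcomm τ
    (fun i x hx => H.chi_smul (ML.Rho.chiM_inertia hp (qv i).2 (hnp i) (hA i) (hτ i)) x hx)
    (cellU p S θ N qv a) G (fun g v hv => smul_mem_cellU g hv) hG (fun v hv => hv.1.2) hGU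
    (upE h 0) (embE h ε) (fun g v => upE_smul h 0 g v) (fun g v => embE_smul h ε g v) hAV hEV
    (fun v hv h0 => upE_eq_zero_cellU hp hq hqN hAP hqS h 0 hv h0)
    (fun v hv h0 => embE_eq_zero_cellU hp hq hqN hAP hqS h ε hv h0)
    hcogen he (cellK p S θ qv a h) (fun g x hx => smul_mem_cellK h g hx)
    (fun x hx => cellU_le_cellV qv haK hx.1) (fun x hx => hx.1.1.2) hcogen' hsize'
    u δ hynil (fun i => by rw [← hGt']; exact hgen i) hbig β' Nn hN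
    (fun v hv hk => hβ' _ ((hGt _).2 ⟨v, hv, rfl⟩) hk)
    (fun v hv hk => ⟨embE_mem_cellU hq hne h hS ε (hGU hv).1, hemb v hv _ rfl hk⟩) hm

end Fermat.Agent.ML.Lift
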