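import Fermat.Agent.ML.At2.N2.LowerBox
import Fermat.Agent.ML.Lift.Inst.Geo
import Fermat.Agent.ML.Lift.Inst.New

/-!
# ML / LIFT / Inst / Defs : the objects of the raising step `Lc ⟶ Lc' = Lc * q`   (block (A1), definitions)

`S = ↑(cutS T qv)`, `N = lvl Lc (extP qv) t`, `N' = lvl Lc' (extP qv) t`, `h = lvl_mul_q hL qv : N' = N * q`.

* the lower state space : `At2.UNew p S θ Lc qv a`   (`ML/At2/N2/LowerBox.lean`);
* `UK hL p S θ qv a` : the upper state space : the classes of `At2.UNew p S θ Lc' qv a` killed by the two push-forwards at `q`;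
* `VK p S θ N K` : the module of the ring : the `p^(K+1)`-torsion of the `θ`-part;
* `uA hL qv = upE h 0`, `uE hL qv ε = embE h ε`.
-/

set_option autoImplicit false
set_option linter.unusedSectionVars false

noncomputable section

open AlgebraicCurve ModularCurve

namespace Fermat.Agent.ML.Lift

open Fermat.Agent.RIB Fermat.Agent.GAL Fermat.Agent.GAL.PC Fermat.Agent.ML Fermat.Agent.ML.TWFree
open Fermat.Agent.ML.At2 (UNew mem_UNew smul_mem_UNew)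

local notation "Qbar" => AlgebraicClosure ℚ
local notation "GQ" => (AlgebraicClosure ℚ ≃ₐ[ℚ] AlgebraicClosure ℚ)

/-- the `p^(K+1)`-torsion of the `θ`-part. -/
def VK (p : ℕ) (S : Set ℕ) (θ : ℕ → ℤ) (N : ℕ) [NeZero N] (K : ℕ) : AddSubgroup (JZero N) where
  carrier := {x | x ∈ thetaPart N p S θ ∧ p ^ (K + 1) • x = 0}
  zero_mem' := ⟨AddSubgroup.zero_mem _, smul_zero _⟩
  add_mem' := fun {x y} hx hy => ⟨AddSubgroup.add_mem _ hx.1 hy.1,
    by rw [nsmul_add, hx.2, hy.2, add_zero]⟩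
  neg_mem' := fun {x} hx => ⟨AddSubgroup.neg_mem _ hx.1, by rw [neg_nsmul, hx.2, neg_zero]⟩

theorem mem_VK {p : ℕ} {S : Set ℕ} {θ : ℕ → ℤ} {N : ℕ} [NeZero N] {K : ℕ} {x : JZero N} :
    x ∈ VK p S θ N K ↔ x ∈ thetaPart N p S θ ∧ p ^ (K + 1) • x = 0 := Iff.rfl

theorem gal_nsmul {N : ℕ} [NeZero N] (g : GQ) (m : ℕ) (x : JZero N) : m • (g • x) = g • (m • x) :=
  (map_nsmul (DistribSMul.toAddMonoidHom (JZero N) g) m x).symm

theorem smul_mem_VK {p : ℕ} {S : Set ℕ} {θ : ℕ → ℤ} {N : ℕ} [NeZero N] {K : ℕ} (g : GQ)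
    {x : JZero N} (hx : x ∈ VK p S θ N K) : g • x ∈ VK p S θ N K :=
  ⟨smul_mem_thetaPart g hx.1, by rw [gal_nsmul, hx.2]; exact gal_zero g⟩

theorem finite_VK {p : ℕ} (hp : p.Prime) (S : Set ℕ) (θ : ℕ → ℤ) (N : ℕ) [NeZero N] (K : ℕ) :
    Finite ↥(VK p S θ N K) :=
  ((finite_torsion_JZero N (p ^ (K + 1)) (pow_ne_zero _ hp.ne_zero)).subset
    fun _ hx => hx.2).to_subtype

section K

variable {Lc Lc' q : ℕ} [NeZero Lc] [NeZero Lc'] [NeZero q]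

/-- the upper state space : `θ`-part, new at the Taylor-Wiles primes, `q`-new, killed by `p^a`. -/
def UK (hL : Lc' = Lc * q) (p : ℕ) (S : Set ℕ) (θ : ℕ → ℤ) {t : ℕ} (qv : Fin t → Nat.Primes)
    (a : ℕ) : AddSubgroup (JZero (lvl Lc' (extP qv) t)) where
  carrier := {x | x ∈ UNew p S θ Lc' qv a ∧ ∀ c, dnE (lvl_mul_q hL qv) c x = 0}
  zero_mem' := ⟨AddSubgroup.zero_mem _, fun _ => map_zero _⟩
  add_mem' := fun {x y} hx hy => ⟨AddSubgroup.add_mem _ hx.1 hy.1,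
    fun c => by rw [map_add, hx.2 c, hy.2 c, add_zero]⟩
  neg_mem' := fun {x} hx => ⟨AddSubgroup.neg_mem _ hx.1, fun c => by rw [map_neg, hx.2 c, neg_zero]⟩

variable {hL : Lc' = Lc * q} {p : ℕ} {S : Set ℕ} {θ : ℕ → ℤ} {t : ℕ} {qv : Fin t → Nat.Primes}
  {a : ℕ}

theorem mem_UK {x : JZero (lvl Lc' (extP qv) t)} :
    x ∈ UK hL p S θ qv a ↔ x ∈ UNew p S θ Lc' qv a ∧ ∀ c, dnE (lvl_mul_q hL qv) c x = 0 := Iff.rfl

theorem UK_le_UNew : UK hL p S θ qv a ≤ UNew p S θ Lc' qv a := fun _ h => h.1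

theorem UK_le_thetaPart : UK hL p S θ qv a ≤ thetaPart (lvl Lc' (extP qv) t) p S θ :=
  fun _ h => h.1.1

theorem smul_mem_UK (g : GQ) {x : JZero (lvl Lc' (extP qv) t)} (hx : x ∈ UK hL p S θ qv a) :
    g • x ∈ UK hL p S θ qv a :=
  ⟨smul_mem_UNew g hx.1, fun c => by rw [dnE_smul, hx.2 c]; exact gal_zero g⟩

theorem UK_pow_smul {x : JZero (lvl Lc' (extP qv) t)} (hx : x ∈ UK hL p S θ qv a) :
    p ^ a • x = 0 := hx.1.2.2

theorem UK_isNewAt {x : JZero (lvl Lc' (extP qv) t)} (hx : x ∈ UK hL p S θ qv a) (i : Fin t) :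
    Tower.IsNewAt (lvl Lc' (extP qv) t) ((qv i : Nat.Primes) : ℕ) x := hx.1.2.1 i

/-- `p^a`-torsion is `p^(K+1)`-torsion. -/
theorem pow_smul_of_le_inst {J : Type*} [AddCommGroup J] {a k : ℕ} (h : a ≤ k) {x : J}
    (hx : p ^ a • x = 0) : p ^ k • x = 0 := by
  obtain ⟨c, rfl⟩ := Nat.exists_eq_add_of_le h
  rw [pow_add, mul_comm, mul_smul, hx, smul_zero]

theorem UNew_le_VK {L : ℕ} [NeZero L] {K : ℕ} (haK : a ≤ K + 1) :
    UNew p S θ L qv a ≤ VK p S θ (lvl L (extP qv) t) K :=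
  fun _ hx => ⟨hx.1, pow_smul_of_le_inst haK hx.2.2⟩

theorem UK_le_VK {K : ℕ} (haK : a ≤ K + 1) :
    UK hL p S θ qv a ≤ VK p S θ (lvl Lc' (extP qv) t) K :=
  fun _ hx => UNew_le_VK haK hx.1

/-- `α_q^*`. -/
def uA (hL : Lc' = Lc * q) {t : ℕ} (qv : Fin t → Nat.Primes) :
    JZero (lvl Lc (extP qv) t) →+ JZero (lvl Lc' (extP qv) t) := upE (lvl_mul_q hL qv) 0

/-- `e_q = α_q^* - ε β_q^*`. -/
def uE (hL : Lc' = Lc * q) {t : ℕ} (qv : Fin t → Nat.Primes) (ε : ℤ) :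
    JZero (lvl Lc (extP qv) t) →+ JZero (lvl Lc' (extP qv) t) := embE (lvl_mul_q hL qv) ε

theorem uA_smul (g : GQ) (v : JZero (lvl Lc (extP qv) t)) : uA hL qv (g • v) = g • uA hL qv v :=
  upE_smul _ 0 g v

theorem uE_smul (ε : ℤ) (g : GQ) (v : JZero (lvl Lc (extP qv) t)) :
    uE hL qv ε (g • v) = g • uE hL qv ε v := embE_smul _ ε g v

end K

end Fermat.Agent.ML.Lift
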