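import Fermat.Agent.ML.Lift.Inst.Defs
import Fermat.Agent.ML.Lift.Inst.Num

/-!
# ML / LIFT / Inst / DefsEq : the objects of `Inst/Defs.lean`, `At2/N2/LowerBox.lean` and `Inst/Num.lean` are the same

`VK = cellV`, `At2.UNew = cellU`, `UK = cellK`.
-/

set_option autoImplicit false

noncomputable section

open AlgebraicCurve ModularCurve

namespace Fermat.Agent.ML.Lift

open Fermat.Agent.RIB Fermat.Agent.ML Fermat.Agent.ML.TWFree
open Fermat.Agent.ML.At2 (UNew mem_UNew)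

variable {p : ℕ} {S : Set ℕ} {θ : ℕ → ℤ}

theorem VK_eq_cellV (N : ℕ) [NeZero N] (K : ℕ) : VK p S θ N K = cellV p S θ N (K + 1) := rfl

theorem UNew_eq_cellU (L : ℕ) [NeZero L] {t : ℕ} (qv : Fin t → Nat.Primes) (a : ℕ) :
    UNew p S θ L qv a = cellU p S θ (lvl L (extP qv) t) qv a := by
  ext x
  rw [mem_UNew, mem_cellU]
  tauto

theorem UK_eq_cellK {Lc Lc' q : ℕ} [NeZero Lc] [NeZero Lc'] [NeZero q] (hL : Lc' = Lc * q) {t : ℕ}
    (qv : Fin t → Nat.Primes) (a : ℕ) :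
    UK hL p S θ qv a = cellK p S θ qv a (lvl_mul_q hL qv) := by
  ext x
  rw [mem_UK, mem_cellK, UNew_eq_cellU]

end Fermat.Agent.ML.Lift
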