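import Fermat.Agent.ML.Lift.Inst.GenSub

/-!
# ML / Lift / Inst / GenFlat : the hypothesis `hflat` of `MCtx.gen_stage_p` / `MCtx.hgen_stage_p` for a stage module inside a step

* `hflat_sub` : `FlatData p YS`, `Y ⊆ YS` ⟹ `∀ φ, IsTan p π0 J φ → HasFlat ..` for every `J ≥ Ann_R(Y)`;
* `hflat_cell` : the same for `Y = u G`, `G` a cell at a level prime to `p`.
-/

set_option autoImplicit false
set_option linter.unusedSectionVars false

noncomputable section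

open AlgebraicCurve ModularCurve

namespace Fermat.Agent.ML.StepGen

open Fermat.Agent.GAL Fermat.Agent.RIB Fermat.Agent.RIB.Rho Fermat.Agent.ML.ESide Fermat.Agent.ML.Rho
  Fermat.Agent.ML.Lift Fermat.Agent.S56 Fermat.Agent.S56.Flat Fermat.Agent.ML.FinGen

local notation "Qbar" => AlgebraicClosure ℚ
local notation "GQ" => (AlgebraicClosure ℚ ≃ₐ[ℚ] AlgebraicClosure ℚ)
local notation "M₂" => Matrix (Fin 2) (Fin 2)

section Main

variable {W : WeierstrassCurve ℤ} {p : ℕ} [Fact p.Prime] {T : Finset ℕ}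
  {b : Module.Basis (Fin 2) (ZMod p) (TorsW W p)} {L₀ : ℕ} [NeZero L₀] {eps : ℕ → ℤ}
  {eP : GQ → ℤ} (X : LCtx W p T b L₀ eps eP) {t K : ℕ} {qv : Fin t → Nat.Primes}
  {N' : ℕ} [NeZero N'] {X' : AddSubgroup (JZero N')}
  {B : Module.Basis (Fin 2) (ZMod (p ^ (K + 1))) (TorsW W (p ^ (K + 1)))}
  (C : TopCtx W p b K B N' X')
  {R : Type} [CommRing R] [Algebra (ZMod (p ^ (K + 1))) R] [Module R ↥X']
  {πE : R →ₐ[ZMod (p ^ (K + 1))] ZMod (p ^ (K + 1))} {ρ : GQ →* M₂ R}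
  {Φ : M₂ R →ₐ[R] Module.End R ↥X'}
  (H : Fermat.Agent.ML.Rho.IsRhoK N' (p ^ (K + 1)) X' (rEB B) πE ρ Φ)

include X C H in
/-- **`hflat`** of `MCtx.gen_stage_p` for a stage module `Y` and every `J ≥ Ann_R(Y)`. -/
theorem hflat_sub [IsLocalRing R] (Y : Submodule R ↥X')
    (hYG : ∀ (g : GQ), ∀ y ∈ Y, ∀ y' : ↥X', (y' : JZero N') = g • (y : JZero N') → y' ∈ Y)
    (YS : Set (JZero N')) (hYS : ∀ y ∈ Y, ((y : ↥X') : JZero N') ∈ YS)
    (hfl : FlatData p YS) {π0 : R →+* ZMod p} {J : Ideal R} (hJ : Y.annihilator ≤ J)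
    (φ : R →+* DualNumber (kM p)) (hφ : IsTan p π0 J φ) :
    HasFlat (Ap p).valuation (matAct (Ip p) (S53.mapRep φ ρ)) := by
  have := finite_top C
  have hadj : Algebra.adjoin R (Set.range ρ) = ⊤ := X.C.adjoin_range_rho' (C.lift H)
  set Yt : Submodule R (VJ X' (rEB B) πE ρ Φ) := subVJ (rEB B) πE ρ Φ Y with hYt
  have hYtG : ∀ g : GQ, ∀ x ∈ Yt, g • x ∈ Yt := fun g x hx => smul_mem_subVJ H hYG g x hx
  have hann : Yt.annihilator = Y.annihilator := annihilator_subVJ Y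
  obtain ⟨L, _, G, u, n, hpL, hu, hG, hinj, hn, hsurj⟩ := hfl
  set YA : AddSubgroup (JZero N') := (Y.toAddSubgroup).map X'.subtype with hYA
  obtain ⟨s, hs⟩ := exists_section G u hinj YA (by
    rintro _ ⟨y, hy, rfl⟩
    exact hsurj _ (hYS y hy))
  let toYA : ↥Yt →+ ↥YA :=
    { toFun := fun v => ⟨XJ.incl X' ρ Φ v.1.1, ⟨v.1.1, v.2.1, rfl⟩⟩
      map_zero' := Subtype.ext (map_zero (XJ.incl X' ρ Φ))
      map_add' := fun v w => Subtype.ext (map_add (XJ.incl X' ρ Φ) v.1.1 w.1.1) }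
  set ι : ↥Yt →+ JZero L := s.comp toYA with hι
  have hιu : ∀ v : ↥Yt, u (ι v) = XJ.incl X' ρ Φ v.1.1 := fun v => (hs (toYA v)).2
  have hιG' : ∀ v : ↥Yt, ι v ∈ G := fun v => (hs (toYA v)).1
  have huniq : ∀ v ∈ G, ∀ w ∈ G, u v = u w → v = w := fun v hv w hw h =>
    sub_eq_zero.1 (hinj _ (G.sub_mem hv hw) (by rw [map_sub, h, sub_self]))
  have hιinj : Function.Injective ι := by
    rw [injective_iff_map_eq_zero]
    intro v hv
    have h1 := hιu v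
    rw [hv, map_zero] at h1
    refine Subtype.ext (Prod.ext (XJ.incl_injective X' ρ Φ ?_) v.2.2)
    rw [← h1]
    exact (map_zero _).symm
  have hιeq : ∀ (g : GQ) (x : ↥Yt), ι ⟨g • (x : VJ X' (rEB B) πE ρ Φ), hYtG g x x.2⟩ = g • ι x := by
    intro g x
    refine huniq _ (hιG' _) _ (hG g _ (hιG' x)) ?_
    rw [hιu, hu, hιu]
    exact H.coe_gal g x.1.1
  exact RhoAct.hasFlat_of_isTan_sub_jac (V := VJ X' (rEB B) πE ρ Φ) H.rhoAct hadj Yt hYtG L hpL n ι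
    hιinj hιeq (fun x => hn _ (hιG' x)) (hann.le.trans hJ) φ hφ

variable {Lc : ℕ} [NeZero Lc] {a : ℕ} {P : Finset ℕ}
  {G : AddSubgroup (JZero (lvl Lc (extP qv) t))}
  (hG : IsCell p T W.apOfModel (rbarB b) eps eP Lc qv a P G)
  (u : JZero (lvl Lc (extP qv) t) →+ JZero N') (hu : ∀ (g : GQ) v, u (g • v) = g • u v)

include hG hu in
/-- `FlatData` for the image of a cell at a level prime to `p`. -/
theorem flatData_cell (hinj : ∀ v ∈ G, u v = 0 → v = 0) (h : ¬ p ∣ lvl Lc (extP qv) t) :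
    FlatData p (u '' (G : Set (JZero (lvl Lc (extP qv) t)))) := by
  refine ⟨_, inferInstance, G, u, a, h, hu, hG.gal, hinj, fun v hv => (hG.box v hv).1, ?_⟩
  rintro _ ⟨v, hv, rfl⟩
  exact ⟨v, hv, rfl⟩

include X C H hG hu in
/-- **`hflat`** of `MCtx.gen_stage_p` inside a step, `Y = u G`, `G` a cell at a level prime to `p`. -/
theorem hflat_cell [IsLocalRing R] (hinj : ∀ v ∈ G, u v = 0 → v = 0) (h : ¬ p ∣ lvl Lc (extP qv) t)
    (Y : Submodule R ↥X')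
    (hYG : ∀ (g : GQ), ∀ y ∈ Y, ∀ y' : ↥X', (y' : JZero N') = g • (y : JZero N') → y' ∈ Y)
    (hYS : ∀ y ∈ Y, ∃ v ∈ G, u v = ((y : ↥X') : JZero N'))
    {π0 : R →+* ZMod p} {J : Ideal R} (hJ : Y.annihilator ≤ J)
    (φ : R →+* DualNumber (kM p)) (hφ : IsTan p π0 J φ) :
    HasFlat (Ap p).valuation (matAct (Ip p) (S53.mapRep φ ρ)) :=
  hflat_sub X C H Y hYG (u '' (G : Set (JZero (lvl Lc (extP qv) t))))
    (fun y hy => by
      obtain ⟨v, hv, e⟩ := hYS y hy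
      exact ⟨v, hv, e⟩) (flatData_cell hG u hu hinj h) hJ φ hφ

end Main

end Fermat.Agent.ML.StepGen
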