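import Fermat.Agent.ML.Lift.Soft.Spec
import Fermat.Agent.ML.Gen.Stage

/-!
# ML / Lift / Inst / MidTwo : the contract at the prime `2` of the middle block of a raising step

`MidTwoStmt` = the package [CELL-2] in the frame of a step (`TopCtx`, `IsRhoK`, a stage module `Y ≤ V`, `YS ⊇ Y`) :
a static integer `N2 ≠ 0`; after the ring : a variable `u2` (auxiliary value `p * dl2`), a multiplier `β2`;

* OUT : the fields of `IsCell` at `2` on every set of elements `β' • x₁`, `β2 ∣ β'`;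
* IN  : either no variable (`2 ∉ P`, `β2 = N2` on `Y`), or one variable of weight `1` (`hstrict` at `twoP`, `β2 = N2` on `Y[u2 - p dl2]`).
-/

set_option autoImplicit false

noncomputable section

open AlgebraicCurve ModularCurve

namespace Fermat.Agent.ML.Lift

open Fermat.Agent.RIB Fermat.Agent.RIB.Rho Fermat.Agent.ML Fermat.Agent.ML.ESide Fermat.Agent.S56
  Fermat.Agent.S56.Gen ExtCitation
open CFT (decomp)

local notation "M₂" => Matrix (Fin 2) (Fin 2)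

/-- **the contract at the prime `2`** (= [CELL-2], in the frame of a step). -/
def MidTwoStmt : Prop :=
  ∀ (W : WeierstrassCurve ℤ) (p : ℕ) [Fact p.Prime] (T : Finset ℕ)
    (b : Module.Basis (Fin 2) (ZMod p) (TorsW W p)) (L₀ : ℕ) [NeZero L₀] (eps : ℕ → ℤ)
    (eP : GQ → ℤ) (_X : LCtx W p T b L₀ eps eP) (P : Finset ℕ), P ⊆ Pfin W (rbarB b) L₀ →
    ∃ N2 : ℤ, N2 ≠ 0 ∧
    ∀ (K N' : ℕ) [NeZero N'] (V : AddSubgroup (JZero N'))
      (B : Module.Basis (Fin 2) (ZMod (p ^ (K + 1))) (TorsW W (p ^ (K + 1)))),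
      TopCtx W p b K B N' V →
      ∀ (R : Type) [CommRing R] [IsLocalRing R] [Finite R] [Algebra (ZMod (p ^ (K + 1))) R]
        [Module R ↥V] (πE : R →ₐ[ZMod (p ^ (K + 1))] ZMod (p ^ (K + 1))) (ρ : GQ →* M₂ R)
        (Φ : M₂ R →ₐ[R] Module.End R ↥V),
        Fermat.Agent.ML.Rho.IsRhoK N' (p ^ (K + 1)) V (rEB B) πE ρ Φ →
      ∃ (u2 dl2 β2 : R), pi0 πE u2 = 0 ∧
        (∀ β' : R, β2 ∣ β' → ∀ G' : Set (JZero N'),
          (∀ x ∈ G', ∃ x₁ : ↥V, ((β' • x₁ : ↥V) : JZero N') = x) →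
          (2 ∈ P → LocSt 2 (eps 2) G') ∧ (Ram (rbarB b) 2 ∨ 2 ∈ P → LocUnip 2 G') ∧
          (¬ Ram (rbarB b) 2 → 2 ∉ P → LocUr 2 G')) ∧
        ∀ (Y : Submodule R ↥V),
          (∀ (g : GQ), ∀ y ∈ Y, ∀ y' : ↥V, (y' : JZero N') = g • (y : JZero N') → y' ∈ Y) →
          ∀ (YS : Set (JZero N')), (∀ y ∈ Y, ((y : ↥V) : JZero N') ∈ YS) →
          (¬ Ram (rbarB b) 2 → 2 ∉ P → LocUr 2 YS) → (Ram (rbarB b) 2 ∨ 2 ∈ P → LocUnip 2 YS) →
          (2 ∈ P → LocSt 2 (eps 2) YS) →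
          ((2 ∉ P ∧ ∀ x ∈ Y, β2 • x = N2 • x) ∨
           (Nat.card ↥(B1loc (adRep (mapK (kM p) (rbarB b))) twoP) * Nat.card (kM p) ^ 1 ≤
              Nat.card (kM p) ^ 3 ∧
            (∀ I : Ideal R, u2 ∈ I → ∃ M : M₂ R, IsUnit (M.map (pi0 πE)) ∧
              ∀ σ ∈ decomp twoP, ConjConst ℤ (Y.annihilator ⊔ I) M (ρ σ)) ∧
            ∀ x ∈ Y, (u2 - (p : R) * dl2) • x = 0 → β2 • x = N2 • x))

end Fermat.Agent.ML.Lift
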