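import Fermat.Agent.ML.Lift.Inst.MidTwo
import Fermat.Agent.ML.At2.Cell2Pol
import Fermat.Agent.ML.Raise.SoftTop

/-!
# ML / Lift / Inst / MidTwoPf : proof of the contract `MidTwoStmt` (the prime `2` in the middle block of a raising step)

Wrapper of `At2.exists_pkg2_pol` (the uniform package at `2`, on `V = X × Λ²`) in the frame `TopCtx` / `IsRhoK` / stage module `Y ≤ X`.
-/

set_option autoImplicit false
set_option linter.unusedSectionVars false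

noncomputable section

open AlgebraicCurve ModularCurve

namespace Fermat.Agent.ML.Lift

open Fermat.Agent.RIB Fermat.Agent.RIB.Rho Fermat.Agent.ML Fermat.Agent.ML.ESide Fermat.Agent.S56
  Fermat.Agent.S56.Gen ExtCitation Fermat.Agent.ML.Rho Fermat.Agent.ML.StepGen
  Fermat.Agent.ML.Raise
open CFT (decomp)

local notation "M₂" => Matrix (Fin 2) (Fin 2)
local notation "Qbar" => AlgebraicClosure ℚ

namespace MidTwoPf

section VJ

variable {L m : ℕ} [NeZero L] [NeZero m] {R : Type} [CommRing R] [Algebra (ZMod m) R]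
  {X : AddSubgroup (JZero L)} [Module R ↥X] {rE : GQ →* M₂ (ZMod m)}
  {πE : R →ₐ[ZMod m] ZMod m} {ρ : GQ →* M₂ R} {Φ : M₂ R →ₐ[R] Module.End R ↥X}

/-- `LocUnip` on `YS ⊇ Y` ⟹ `LocUnip` on `Y × 0 ≤ V`. -/
theorem locUnip_sub (H : Fermat.Agent.ML.Rho.IsRhoK L m X rE πE ρ Φ) (Y : Submodule R ↥X)
    {YS : Set (JZero L)} (hYS : ∀ y ∈ Y, (y : JZero L) ∈ YS) {q : ℕ} (h : LocUnip q YS) :
    LocUnip q (subVJ rE πE ρ Φ Y : Set (VJ X rE πE ρ Φ)) := by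
  intro A hA τ hτ τ' hτ' x hx
  refine H.ext_VJ ?_ ?_
  · show XJ.incl X ρ Φ (τ' • (τ • x.1 - x.1)) = XJ.incl X ρ Φ (τ • x.1 - x.1)
    rw [H.coe_gal, map_sub, H.coe_gal]
    exact h A hA τ hτ τ' hτ' _ (hYS _ hx.1)
  · show τ' • (τ • x.2 - x.2) = τ • x.2 - x.2
    rw [hx.2, smul_zero, sub_zero, smul_zero]

/-- a set of elements `β' • x₁` of `J₀(L)` is in the image of `β' V`. -/
theorem subset_image_range {β' : R} {G' : Set (JZero L)}
    (hG' : ∀ x ∈ G', ∃ x₁ : ↥X, ((β' • x₁ : ↥X) : JZero L) = x) :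
    G' ⊆ ofVJ X rE πE ρ Φ '' (Set.range fun y : VJ X rE πE ρ Φ => β' • y) := by
  intro x hx
  obtain ⟨x₁, h2⟩ := hG' x hx
  exact ⟨β' • ((x₁ : XJ X ρ Φ), (0 : EMJ rE πE)), ⟨_, rfl⟩, h2⟩

/-- an identity `β • x = n • x` on `Y × 0` descends to `Y`. -/
theorem smul_eq_of_inl {β : R} {n : ℤ} {x : ↥X}
    (h : β • inlVJ rE πE ρ Φ x = n • inlVJ rE πE ρ Φ x) : β • x = n • x :=
  congrArg Prod.fst h

/-- `a • x = 0` lifts to `Y × 0`. -/
theorem smul_inl_eq_zero {a : R} {x : ↥X} (h : a • x = 0) : a • inlVJ rE πE ρ Φ x = 0 :=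
  Prod.ext h (smul_zero a)

end VJ

end MidTwoPf

open MidTwoPf in
/-- **the contract at the prime `2`.** -/
theorem midTwoStmt : MidTwoStmt := by
  intro W p _ T b L₀ _ eps eP X P hP
  have hp : p.Prime := Fact.out
  have h2p : (2 : ℕ) ≠ p := fun h => X.C.hp2 h.symm
  have hA0 : (primeLocalPlace twoP).LiesOverPrime 2 := liesOverPrime_primeLocalPlace twoP
  obtain ⟨φ, hφ⟩ := S54.exists_isFrobeniusAt_of_liesOverPrime Nat.prime_two _ hA0
  refine ⟨At2.N2val (rbarB b) P φ, At2.N2val_ne_zero P φ, ?_⟩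
  intro K N' _ V B C R _ _ _ _ _ πE ρ Φ H
  classical
  obtain ⟨ε, hεdef⟩ : ∃ ε : ℤ, ε = if 2 ∈ P then eps 2 else 1 := ⟨_, rfl⟩
  have hε2 : 2 ∈ P → ε = eps 2 := fun h => by rw [hεdef, if_pos h]
  have hsgn : 2 ∈ P → eps 2 * eps 2 = 1 := fun h => by
    rcases (X.sgn 2 Nat.prime_two h2p (X.dvd_of_mem_Pfin (hP h))).1 with h | h <;> rw [h] <;> norm_num
  have hε : ε * ε = 1 := by
    by_cases h : 2 ∈ P
    · rw [hε2 h]; exact hsgn h
    · rw [hεdef, if_neg h]; norm_num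
  have htr : ∀ σ, pi0 πE (ρ σ).trace = (rbarB b σ).trace := fun σ => by
    rw [← C.lift H σ, Matrix.trace_fin_two, Matrix.trace_fin_two, map_add]
    rfl
  have hPP : 2 ∈ P → ¬ Ram (rbarB b) 2 ∧ (rbarB b φ).trace = 3 * (ε : ZMod p) := by
    intro h
    refine ⟨X.not_ram_of_mem_Pfin (hP h) h2p, ?_⟩
    have h1 := pi0_c_top C H Nat.prime_two h2p (hsgn h)
      (FinGen.locSt_EM B X.sgn Nat.prime_two h2p (X.dvd_of_mem_Pfin (hP h))) hA0 hφ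
    rw [map_sub, htr, sub_eq_zero, map_mul, map_add, map_intCast, map_natCast, map_one] at h1
    rw [h1, hε2 h]
    push_cast
    ring
  obtain ⟨n, hn⟩ : ∃ n : ℕ, RingHom.ker (pi0 πE) ^ n = ⊥ :=
    (Ideal.FG.isNilpotent_iff_le_nilradical (IsNoetherian.noetherian _)).2
      (TopCtx.ker_pi0_le_nilradical H)
  obtain ⟨k2, u, dl, β2, hpk, hk, -⟩ := At2.exists_pkg2_pol (V := VJ V (rEB B) πE ρ Φ) X.C H.rhoAct
    (X.C.adjoin_range_rho' (C.lift H)) (C.cont H) (C.lift H)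
    (fun a ha => TopCtx.isUnit_of_pi0 H ha) hn
    (fun σ hσ => C.det_inertia H Nat.prime_two h2p hA0 hσ) hφ
    (by rw [C.det_frob H Nat.prime_two h2p hA0 hφ]; norm_num) P ε hε hPP
  -- OUT
  have hout : ∀ β' : R, β2 ∣ β' → ∀ G' : Set (JZero N'),
      (∀ x ∈ G', ∃ x₁ : ↥V, ((β' • x₁ : ↥V) : JZero N') = x) →
      (2 ∈ P → LocSt 2 (eps 2) G') ∧ (Ram (rbarB b) 2 ∨ 2 ∈ P → LocUnip 2 G') ∧
      (¬ Ram (rbarB b) 2 → 2 ∉ P → LocUr 2 G') := by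
    intro β' hβ G' hG'
    have hsub := subset_image_range (rE := rEB B) (πE := πE) (ρ := ρ) (Φ := Φ) hG'
    refine ⟨fun h => ?_, fun h => ?_, fun h h' => ?_⟩
    · rw [← hε2 h]
      exact ((hpk.out_st h β' hβ).image (ofVJ V (rEB B) πE ρ Φ) (ofVJ_gal H)).mono hsub
    · exact ((hpk.out_unip h β' hβ).image (ofVJ V (rEB B) πE ρ Φ) (ofVJ_gal H)).mono hsub
    · exact ((hpk.out_ur h h' β' hβ).image (ofVJ V (rEB B) πE ρ Φ) (ofVJ_gal H)).mono hsub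
  -- the hypotheses IN on `Y × 0`
  have hin : ∀ (Y : Submodule R ↥V),
      (∀ (g : GQ), ∀ y ∈ Y, ∀ y' : ↥V, (y' : JZero N') = g • (y : JZero N') → y' ∈ Y) →
      ∀ (YS : Set (JZero N')), (∀ y ∈ Y, ((y : ↥V) : JZero N') ∈ YS) →
      (¬ Ram (rbarB b) 2 → 2 ∉ P → LocUr 2 YS) → (Ram (rbarB b) 2 ∨ 2 ∈ P → LocUnip 2 YS) →
      (2 ∈ P → LocSt 2 (eps 2) YS) →
      (∀ g : GQ, ∀ x ∈ subVJ (rEB B) πE ρ Φ Y, g • x ∈ subVJ (rEB B) πE ρ Φ Y) ∧
      (¬ Ram (rbarB b) 2 → 2 ∉ P →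
        LocUr 2 (subVJ (rEB B) πE ρ Φ Y : Set (VJ V (rEB B) πE ρ Φ))) ∧
      (Ram (rbarB b) 2 ∨ 2 ∈ P →
        LocUnip 2 (subVJ (rEB B) πE ρ Φ Y : Set (VJ V (rEB B) πE ρ Φ))) ∧
      (2 ∈ P → LocSt 2 ε (subVJ (rEB B) πE ρ Φ Y : Set (VJ V (rEB B) πE ρ Φ))) := by
    intro Y hYG YS hYS hur hun hst
    refine ⟨fun g x hx => smul_mem_subVJ H hYG g x hx, fun h h' => locUr_subVJ H Y hYG hYS (hur h h'),
      fun h => locUnip_sub H Y hYS (hun h), fun h => ?_⟩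
    rw [hε2 h]
    exact locSt_subVJ H Y hYG hYS (hst h)
  have hk01 : k2 = 0 ∨ k2 = 1 := by have := hpk.k2_le; omega
  rcases hk01 with rfl | rfl
  · -- no variable
    refine ⟨0, 0, β2, map_zero _, hout, fun Y hYG YS hYS hur hun hst => Or.inl ⟨fun h2 => ?_, ?_⟩⟩
    · exact absurd (hk.2 ⟨(hPP h2).1, Or.inl h2⟩) (by norm_num)
    · obtain ⟨h1, h2, h3, h4⟩ := hin Y hYG YS hYS hur hun hst
      intro x hx
      exact smul_eq_of_inl (hpk.val _ h1 h2 h3 h4 (inlVJ (rEB B) πE ρ Φ x) (inlVJ_mem hx)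
        fun j => j.elim0)
  · -- one variable
    refine ⟨u 0, dl 0, β2, hpk.pi0_u 0, hout, fun Y hYG YS hYS hur hun hst => Or.inr ?_⟩
    obtain ⟨h1, h2, h3, h4⟩ := hin Y hYG YS hYS hur hun hst
    rcases hpk.gen _ h1 h2 h3 h4 with ⟨h0, -⟩ | ⟨-, hw, hs⟩
    · exact absurd h0 (by norm_num)
    · refine ⟨hw, fun I hI => ?_, fun x hx hx0 => ?_⟩
      · have := hs I (fun j => by rw [Subsingleton.elim j 0]; exact hI)
        rwa [annihilator_subVJ] at this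
      · exact smul_eq_of_inl (hpk.val _ h1 h2 h3 h4 (inlVJ (rEB B) πE ρ Φ x) (inlVJ_mem hx)
          fun j => by rw [Subsingleton.elim j 0]; exact smul_inl_eq_zero hx0)

end Fermat.Agent.ML.Lift
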