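import Fermat.Agent.ML.Lift.Inst.Num
import Fermat.Agent.ML.At2.N2.Num
import Fermat.Agent.ML.TWFree.Inst.InBox
import Fermat.Agent.ML.Low.Blocks

/-!
# ML / LIFT / Inst / NumK : **(NUM)** the numerics of the raising step at `q`, at the level of the cells

* `cogen_cellK`, `box_cellK` : `hcogen'`, `hsize'` of `raise_step_abs` for `U' = cellK` from the two cubes (no rigidity, all `t`);
* `cogen_cellU_T` : `hcogen` with an exponent which does not depend on the Taylor-Wiles primes;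
* `step_num` : ONE choice of `(A, τ)` for the two levels `L`, `L' = L q`, with the cyclicity at the top of the two towers, the two cubes and the
  three numerical hypotheses of `raise_step_abs`.
-/

set_option autoImplicit false
set_option linter.unusedSectionVars false

noncomputable section

open AlgebraicCurve ModularCurve

namespace Fermat.Agent.ML.Lift

open Fermat.Agent.RIB Fermat.Agent.GAL Fermat.Agent.GAL.PC Fermat.Agent.ML Fermat.Agent.ML.TWFree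

local notation "Qbar" => AlgebraicClosure ℚ
local notation "GQ" => (AlgebraicClosure ℚ ≃ₐ[ℚ] AlgebraicClosure ℚ)
local notation "M₂" => Matrix (Fin 2) (Fin 2)

variable {p : ℕ} [Fact p.Prime] {T : Finset ℕ} {θ : ℕ → ℤ} {rbar0 : GQ →* M₂ (ZMod p)}
  {L L' q t n : ℕ} [NeZero L] [NeZero L'] [NeZero q] {qv : Fin t → Nat.Primes} {τ : Fin t → GQ}

/-- **COGEN + BOX** for `U' = cellK` (`hcogen'`, `hsize'` of `raise_step_abs`); ANY prime `q ∤ L`, no rigidity, all `t`. -/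
theorem num_cellK (EC : MCtx p T θ rbar0) (TC : MTW0 p T θ L' t n qv) (hq : q.Prime)
    (hL : L' = L * q) (hqL : ¬ q ∣ L)
    {A : Fin t → ValuationSubring Qbar} (hA : ∀ i, (A i).LiesOverPrime ((qv i : Nat.Primes) : ℕ))
    (hτ : ∀ i, τ i ∈ (A i).inertiaSubgroupIn ℚ)
    (C' : IsCube p (↑(cutS T qv) : Set ℕ) θ L' qv τ)
    (C : IsCube p (↑(cutS T qv) : Set ℕ) θ L qv τ) :
    ∃ D : ℕ, ∀ a : ℕ, 1 ≤ a →
      Nat.card ↥(boxG p 1 τ (cellK p (↑(cutS T qv) : Set ℕ) θ qv a (lvl_mul_q hL qv))) ≤ p ^ D ∧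
      (2 * a ≤ n + 1 → p ^ (D * a ^ (t + 1)) ≤
        Nat.card ↥(boxG p a τ (cellK p (↑(cutS T qv) : Set ℕ) θ qv a (lvl_mul_q hL qv)))) := by
  obtain ⟨e, -, h1, h2⟩ := At2.twfreeK_of EC TC hq hL hqL hA hτ C' C
  refine ⟨2 ^ t * e, fun a ha => ⟨?_, fun h2a => ?_⟩⟩
  · rw [card_boxG_cellK hL ha τ]
    refine le_trans (le_of_eq (Nat.card_congr (Equiv.subtypeEquivRight fun x => ?_))) h1
    simp only [pow_one, Function.iterate_one]
  · rw [card_boxG_cellK hL le_rfl τ]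
    exact h2 a ha h2a

/-- **COGEN** for `U = cellU`, with an exponent independent of `qv`. -/
theorem cogen_cellU_T (EC : MCtx p T θ rbar0) (TC : MTW p T θ L t n qv)
    {A : Fin t → ValuationSubring Qbar} (hA : ∀ i, (A i).LiesOverPrime ((qv i : Nat.Primes) : ℕ))
    (hτ : ∀ i, τ i ∈ (A i).inertiaSubgroupIn ℚ)
    (hC : IsCube p (↑(cutS T qv) : Set ℕ) θ L qv τ) {a : ℕ} (ha : 1 ≤ a) :
    Nat.card ↥(boxG p 1 τ (cellU p (↑(cutS T qv) : Set ℕ) θ (lvl L (extP qv) t) qv a)) ≤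
      p ^ (2 ^ t * Module.finrank (ZMod p) ↥(WS L p (↑T : Set ℕ) θ)) := by
  have h := cogen_cellU EC TC hA hτ hC ha
  have e1 : Nat.card ↥(WS L p (↑(cutS T qv) : Set ℕ) θ) = Nat.card ↥(WS L p (↑T : Set ℕ) θ) := by
    rw [EC.WS_eq (subset_cutS T qv) TC.lev]
  have c1 : ∀ S : Set ℕ, Nat.card ↥(WS L p S θ) =
      p ^ Module.finrank (ZMod p) ↥(WS L p S θ) := fun S => by
    rw [Module.natCard_eq_pow_finrank (K := ZMod p), Nat.card_zmod]
  rw [c1, c1] at e1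
  have e2 : Module.finrank (ZMod p) ↥(WS L p (↑(cutS T qv) : Set ℕ) θ) =
      Module.finrank (ZMod p) ↥(WS L p (↑T : Set ℕ) θ) :=
    Nat.pow_right_injective (Fact.out : p.Prime).two_le e1
  rwa [e2] at h

/-- **(NUM)** -/
theorem step_num (EC : MCtx p T θ rbar0) (TC : MTW p T θ L' t n qv) (h4 : 4 ∣ L) (hq : q.Prime)
    (hL : L' = L * q) (hqL : ¬ q ∣ L) :
    ∃ (A : Fin t → ValuationSubring Qbar) (τ : Fin t → GQ) (D : ℕ),
      (∀ i, (A i).LiesOverPrime ((qv i : Nat.Primes) : ℕ)) ∧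
      (∀ i, τ i ∈ (A i).inertiaSubgroupIn ℚ) ∧
      (∀ i : Fin t, CycOn p (↑(cutS T qv) : Set ℕ) θ ((A i).inertiaSubgroupIn ℚ) (τ i)
          (p ^ (nuP p qv i + 1)) (lvl L' (extP qv) t)) ∧
      IsCube p (↑(cutS T qv) : Set ℕ) θ L' qv τ ∧ IsCube p (↑(cutS T qv) : Set ℕ) θ L qv τ ∧
      ∀ a : ℕ, 1 ≤ a →
        Nat.card ↥(boxG p 1 τ (cellU p (↑(cutS T qv) : Set ℕ) θ (lvl L (extP qv) t) qv a)) ≤
          p ^ (2 ^ t * Module.finrank (ZMod p) ↥(WS L p (↑T : Set ℕ) θ)) ∧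
        Nat.card ↥(boxG p 1 τ (cellK p (↑(cutS T qv) : Set ℕ) θ qv a (lvl_mul_q hL qv))) ≤ p ^ D ∧
        (2 * a ≤ n + 1 → p ^ (D * a ^ (t + 1)) ≤
          Nat.card ↥(boxG p a τ (cellK p (↑(cutS T qv) : Set ℕ) θ qv a (lvl_mul_q hL qv)))) := by
  obtain ⟨A, τ, hA, hτ, hcyc, hcycT, C'⟩ := exists_isCube_cyc EC TC
  have C : IsCube p (↑(cutS T qv) : Set ℕ) θ L qv τ :=
    isCube_of_tau_q EC TC h4 hq hL hqL A τ hA hτ fun i Q => (hcyc i Q).fixed
  obtain ⟨D, hD⟩ := num_cellK EC TC.toMTW0 hq hL hqL hA hτ C' C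
  have TCL : MTW p T θ L t n qv := TC.of_dvd (hL ▸ Dvd.intro _ rfl) h4
  exact ⟨A, τ, D, hA, hτ, hcycT, C', C, fun a ha =>
    ⟨cogen_cellU_T EC TCL hA hτ C ha, (hD a ha).1, (hD a ha).2⟩⟩

end Fermat.Agent.ML.Lift
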