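import Fermat.Agent.ML.Lift.Inst.NumK
import Fermat.Agent.ML.Lift.Soft.Spec
import Fermat.Agent.ML.AtP.StepP.Num

/-!
# ML / LIFT / Inst / NumStmt : the contract **(NUM)** `StepNumStmt` of `ML/Lift/Soft/Spec.lean`, from `step_num`
-/

set_option autoImplicit false
set_option linter.unusedSectionVars false

noncomputable section

open AlgebraicCurve ModularCurve

namespace Fermat.Agent.ML.Lift

open Fermat.Agent.RIB Fermat.Agent.GAL Fermat.Agent.GAL.PC Fermat.Agent.ML Fermat.Agent.ML.TWFree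
  Fermat.Agent.ML.ESide

local notation "GQ" => (AlgebraicClosure ℚ ≃ₐ[ℚ] AlgebraicClosure ℚ)

section Eq

variable {p : ℕ} {S : Set ℕ} {θ : ℕ → ℤ} {t : ℕ} {qv : Fin t → Nat.Primes}
  {N Nq q : ℕ} [NeZero N] [NeZero Nq] [NeZero q]

theorem thTors_eq_cellV (k : ℕ) : thTors p S θ N k = cellV p S θ N k := rfl

theorem Ulow_eq_cellU (a : ℕ) : Ulow p S θ qv N a = cellU p S θ N qv a := by
  ext x
  rw [mem_Ulow, mem_cellU]

theorem Uup_eq_cellK (h : Nq = N * q) (a : ℕ) : Uup p S θ qv h a = cellK p S θ qv a h := by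
  ext x
  rw [mem_Uup, mem_cellK, mem_cellU]
  tauto

end Eq

/-- **(NUM)** -/
theorem stepNumStmt_main : StepNumStmt := by
  intro W p _ T b L₀ _ eps eP X t P q hP hq hqP hq2 hqp hpP
  haveI : NeZero (cellLevel L₀ P) := ⟨X.cellLevel_ne_zero hP⟩
  refine ⟨2 ^ t * Module.finrank (ZMod p) ↥(WS (cellLevel L₀ P) p (↑T : Set ℕ) W.apOfModel), ?_⟩
  intro a m n K qv hF ha Lc Lc' _ _ _ hLc hL
  subst hLc
  have hP' : insert q P ⊆ Pfin W (rbarB b) L₀ := Finset.insert_subset hq hP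
  have hLc' : Lc' = cellLevel L₀ (insert q P) := by rw [hL, cellLevel_insert L₀ hq2 hqP]
  have TC : MTW p T W.apOfModel Lc' t n qv := X.mtw_cell_frm hF hP' hLc'
  have TCL : MTW p T W.apOfModel (cellLevel L₀ P) t n qv := X.mtw_cell_frm hF hP rfl
  obtain ⟨A, τ, D, hA, hτ, hcyc, -, -, hnum⟩ := step_num X.C TC TCL.rigid
    (X.prime_of_mem_Pfin hq) hL (X.not_dvd_cellLevel hP hq hq2 hqP)
  have han : a ≤ n := by have := hF.hn; omega
  obtain ⟨h1, h2, h3⟩ := hnum a ha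
  refine ⟨A, τ, D, hA, hτ,
    fun i => (hcyc i).mono (pow_dvd_pow p (le_nuP_succ_of_le TC han i)), ?_, ?_, ?_⟩
  · rw [Ulow_eq_cellU]; exact h1
  · rw [Uup_eq_cellK]; exact h2
  · rw [Uup_eq_cellK]; exact h3 (by have := hF.hn; omega)

end Fermat.Agent.ML.Lift
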