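import Fermat.Agent.ML.Lift.Soft.Asm
import Fermat.Agent.ML.Lift.Inst.MidAbs
import Fermat.Agent.ML.Lift.Inst.MidTwo
import Fermat.Agent.ML.Raise.SoftTop
import Fermat.Agent.ML.Lift.Base.Loc
import Fermat.Agent.ML.Lift.Soft.MidLoc

/-!
# ML / Lift / Inst / SoftMid : the contract **(MID)** `SoftMidStmt` of `ML/Lift/Soft/Spec.lean`

`softMid_of : MidTwoStmt → SoftMidStmt`, where `MidTwoStmt` is the contract at the prime `2` (= the package [CELL-2]).
-/

set_option autoImplicit false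
set_option linter.unusedSectionVars false

noncomputable section

open AlgebraicCurve ModularCurve

namespace Fermat.Agent.ML.Lift

open Fermat.Agent.RIB Fermat.Agent.GAL Fermat.Agent.GAL.PC Fermat.Agent.ML Fermat.Agent.ML.Rho
  Fermat.Agent.ML.TWFree Fermat.Agent.ML.ESide Fermat.Agent.S56 Fermat.Agent.S56.Gen ExtCitation
  Fermat.Agent.ML.Raise
open CFT (decomp)

local notation "Qbar" => AlgebraicClosure ℚ
local notation "M₂" => Matrix (Fin 2) (Fin 2)

namespace SoftMid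

/-- `N ≠ 0 ⟹ v_p(N) ≤ |N|`. -/
theorem not_pow_natAbs_dvd {p : ℕ} (hp : p.Prime) {N : ℤ} (hN : N ≠ 0) :
    ¬ (p : ℤ) ^ (N.natAbs + 1) ∣ N := by
  intro h
  have h1 : p ^ (N.natAbs + 1) ∣ N.natAbs := by
    have := Int.natAbs_dvd_natAbs.2 h
    rwa [Int.natAbs_pow, Int.natAbs_natCast] at this
  have h2 := Nat.le_of_dvd (Int.natAbs_pos.2 hN) h1
  have h3 : N.natAbs + 1 < p ^ (N.natAbs + 1) := Nat.lt_pow_self hp.one_lt
  omega

theorem not_pow_dvd_mono {p : ℕ} {N : ℤ} {f f' : ℕ} (h : ¬ (p : ℤ) ^ (f + 1) ∣ N) (hf : f ≤ f') :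
    ¬ (p : ℤ) ^ (f' + 1) ∣ N := fun h1 => h ((pow_dvd_pow _ (by omega)).trans h1)

section Pkg

variable {L m : ℕ} [NeZero L] [NeZero m] {R : Type} [CommRing R] [Algebra (ZMod m) R]
  {X : AddSubgroup (JZero L)} [Module R ↥X] {rE : GQ →* M₂ (ZMod m)}
  {πE : R →ₐ[ZMod m] ZMod m} {ρ : GQ →* M₂ R} {Φ : M₂ R →ₐ[R] Module.End R ↥X}
  {p : ℕ} [Fact p.Prime] {π0 : R →+* ZMod p} {v : Nat.Primes} {ε : ℤ} {φ : GQ} {bv : R}

/-- the package of a soft prime raised at an earlier stage. -/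
theorem pkg_old (S : SoftAt ρ (PhiJ X rE πE ρ Φ) π0 v ε φ bv)
    (H : Fermat.Agent.ML.Rho.IsRhoK L m X rE πE ρ Φ) (Y : Submodule R ↥X)
    (hYG : ∀ (g : GQ), ∀ y ∈ Y, ∀ y' : ↥X, (y' : JZero L) = g • (y : JZero L) → y' ∈ Y)
    {YS : Set (JZero L)} (hYS : ∀ y ∈ Y, (y : JZero L) ∈ YS) (hst : LocSt (v : ℕ) ε YS) {f : ℕ}
    (hf : ¬ (p : ℤ) ^ (f + 1) ∣ (p : ℤ)) :
    LocPkg p π0 ρ Y v bv 1 bv (p : ℤ) f where
  pi0_u := S.pi0_b
  strict := S.strict_raised_sub H Y hYG hYS hst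
  val := fun x _ hx => by
    rw [mul_one, sub_smul, sub_eq_zero] at hx
    rw [hx, Nat.cast_smul_eq_nsmul, natCast_zsmul]
  hN := hf

/-- the package of the soft prime which is raised now. -/
theorem pkg_new (S : SoftAt ρ (PhiJ X rE πE ρ Φ) π0 v ε φ bv)
    (H : Fermat.Agent.ML.Rho.IsRhoK L m X rE πE ρ Φ) (Y : Submodule R ↥X)
    (hYG : ∀ (g : GQ), ∀ y ∈ Y, ∀ y' : ↥X, (y' : JZero L) = g • (y : JZero L) → y' ∈ Y)
    {YS : Set (JZero L)} (hYS : ∀ y ∈ Y, (y : JZero L) ∈ YS) (hur : LocUr (v : ℕ) YS) {f : ℕ}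
    (hf : ¬ (p : ℤ) ^ (f + 1) ∣ 2 * ε * (((v : ℕ) : ℤ) + 1)) :
    LocPkg p π0 ρ Y v ((ρ φ).trace - (ε : R) * (((v : ℕ) : R) + 1)) 0
      ((ρ φ).trace + (ε : R) * (((v : ℕ) : R) + 1)) (2 * ε * (((v : ℕ) : ℤ) + 1)) f where
  pi0_u := S.pi0_c
  strict := S.strict_unraised_sub H Y hYG hYS hur
  val := fun x _ hx => by
    rw [mul_zero, sub_zero] at hx
    have e : (ρ φ).trace + (ε : R) * (((v : ℕ) : R) + 1) =
        ((ρ φ).trace - (ε : R) * (((v : ℕ) : R) + 1)) +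
          ((2 * ε * (((v : ℕ) : ℤ) + 1) : ℤ) : R) := by
      push_cast
      ring
    rw [e, add_smul, hx, zero_add, Int.cast_smul_eq_zsmul]
  hN := hf

end Pkg

end SoftMid

set_option maxHeartbeats 4000000 in
open SoftMid in
/-- **(MID)** from the contract at `2`. -/
theorem softMid_of (h2 : MidTwoStmt) : SoftMidStmt := by
  classical
  intro W p _ T b L₀ _ eps eP X t P q hP hq hqP hq2 hqp hns hpP h2P hPns
  have hp : p.Prime := Fact.out
  have hp2 : (2 : ℕ) ≠ p := fun e => X.C.hp2 e.symm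
  have hqpr : q.Prime := X.prime_of_mem_Pfin hq
  obtain ⟨N2, hN2, h2⟩ := h2 W p T b L₀ eps eP X P hP
  have hfr : ∀ v : Nat.Primes, ∃ φ : GQ, (primeLocalPlace v).IsFrobeniusAt φ (v : ℕ) := fun v =>
    S54.exists_isFrobeniusAt_of_liesOverPrime v.2 _ (liesOverPrime_primeLocalPlace v)
  choose φ hφ using hfr
  have hP' : insert q P ⊆ Pfin W (rbarB b) L₀ := Finset.insert_subset hq hP
  have hne : ∀ r ∈ insert q P, r ≠ p := by
    intro r hr e
    rcases Finset.mem_insert.1 hr with h | h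
    · exact hqp (h ▸ e)
    · exact hpP (e ▸ h)
  have hεε : ∀ r ∈ insert q P, eps r * eps r = 1 := fun r hr => by
    rcases (X.sgn r (X.prime_of_mem_Pfin (hP' hr)) (hne r hr) (X.dvd_of_mem_Pfin (hP' hr))).1
      with h | h <;> rw [h] <;> norm_num
  -- the soft primes
  set Rs0 : Finset Nat.Primes :=
    (toP T).filter fun v => (v : ℕ) ∈ insert q P ∧ (v : ℕ) ≠ 2 with hRs0
  have hmem0 : ∀ v ∈ Rs0, (v : ℕ) ∈ insert q P ∧ (v : ℕ) ≠ 2 := fun v hv =>
    (Finset.mem_filter.1 hv).2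
  set NN : Nat.Primes → ℤ := fun v =>
    if v = twoP then N2 else if (v : ℕ) = q then 2 * eps (v : ℕ) * (((v : ℕ) : ℤ) + 1) else (p : ℤ)
    with hNNdef
  have hNN0 : ∀ v, NN v ≠ 0 := by
    intro v
    rw [hNNdef]
    by_cases h1 : v = twoP
    · simp only [if_pos h1]
      exact hN2
    · by_cases h3 : (v : ℕ) = q
      · simp only [if_neg h1, if_pos h3]
        have h4 : eps (v : ℕ) ≠ 0 := fun h0 => by
          have := hεε (v : ℕ) (h3 ▸ Finset.mem_insert_self q P)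
          rw [h0] at this
          norm_num at this
        have h5 : (((v : ℕ) : ℤ) + 1) ≠ 0 := by positivity
        exact mul_ne_zero (mul_ne_zero two_ne_zero h4) h5
      · simp only [if_neg h1, if_neg h3]
        exact_mod_cast hp.ne_zero
  set ff : Nat.Primes → ℕ := fun v => (NN v).natAbs with hffdef
  have hNN : ∀ v, ¬ (p : ℤ) ^ (ff v + 1) ∣ NN v := fun v => not_pow_natAbs_dvd hp (hNN0 v)
  refine ⟨N2.natAbs + ∑ v ∈ insert twoP Rs0, ff v, ?_⟩
  intro a m n K qv hF ha1 Lc Lc' _ _ _ hLc hL G hG hG0 B C hEK R _ _ _ _ _ πE ρ Φ H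
  have hLc' : Lc' = cellLevel L₀ (insert q P) := by rw [hL, hLc, cellLevel_insert L₀ hqP hq2]
  have hTW : MTW p T W.apOfModel Lc t n qv :=
    hF.tw Lc (fun r hr hd => mem_T_of_dvd_cellLevel X hP hr (hLc ▸ hd))
      (hLc ▸ four_dvd_cellLevel X P)
  have hTW' : MTW p T W.apOfModel Lc' t n qv :=
    hF.tw Lc' (fun r hr hd => mem_T_of_dvd_cellLevel X hP' hr (hLc' ▸ hd))
      (hLc' ▸ four_dvd_cellLevel X _)
  have hqT : q ∈ T := X.hbadT q hqpr (X.dvd_of_mem_Pfin hq)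
  have h2T : 2 ∈ T := X.BP.levT 2 Nat.prime_two (X.two_dvd.mul_right p)
  have hqN : ¬ q ∣ lvl Lc (extP qv) t :=
    not_dvd_lvl hTW hqpr hqT (hLc ▸ not_dvd_cellLevel X hP hq hqP hq2)
  have hS : ∀ r : ℕ, r.Prime → r ∣ lvl Lc' (extP qv) t * p → r ∈ cutS T qv :=
    fun r hr hd => mem_cutS_lvl hTW' hr hd
  have hS' : ∀ r : ℕ, r.Prime → r ∉ (↑(cutS T qv) : Set ℕ) → ¬ r ∣ lvl Lc' (extP qv) t * p :=
    fun r hr hrS hd => hrS (hS r hr hd)
  have haK : a ≤ K + 1 := hF.hK.trans (Nat.le_succ K)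
  have huA : ∀ (g : GQ) v, upE (lvl_mul_q hL qv) 0 (g • v) = g • upE (lvl_mul_q hL qv) 0 v :=
    fun g v => upE_smul (lvl_mul_q hL qv) 0 g v
  have hAV : ∀ v ∈ G, upE (lvl_mul_q hL qv) 0 v ∈
      thTors p (↑(cutS T qv) : Set ℕ) W.apOfModel (lvl Lc' (extP qv) t) (K + 1) := fun v hv =>
    upE_mem_thTors (qv := qv) (lvl_mul_q hL qv) hS' haK 0 v
      ⟨hG.le hv, (hG.box v hv).1, hG.new v hv⟩
  have hinj : ∀ v ∈ G, upE (lvl_mul_q hL qv) 0 v = 0 → v = 0 := fun v hv h0 =>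
    upE_injOn hp hqpr hqN (X.C.nonEis (cutS T qv)) (subset_cutS T qv hqT) (lvl_mul_q hL qv) 0
      (hG.le hv) h0
  obtain ⟨Y, hYm⟩ : ∃ Y : Submodule R ↥(thTors p (↑(cutS T qv) : Set ℕ) W.apOfModel
      (lvl Lc' (extP qv) t) (K + 1)), ∀ x, x ∈ Y ↔ ∃ v ∈ G, upE (lvl_mul_q hL qv) 0 v =
        (x : JZero (lvl Lc' (extP qv) t)) :=
    ⟨(IsRhoK.traceRing H).mapSub G hG.gal (upE (lvl_mul_q hL qv) 0) huA hAV, fun _ => Iff.rfl⟩
  have hYG : ∀ (g : GQ), ∀ y ∈ Y, ∀ y' : ↥(thTors p (↑(cutS T qv) : Set ℕ) W.apOfModel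
      (lvl Lc' (extP qv) t) (K + 1)), (y' : JZero (lvl Lc' (extP qv) t)) =
        g • (y : JZero (lvl Lc' (extP qv) t)) → y' ∈ Y := by
    intro g y hy y' hy'
    obtain ⟨v, hv, e⟩ := (hYm y).1 hy
    exact (hYm y').2 ⟨g • v, hG.gal g v hv, by rw [huA, e, hy']⟩
  have hY0 : Y ≠ ⊥ := by
    intro h0
    refine hG0 ((AddSubgroup.eq_bot_iff_forall _).2 fun v hv => hinj v hv ?_)
    have h1 : (⟨_, hAV v hv⟩ : ↥(thTors p (↑(cutS T qv) : Set ℕ) W.apOfModel
      (lvl Lc' (extP qv) t) (K + 1))) ∈ Y := (hYm _).2 ⟨v, hv, rfl⟩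
    rw [h0, Submodule.mem_bot] at h1
    exact congrArg Subtype.val h1
  have hYS : ∀ y ∈ Y, ∃ v ∈ G, upE (lvl_mul_q hL qv) 0 v = ((y : ↥(thTors p (↑(cutS T qv) : Set ℕ)
      W.apOfModel (lvl Lc' (extP qv) t) (K + 1))) : JZero (lvl Lc' (extP qv) t)) := fun y hy => (hYm y).1 hy
  have hYS' : ∀ y ∈ Y, ((y : ↥(thTors p (↑(cutS T qv) : Set ℕ)
      W.apOfModel (lvl Lc' (extP qv) t) (K + 1))) : JZero (lvl Lc' (extP qv) t)) ∈
      upE (lvl_mul_q hL qv) 0 '' (G : Set (JZero (lvl Lc (extP qv) t))) := fun y hy => (hYm y).1 hy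
  have hann : annG (thTors p (↑(cutS T qv) : Set ℕ) W.apOfModel (lvl Lc' (extP qv) t) (K + 1)) R
      (G.map (upE (lvl_mul_q hL qv) 0)) = Y.annihilator := by
    ext s
    rw [mem_annG, Submodule.mem_annihilator]
    exact ⟨fun h x hx => h x ((hYm x).1 hx), fun h x hx => h x ((hYm x).2 hx)⟩
  -- the local conditions on `uA G`
  have hstP : ∀ r ∈ P, LocSt r (eps r)
      (upE (lvl_mul_q hL qv) 0 '' (G : Set (JZero (lvl Lc (extP qv) t)))) := fun r hr =>
    (hG.st r hr (hne r (Finset.mem_insert_of_mem hr))).1.image _ huA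
  have hurq : LocUr q (upE (lvl_mul_q hL qv) 0 '' (G : Set (JZero (lvl Lc (extP qv) t)))) :=
    (hG.ur q hqpr hqT hqP hqp (X.not_ram_of_mem_Pfin hq hqp)).image _ huA
  -- the level
  have hnotT : ∀ i, ((qv i : Nat.Primes) : ℕ) ∉ T := hTW.notT
  have hsq : ∀ r : ℕ, r.Prime → r ∈ T → r ≠ 2 → ¬ r ^ 2 ∣ lvl Lc' (extP qv) t := by
    intro r hr hrT hr2
    obtain ⟨M', hM', -, hsq⟩ := X.cellLevel_shape hP'
    refine not_sq_dvd_lvl_of hr (fun j hj => hnotT j (hj ▸ hrT)) ?_ t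
    rw [hLc', hM']
    exact not_sq_dvd_of_shape hsq r hr hr2
  -- the records at the soft primes
  have hsoft : ∀ v : Nat.Primes, ∃ bv : R, v ∈ Rs0 →
      SoftAt ρ (PhiJ _ (rEB B) πE ρ Φ) (pi0 πE) v (eps (v : ℕ)) (φ v) bv := by
    intro v
    by_cases hv : v ∈ Rs0
    · obtain ⟨h1, h2'⟩ := hmem0 v hv
      have hnsv : FrobNonScalar (rbarB b) (v : ℕ) := by
        rcases Finset.mem_insert.1 h1 with h | h
        · rw [h]; exact hns
        · exact hPns _ h h2'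
      obtain ⟨bv, hb⟩ := exists_softAt_top X.C C H v (hne _ h1)
        (hsq _ v.2 (mem_toP'.1 (Finset.mem_filter.1 hv).1) h2')
        (X.not_ram_of_mem_Pfin (hP' h1) (hne _ h1)) (hεε _ h1)
        (FinGen.locSt_EM B X.sgn v.2 (hne _ h1) (X.dvd_of_mem_Pfin (hP' h1))) (hφ v)
        (hnsv _ (liesOverPrime_primeLocalPlace v) _ (hφ v))
      exact ⟨bv, fun _ => hb⟩
    · exact ⟨0, fun h => absurd h hv⟩
  choose bb hbb using hsoft
  -- the prime `2`
  obtain ⟨u2, dl2, β2, hu2, hout2, hin2⟩ := h2 K _ _ B C R πE ρ Φ H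
  have hin2 := hin2 Y hYG _ hYS'
    (fun hram h2P' => (hG.ur 2 Nat.prime_two h2T h2P' hp2 hram).image _ huA)
    (fun h => by
      rcases h with h | h
      · exact (hG.unip 2 Nat.prime_two hp2 h).image _ huA
      · exact (hG.st 2 h hp2).2.image _ huA)
    (fun h => hstP 2 h)
  -- the packages
  set uu : Nat.Primes → R := fun v => if v = twoP then u2 else if (v : ℕ) = q then
    (ρ (φ v)).trace - ((eps (v : ℕ) : ℤ) : R) * (((v : ℕ) : R) + 1) else bb v with huu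
  set dd : Nat.Primes → R := fun v => if v = twoP then dl2 else if (v : ℕ) = q then 0 else 1
    with hdd
  set be : Nat.Primes → R := fun v => if v = twoP then β2 else if (v : ℕ) = q then
    (ρ (φ v)).trace + ((eps (v : ℕ) : ℤ) : R) * (((v : ℕ) : R) + 1) else bb v with hbe
  have hne2 : ∀ v ∈ Rs0, v ≠ twoP := fun v hv e => (hmem0 v hv).2 (congrArg Subtype.val e)
  have pkg0 : ∀ v ∈ Rs0, LocPkg p (pi0 πE) ρ Y v (uu v) (dd v) (be v) (NN v) (ff v) := by
    intro v hv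
    have h1 := hne2 v hv
    by_cases hvq : (v : ℕ) = q
    · have e1 : uu v = (ρ (φ v)).trace - ((eps (v : ℕ) : ℤ) : R) * (((v : ℕ) : R) + 1) := by
        rw [huu]; simp only [if_neg h1, if_pos hvq]
      have e2 : dd v = 0 := by rw [hdd]; simp only [if_neg h1, if_pos hvq]
      have e3 : be v = (ρ (φ v)).trace + ((eps (v : ℕ) : ℤ) : R) * (((v : ℕ) : R) + 1) := by
        rw [hbe]; simp only [if_neg h1, if_pos hvq]
      have e4 : NN v = 2 * eps (v : ℕ) * (((v : ℕ) : ℤ) + 1) := by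
        rw [hNNdef]; simp only [if_neg h1, if_pos hvq]
      rw [e1, e2, e3]
      have h3 := hNN v
      rw [e4] at h3 ⊢
      exact pkg_new (hbb v hv) H Y hYG hYS' (hvq ▸ hurq) h3
    · have e1 : uu v = bb v := by rw [huu]; simp only [if_neg h1, if_neg hvq]
      have e2 : dd v = 1 := by rw [hdd]; simp only [if_neg h1, if_neg hvq]
      have e3 : be v = bb v := by rw [hbe]; simp only [if_neg h1, if_neg hvq]
      have e4 : NN v = (p : ℤ) := by rw [hNNdef]; simp only [if_neg h1, if_neg hvq]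
      rw [e1, e2, e3]
      have h3 := hNN v
      rw [e4] at h3 ⊢
      have hvP : (v : ℕ) ∈ P := (Finset.mem_insert.1 (hmem0 v hv).1).resolve_left hvq
      exact pkg_old (hbb v hv) H Y hYG hYS' (hstP _ hvP) h3
  have hw0 : ∀ v ∈ Rs0, Nat.card ↥(B1loc (adRep (mapK (kM p) (rbarB b))) v) *
      Nat.card (kM p) ^ 1 ≤ Nat.card (kM p) ^ 3 := by
    intro v hv
    obtain ⟨h1, h2'⟩ := hmem0 v hv
    have hnsv : FrobNonScalar (rbarB b) (v : ℕ) := by
      rcases Finset.mem_insert.1 h1 with h | h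
      · rw [h]; exact hns
      · exact hPns _ h h2'
    exact X.C.weight_one v (fun σ hσ => unram_of_not_ram
      (X.not_ram_of_mem_Pfin (hP' h1) (hne _ h1)) _ (liesOverPrime_primeLocalPlace v) σ hσ) (hφ v)
      (hnsv _ (liesOverPrime_primeLocalPlace v) _ (hφ v))
  have hRs0T : Rs0 ⊆ toP T := Finset.filter_subset _ _
  have hpR0 : pPrime p ∉ Rs0 := fun h => hne _ (hmem0 _ h).1 rfl
  have hlev : ∀ r : Nat.Primes, r ∉ toP T ∪ Finset.univ.image qv →
      ¬ (r : ℕ) ∣ lvl Lc' (extP qv) t * p := by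
    intro r hr hd
    apply hr
    rcases Finset.mem_union.1 (hS r r.2 hd) with h | h
    · exact Finset.mem_union_left _ (mem_toP'.2 h)
    · obtain ⟨i, -, hi⟩ := Finset.mem_image.1 h
      exact Finset.mem_union_right _ (Finset.mem_image.2 ⟨i, Finset.mem_univ i, Subtype.ext hi⟩)
  have hpalt : ¬ p ∣ lvl Lc (extP qv) t ∨ (p ∣ Lc ∧ (p : ℤ) ∣ W.Δ) := by
    by_cases hpL : p ∣ Lc
    · refine Or.inr ⟨hpL, ?_⟩
      have h1 : p ∣ L₀ := by
        rcases X.dvd_cellLevel hP hp (hLc ▸ hpL) with h | ⟨h, -⟩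
        · exact h
        · exact absurd h hpP
      by_contra h3
      exact X.BP.goodp h3 h1
    · exact Or.inl (not_dvd_lvl hTW hp X.C.p_mem hpL)
  have hgh : ∀ Rs : Finset Nat.Primes,
      (∀ v ∈ toP T, v ∉ Rs → v ≠ pPrime p → (v : ℕ) ∈ P → Ram (rbarB b) (v : ℕ)) →
      ∀ I : Ideal R, (∀ a ∈ I, pi0 πE a = 0) →
      (∀ v ∈ Rs, ∃ M : M₂ R, IsUnit (M.map (pi0 πE)) ∧
        ∀ σ ∈ decomp v, ConjConst ℤ (Y.annihilator ⊔ I) M (ρ σ)) →
      GenHypMZ p (rbarB b) (toP T) (Finset.univ.image qv) Rs (pi0 πE) ρ (Y.annihilator ⊔ I) :=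
    fun Rs hRs I hI hst => StepGen.genHyp_cell X C H hG (upE (lvl_mul_q hL qv) 0) huA hlev hinj haK
      hpalt Y hYG hY0 hYS Rs hRs I hI hst
  have hnil : IsNilpotent (RingHom.ker (pi0 πE)) := by
    have hfg : (RingHom.ker (pi0 πE)).FG := IsNoetherian.noetherian _
    exact (Ideal.FG.isNilpotent_iff_le_nilradical hfg).2 fun x hx =>
      mem_nilradical.2 (TopCtx.isNilpotent_of_pi0 H hx)
  have key : ∃ (κ : Type) (_ : Fintype κ) (u d : κ → R) (β' : R) (Nn : ℤ), Fintype.card κ = t ∧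
      (∀ k, pi0 πE (u k) = 0) ∧
      RingHom.ker (pi0 πE) ≤ Y.annihilator ⊔ Ideal.span (Set.range u) ⊔ Ideal.span {(p : R)} ∧
      (∀ v ∈ Rs0, ∃ k, u k = uu v ∧ d k = dd v) ∧
      ¬ (p : ℤ) ^ (N2.natAbs + ∑ v ∈ insert twoP Rs0, ff v + 1) ∣ Nn ∧
      (∀ x ∈ Y, (∀ k, (u k - (p : R) * d k) • x = 0) → β' • x = Nn • x) ∧
      β2 ∣ β' ∧ ∀ v ∈ Rs0, be v ∣ β' := by
    rcases hin2 with ⟨h2P', hval⟩ | ⟨hw2, hst2, hval⟩
    · obtain ⟨κ, _, u, d, h1, h2', h3, h4, h5, h6⟩ := mid_abs X.C hF.gen hRs0T hpR0 hw0 Y uu dd be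
        NN ff pkg0 β2 N2 N2.natAbs hval (not_pow_natAbs_dvd hp hN2)
        (hgh Rs0 fun v hv hvR hvp hvP => by
          exfalso
          refine hvR (Finset.mem_filter.2 ⟨hv, Finset.mem_insert_of_mem hvP, fun e => ?_⟩)
          exact h2P' (e ▸ hvP)) hnil
      refine ⟨κ, inferInstance, u, d, _, _, h1, h2', h3, h4, not_pow_dvd_mono h5 ?_, h6,
        Dvd.intro _ rfl, fun v hv => Dvd.dvd.mul_left (Finset.dvd_prod_of_mem be hv) _⟩
      exact Nat.add_le_add_left (Finset.sum_le_sum_of_subset (Finset.subset_insert _ _)) _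
    · have h2R : twoP ∉ Rs0 := fun h => hne2 _ h rfl
      obtain ⟨κ, _, u, d, h1, h2', h3, h4, h5, h6⟩ := mid_abs X.C hF.gen
        (Rs := insert twoP Rs0) (Finset.insert_subset (mem_toP'.2 h2T) hRs0T)
        (fun h => by
          rcases Finset.mem_insert.1 h with h | h
          · exact hp2 (congrArg Subtype.val h).symm
          · exact hpR0 h)
        (fun v hv => by
          rcases Finset.mem_insert.1 hv with h | h
          · rw [h]; exact hw2
          · exact hw0 v h) Y uu dd be NN ff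
        (fun v hv => by
          rcases Finset.mem_insert.1 hv with h | h
          · subst h
            have e1 : uu twoP = u2 := by rw [huu]; simp only [if_true]
            have e2 : dd twoP = dl2 := by rw [hdd]; simp only [if_true]
            have e3 : be twoP = β2 := by rw [hbe]; simp only [if_true]
            have e4 : NN twoP = N2 := by rw [hNNdef]; simp only [if_true]
            have h3 := hNN twoP
            rw [e1, e2, e3]
            rw [e4] at h3 ⊢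
            exact ⟨hu2, hst2, hval, h3⟩
          · exact pkg0 v h) 1 1 0 (fun x _ => by rw [one_smul, one_smul])
        (by
          rw [zero_add, pow_one]
          intro h
          have := Int.eq_one_of_dvd_one (by positivity) h
          exact hp.one_lt.ne' (by exact_mod_cast this))
        (hgh _ fun v hv hvR hvp hvP => by
          exfalso
          by_cases e : (v : ℕ) = 2
          · exact hvR (Finset.mem_insert.2 (Or.inl (Subtype.ext e)))
          · exact hvR (Finset.mem_insert_of_mem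
              (Finset.mem_filter.2 ⟨hv, Finset.mem_insert_of_mem hvP, e⟩))) hnil
      refine ⟨κ, inferInstance, u, d, _, _, h1, h2', h3,
        fun v hv => h4 v (Finset.mem_insert_of_mem hv), not_pow_dvd_mono h5 ?_, h6, ?_,
        fun v hv => Dvd.dvd.mul_left (Finset.dvd_prod_of_mem be (Finset.mem_insert_of_mem hv)) _⟩
      · omega
      · have e3 : be twoP = β2 := by rw [hbe]; simp only [if_true]
        rw [← e3]
        exact Dvd.dvd.mul_left (Finset.dvd_prod_of_mem be (Finset.mem_insert_self _ _)) _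
  obtain ⟨κ, _, u, d, β', Nn, hcard, hu0, hgen, hvar, hNn, hval, hβ2, hβ⟩ := key
  have e : κ ≃ Fin t := Fintype.equivFinOfCardEq hcard
  have hqR : (⟨q, hqpr⟩ : Nat.Primes) ∈ Rs0 :=
    Finset.mem_filter.2 ⟨mem_toP'.2 hqT, Finset.mem_insert_self _ _, hq2⟩
  have hall : ∀ (x : ↥(thTors p (↑(cutS T qv) : Set ℕ) W.apOfModel (lvl Lc' (extP qv) t) (K + 1))),
      (∀ k, ((u ∘ e.symm) k - (p : R) * (d ∘ e.symm) k) • x = 0) →
      ∀ k, (u k - (p : R) * d k) • x = 0 := fun x hx k => by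
    have := hx (e k)
    simpa using this
  refine ⟨u ∘ e.symm, d ∘ e.symm, β', Nn, ⟨fun k => hu0 _, ?_, hNn, ?_, ?_, ?_⟩⟩
  · rw [hann, EquivLike.range_comp]
    exact hgen
  · intro x hx hk
    exact hval x ((hYm x).2 hx) (hall x hk)
  · intro x hx hk
    obtain ⟨k, hk1, hk2⟩ := hvar _ hqR
    have h1 := hall x hk k
    have e1 : uu ⟨q, hqpr⟩ = (ρ (φ ⟨q, hqpr⟩)).trace - ((eps q : ℤ) : R) * ((q : R) + 1) := by
      rw [huu]; simp only [if_neg (hne2 _ hqR), if_true]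
    have e2 : dd ⟨q, hqpr⟩ = 0 := by rw [hdd]; simp only [if_neg (hne2 _ hqR), if_true]
    rw [hk1, hk2, e1, e2, mul_zero, sub_zero] at h1
    exact ⟨primeLocalPlace ⟨q, hqpr⟩, φ ⟨q, hqpr⟩, liesOverPrime_primeLocalPlace _, hφ _,
      mid_frob H (v := ⟨q, hqpr⟩)
        (C.det_frob H hqpr hqp (liesOverPrime_primeLocalPlace ⟨q, hqpr⟩) (hφ _)) x h1⟩
  · intro G' hG'gal hG'r
    obtain ⟨o1, o2, o3⟩ := hout2 β' hβ2 (G' : Set (JZero (lvl Lc' (extP qv) t))) fun x hx => by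
      obtain ⟨x₁, -, h⟩ := hG'r x hx
      exact ⟨x₁, h⟩
    have htors : ∀ x ∈ (G' : Set (JZero (lvl Lc' (extP qv) t))), ∃ n : ℕ, p ^ n • x = 0 := by
      intro x hx
      obtain ⟨x₁, -, rfl⟩ := hG'r x hx
      exact ⟨K + 1, (β' • x₁).2.2⟩
    refine ⟨fun r hr hrp => ?_, fun r hr hrT hrP hrp hram => ?_, fun r hr hrp hram => ?_⟩
    · by_cases hr2 : r = 2
      · subst hr2
        have h2P' : 2 ∈ P := (Finset.mem_insert.1 hr).resolve_left (Ne.symm hq2)
        exact ⟨o1 h2P', o2 (Or.inr h2P')⟩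
      · have hrpr := X.prime_of_mem_Pfin (hP' hr)
        have hrR : (⟨r, hrpr⟩ : Nat.Primes) ∈ Rs0 := Finset.mem_filter.2
          ⟨mem_toP'.2 (X.hbadT r hrpr (X.dvd_of_mem_Pfin (hP' hr))), hr, hr2⟩
        have hb := hβ _ hrR
        by_cases hrq : r = q
        · subst r
          have e3 : be ⟨q, hrpr⟩ =
              (ρ (φ ⟨q, hrpr⟩)).trace + ((eps q : ℤ) : R) * ((q : R) + 1) := by
            rw [hbe]; simp only [if_neg (hne2 _ hrR), if_true]
          rw [e3] at hb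
          exact mid_out_new H (hbb _ hrR) hb (Uup_gal (lvl_mul_q hL qv) a)
            (mid_rel_Uup (p := p) (S := (↑(cutS T qv) : Set ℕ)) (θ := W.apOfModel)
                (qv := qv) hqpr hp hqp hqN (lvl_mul_q hL qv) a
                (liesOverPrime_primeLocalPlace ⟨q, hrpr⟩) (hφ ⟨q, hrpr⟩)) hG'r
        · have e3 : be ⟨r, hrpr⟩ = bb ⟨r, hrpr⟩ := by
            rw [hbe]; simp only [if_neg (hne2 _ hrR), if_neg hrq]
          rw [e3] at hb
          exact mid_out_old H (hbb _ hrR) hb (Uup_gal (lvl_mul_q hL qv) a) hG'r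
    · by_cases hr2 : r = 2
      · subst hr2
        exact o3 hram fun h => hrP (Finset.mem_insert_of_mem h)
      · exact X.cell_ur_odd hP' hLc' hnotT _ htors hr hrT hrP hrp hr2 hram
    · by_cases hr2 : r = 2
      · subst hr2
        exact o2 (Or.inl hram)
      · exact X.cell_unip_odd hP' hLc' hnotT _ htors hr hrp hr2 hram

end Fermat.Agent.ML.Lift
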