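import Fermat.Agent.ML.Lift.Inst.SoftMid
import Fermat.Agent.ML.Lift.Inst.MidTwoPf

/-!
# ML / Lift / Inst / SoftMidMain : the contract **(MID)** `SoftMidStmt` of `ML/Lift/Soft/Spec.lean` is a theorem
-/

namespace Fermat.Agent.ML.Lift

/-- **(MID)**, soft primes. -/
theorem softMidStmt : SoftMidStmt := softMid_of midTwoStmt

end Fermat.Agent.ML.Lift
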